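import Fermat.Prelude.Def_CuspForm_HeckeGaloisRepDatum
import Fermat.Prelude.Def_ModularCurve_HeckeModule

/-!
# Item 72 (S29/S30/S42): interfaces

Definitions only (no theorems).  See `NOTES/GALREP_blueprint.md`.
-/

set_option autoImplicit false

open Polynomial

namespace Fermat.Agent.GalRep

/-- The absolute Galois group of `ℚ`, in the Prelude's model. -/
abbrev GQ : Type := AlgebraicClosure ℚ ≃ₐ[ℚ] AlgebraicClosure ℚ

/-- **Weak Chebotarev in the Prelude's language** (output of item 71 + bridge).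
For every finite level `L`, finite set `S` of primes and `g : G_ℚ` there is a Frobenius element
`τ` at a prime `ℓ ∉ S` which generates, on `L`, the same cyclic group as `g`. -/
def WeakCheb : Prop :=
  ∀ (L : IntermediateField ℚ (AlgebraicClosure ℚ)), FiniteDimensional ℚ L →
    ∀ (S : Finset ℕ) (g : GQ),
      ∃ (ℓ : ℕ) (A : ValuationSubring (AlgebraicClosure ℚ)) (τ : GQ) (k k' : ℕ),
        ℓ.Prime ∧ ℓ ∉ S ∧ A.LiesOverPrime ℓ ∧ A.IsFrobeniusAt τ ℓ ∧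
        (∀ x ∈ L, τ x = (g ^ k) x) ∧ (∀ x ∈ L, g x = (τ ^ k') x)

/-- `ρ` satisfies the Eichler–Shimura quadratic relation `F² - a_ℓ F + ℓ = 0` at every Frobenius
element at every prime `ℓ ∉ S`. -/
def QuadraticOutside {𝒪 : Type} [CommRing 𝒪] [IsLocalRing 𝒪] (ρ : GaloisRepAdic 𝒪)
    (S : Set ℕ) (a : ℕ → 𝒪) : Prop :=
  ∀ ℓ : ℕ, ℓ.Prime → ℓ ∉ S →
    ∀ A : ValuationSubring (AlgebraicClosure ℚ), A.LiesOverPrime ℓ →
      ∀ σ : GQ, A.IsFrobeniusAt σ ℓ →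
        ρ.ρ σ * ρ.ρ σ - a ℓ • ρ.ρ σ + (ℓ : 𝒪) • (1 : Module.End 𝒪 ρ.V) = 0

/-- `ρ` has the Eichler–Shimura characteristic polynomial `X² - a_ℓ X + ℓ` at every Frobenius
element at every prime `ℓ ∉ S`. -/
def CharpolyOutside {𝒪 : Type} [CommRing 𝒪] [IsLocalRing 𝒪] (ρ : GaloisRepAdic 𝒪)
    (S : Set ℕ) (a : ℕ → 𝒪) : Prop :=
  ∀ ℓ : ℕ, ℓ.Prime → ℓ ∉ S →
    ∀ A : ValuationSubring (AlgebraicClosure ℚ), A.LiesOverPrime ℓ →
      ∀ σ : GQ, A.IsFrobeniusAt σ ℓ →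
        LinearMap.charpoly (ρ.ρ σ) = X ^ 2 - C (a ℓ) * X + C ((ℓ : 𝒪))

open Classical in
/-- The eigenvalue function `ℓ ↦ χ(T_ℓ)` of a character of the Hecke algebra away from `S`
(junk value `0` at the primes where `T_ℓ` is not a generator). -/
noncomputable def heckeEigenvalue {N : ℕ} [NeZero N] {S : Set ℕ} {R : Type} [CommRing R]
    (χ : CuspForm.heckeAlgebra N 2 S →+* R) (ℓ : ℕ) : R :=
  if h : ℓ.Prime ∧ ¬ ℓ ∣ N ∧ ℓ ∉ S then χ (CuspForm.heckeAlgebra.T h.1 h.2.1 h.2.2) else 0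

end Fermat.Agent.GalRep
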