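import Fermat.Agent.GalRep.CoreB

/-!
# Item 72, piece G3 (part 3): the scalar case and the core theorem

If all `ρ₀ g` are scalars `α g`, the representation `α ⊕ χ_cyc α⁻¹` has the right characteristic
polynomials.
-/

set_option autoImplicit false

open Polynomial

namespace Fermat.Agent.GalRep

section Diag

variable {𝒪 : Type} [CommRing 𝒪] [IsLocalRing 𝒪]

/-- the pair of characters as a monoid hom to `Fin 2 → 𝒪`. -/
noncomputable def coreA_pair (α β : GQ →* 𝒪) : GQ →* (Fin 2 → 𝒪) where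
  toFun g := ![α g, β g]
  map_one' := by
    ext i
    fin_cases i <;> simp
  map_mul' g h := by
    ext i
    fin_cases i <;> simp

/-- the diagonal representation `α ⊕ β` on `Fin 2 → 𝒪`. -/
noncomputable def coreA_diagHom (α β : GQ →* 𝒪) : GQ →* Module.End 𝒪 (Fin 2 → 𝒪) :=
  (Matrix.toLinAlgEquiv' (R := 𝒪) (n := Fin 2)).toAlgHom.toRingHom.toMonoidHom.comp
    ((Matrix.diagonalRingHom (Fin 2) 𝒪).toMonoidHom.comp (coreA_pair α β))

omit [IsLocalRing 𝒪] in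
theorem coreA_diagHom_apply (α β : GQ →* 𝒪) (g : GQ) :
    coreA_diagHom α β g = Matrix.toLin' (Matrix.diagonal ![α g, β g]) := rfl

omit [IsLocalRing 𝒪] in
theorem coreA_diagHom_apply_apply (α β : GQ →* 𝒪) (g : GQ) (v : Fin 2 → 𝒪) (i : Fin 2) :
    coreA_diagHom α β g v i = ![α g, β g] i * v i := by
  rw [coreA_diagHom_apply, Matrix.toLin'_apply, Matrix.mulVec_diagonal]

theorem coreA_diagHom_eq_one (α β : GQ →* 𝒪) (g : GQ) (hα : α g = 1) (hβ : β g = 1) :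
    coreA_diagHom α β g = 1 := by
  ext v i
  rw [LinearMap.comp_apply, coreA_diagHom_apply_apply, hα, hβ]
  fin_cases i <;> simp

theorem coreA_charpoly (α β : GQ →* 𝒪) (g : GQ) :
    LinearMap.charpoly (coreA_diagHom α β g) = X ^ 2 - C (α g + β g) * X + C (α g * β g) := by
  rw [coreA_diagHom_apply, Matrix.charpoly_toLin', Matrix.charpoly_fin_two]
  simp

/-- the diagonal representation as a `GaloisRepAdic`. -/
noncomputable def coreA_diagRep (α β : GQ →* 𝒪)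
    (hα : ∀ n : ℕ, ∃ L : IntermediateField ℚ (AlgebraicClosure ℚ), FiniteDimensional ℚ L ∧
      ∀ σ : GQ, (∀ x ∈ L, σ x = x) → α σ - 1 ∈ IsLocalRing.maximalIdeal 𝒪 ^ n)
    (hβ : ∀ n : ℕ, ∃ L : IntermediateField ℚ (AlgebraicClosure ℚ), FiniteDimensional ℚ L ∧
      ∀ σ : GQ, (∀ x ∈ L, σ x = x) → β σ - 1 ∈ IsLocalRing.maximalIdeal 𝒪 ^ n) :
    GaloisRepAdic 𝒪 where
  V := Fin 2 → 𝒪
  finrank_eq := Module.finrank_fin_fun 𝒪
  ρ := coreA_diagHom α β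
  isAdicContinuous := by
    intro n
    obtain ⟨L₁, hL₁, h₁⟩ := hα n
    obtain ⟨L₂, hL₂, h₂⟩ := hβ n
    refine ⟨L₁ ⊔ L₂, ?_, ?_⟩
    · have := hL₁
      have := hL₂
      exact IntermediateField.finiteDimensional_sup L₁ L₂
    · intro σ hσ v
      have e₁ := h₁ σ (fun x hx => hσ x ((le_sup_left : L₁ ≤ L₁ ⊔ L₂) hx))
      have e₂ := h₂ σ (fun x hx => hσ x ((le_sup_right : L₂ ≤ L₁ ⊔ L₂) hx))
      apply coreMat_mem_smul_top_of_repr_mem (Pi.basisFun 𝒪 (Fin 2))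
      intro i
      rw [Pi.basisFun_repr, Pi.sub_apply, coreA_diagHom_apply_apply]
      have : ![α σ, β σ] i * v i - v i = (![α σ, β σ] i - 1) * v i := by ring
      rw [this]
      apply Ideal.mul_mem_right
      fin_cases i
      · exact e₁
      · exact e₂

end Diag

section ScalarCase

variable (p : ℕ) {𝒪 : Type} [CommRing 𝒪] [IsDomain 𝒪] [IsDiscreteValuationRing 𝒪]

/-- the scalar by which `ρ g` acts, in the scalar case. -/
noncomputable def coreA_alpha (ρ : GaloisRepAdic 𝒪)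
    (hs : ∀ g : GQ, ∃ c : 𝒪, ρ.ρ g = c • (1 : Module.End 𝒪 ρ.V)) : GQ →* 𝒪 where
  toFun g := coreMat ρ g 0 0
  map_one' := by rw [map_one, Matrix.one_apply_eq]
  map_mul' g h := by
    obtain ⟨c, hc⟩ := hs g
    obtain ⟨d, hd⟩ := hs h
    have hc' := (coreMat_eq_smul_one_iff ρ g c).mpr hc
    have hd' := (coreMat_eq_smul_one_iff ρ h d).mpr hd
    rw [map_mul, hc', hd']
    simp [mul_comm]

theorem coreA_alpha_spec (ρ : GaloisRepAdic 𝒪)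
    (hs : ∀ g : GQ, ∃ c : 𝒪, ρ.ρ g = c • (1 : Module.End 𝒪 ρ.V)) (g : GQ) :
    ρ.ρ g = coreA_alpha ρ hs g • (1 : Module.End 𝒪 ρ.V) := by
  obtain ⟨c, hc⟩ := hs g
  have hc' := (coreMat_eq_smul_one_iff ρ g c).mpr hc
  have : coreA_alpha ρ hs g = c := by
    show coreMat ρ g 0 0 = c
    rw [hc']
    simp
  rw [this, hc]

theorem coreA_smul_one_injective (ρ : GaloisRepAdic 𝒪) (c d : 𝒪)
    (h : c • (1 : Module.End 𝒪 ρ.V) = d • (1 : Module.End 𝒪 ρ.V)) : c = d := by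
  have h1 := congrArg (LinearMap.toMatrixAlgEquiv (coreBasis ρ)) h
  rw [map_smul, map_smul, map_one] at h1
  have h2 := congrFun (congrFun h1 0) 0
  simpa using h2

/-- **Case A.** -/
theorem coreA_exists (S : Finset ℕ) (hpS : p ∈ S)
    (a : ℕ → 𝒪) (ρ₀ : GaloisRepAdic 𝒪) (hq : QuadraticOutside ρ₀ (↑S : Set ℕ) a)
    (χ : GQ →* 𝒪ˣ) (hχ : IsCycloChar p 𝒪 χ)
    (hs : ∀ g : GQ, ∃ c : 𝒪, ρ₀.ρ g = c • (1 : Module.End 𝒪 ρ₀.V)) :
    ∃ ρ : GaloisRepAdic 𝒪, CharpolyOutside ρ (↑S : Set ℕ) a ∧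
      ∀ q : ℕ, q.Prime → q ≠ p → ρ₀.IsUnramifiedAt q → ρ.IsUnramifiedAt q := by
  classical
  set α₀ : GQ →* 𝒪 := coreA_alpha ρ₀ hs with hα₀
  set αu : GQ →* 𝒪ˣ := α₀.toHomUnits with hαu
  set βu : GQ →* 𝒪ˣ := χ * αu⁻¹ with hβu
  set β₀ : GQ →* 𝒪 := (Units.coeHom 𝒪).comp βu with hβ₀
  have hαval : ∀ g, (αu g : 𝒪) = α₀ g := fun g => rfl
  have hβval : ∀ g, β₀ g = (χ g : 𝒪) * ((αu g)⁻¹ : 𝒪ˣ) := fun g => rfl
  have hαβ : ∀ g, α₀ g * β₀ g = (χ g : 𝒪) := by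
    intro g
    rw [hβval, ← hαval, mul_comm (χ g : 𝒪), ← mul_assoc, Units.mul_inv, one_mul]
  -- continuity of `α₀`
  have hαc : ∀ n : ℕ, ∃ L : IntermediateField ℚ (AlgebraicClosure ℚ), FiniteDimensional ℚ L ∧
      ∀ σ : GQ, (∀ x ∈ L, σ x = x) → α₀ σ - 1 ∈ IsLocalRing.maximalIdeal 𝒪 ^ n := by
    intro n
    obtain ⟨L, hL, h⟩ := exists_level_coreMatMod ρ₀ n
    refine ⟨L, hL, fun σ hσ => ?_⟩
    have h1 := congrFun (congrFun (h σ hσ) 0) 0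
    rw [coreMatMod_apply, Matrix.map_apply, Matrix.one_apply_eq,
      ← map_one (Ideal.Quotient.mk (IsLocalRing.maximalIdeal 𝒪 ^ n))] at h1
    exact Ideal.Quotient.eq.mp h1
  -- continuity of `β₀`
  have hβc : ∀ n : ℕ, ∃ L : IntermediateField ℚ (AlgebraicClosure ℚ), FiniteDimensional ℚ L ∧
      ∀ σ : GQ, (∀ x ∈ L, σ x = x) → β₀ σ - 1 ∈ IsLocalRing.maximalIdeal 𝒪 ^ n := by
    intro n
    obtain ⟨L₁, hL₁, h₁⟩ := hαc n
    obtain ⟨L₂, hL₂, h₂⟩ := hχ.1 n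
    refine ⟨L₁ ⊔ L₂, ?_, ?_⟩
    · have := hL₁
      have := hL₂
      exact IntermediateField.finiteDimensional_sup L₁ L₂
    · intro σ hσ
      have e₁ := h₁ σ (fun x hx => hσ x ((le_sup_left : L₁ ≤ L₁ ⊔ L₂) hx))
      have e₂ := h₂ σ (fun x hx => hσ x ((le_sup_right : L₂ ≤ L₁ ⊔ L₂) hx))
      -- β − 1 = α⁻¹ ((χ − 1) − (α − 1))
      have : β₀ σ - 1 = (((αu σ)⁻¹ : 𝒪ˣ) : 𝒪) * (((χ σ : 𝒪) - 1) - (α₀ σ - 1)) := by
        rw [hβval, ← hαval]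
        have hu : (((αu σ)⁻¹ : 𝒪ˣ) : 𝒪) * (αu σ : 𝒪) = 1 := Units.inv_mul _
        linear_combination hu
      rw [this]
      exact Ideal.mul_mem_left _ _ (Ideal.sub_mem _ e₂ e₁)
  refine ⟨coreA_diagRep α₀ β₀ hαc hβc, ?_, ?_⟩
  · intro ℓ hℓ hℓS A hA σ hσ
    have hℓp : ℓ ≠ p := fun h => hℓS (by rw [h]; exact_mod_cast hpS)
    have hχσ : (χ σ : 𝒪) = (ℓ : 𝒪) := hχ.2.1 ℓ hℓ hℓp A hA σ hσ
    -- the quadratic relation for the scalar
    have hquad := hq ℓ hℓ hℓS A hA σ hσ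
    rw [coreA_alpha_spec ρ₀ hs σ] at hquad
    have hrel : α₀ σ * α₀ σ - a ℓ * α₀ σ + (ℓ : 𝒪) = 0 := by
      apply coreA_smul_one_injective ρ₀
      rw [zero_smul, ← hquad]
      simp only [mul_smul_comm, mul_one, smul_smul, add_smul, sub_smul]
      rfl
    have htr : α₀ σ + β₀ σ = a ℓ := by
      have hu : (((αu σ)⁻¹ : 𝒪ˣ) : 𝒪) * α₀ σ = 1 := Units.inv_mul _
      rw [hβval, hχσ]
      linear_combination (((αu σ)⁻¹ : 𝒪ˣ) : 𝒪) * hrel - (α₀ σ - a ℓ) * hu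
    show LinearMap.charpoly (coreA_diagHom α₀ β₀ σ) = _
    rw [coreA_charpoly, htr, hαβ, hχσ]
  · intro q hq' hqp hunr A hA σ hσ
    show coreA_diagHom α₀ β₀ σ = 1
    have h1 : ρ₀.ρ σ = 1 := hunr A hA σ hσ
    have hα1 : α₀ σ = 1 := by
      apply coreA_smul_one_injective ρ₀
      rw [← coreA_alpha_spec ρ₀ hs σ, h1, one_smul]
    have hχ1 : χ σ = 1 := hχ.2.2 q hq' hqp A hA σ hσ
    have hβ1 : β₀ σ = 1 := by
      have hαu1 : αu σ = 1 := Units.ext hα1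
      rw [hβval, hχ1, hαu1]
      simp
    exact coreA_diagHom_eq_one α₀ β₀ σ hα1 hβ1

end ScalarCase

section Core

variable (p : ℕ) {𝒪 : Type} [CommRing 𝒪] [IsDomain 𝒪] [IsDiscreteValuationRing 𝒪] [CharZero 𝒪]

/-- **G3, the core theorem** (relative to a cyclotomic character `χ`). -/
theorem exists_charpolyOutside_of_cycloChar (hcheb : WeakCheb) (S : Finset ℕ) (hpS : p ∈ S)
    (a : ℕ → 𝒪) (ρ₀ : GaloisRepAdic 𝒪) (hq : QuadraticOutside ρ₀ (↑S : Set ℕ) a)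
    (χ : GQ →* 𝒪ˣ) (hχ : IsCycloChar p 𝒪 χ) :
    ∃ ρ : GaloisRepAdic 𝒪, CharpolyOutside ρ (↑S : Set ℕ) a ∧
      ∀ q : ℕ, q.Prime → q ≠ p → ρ₀.IsUnramifiedAt q → ρ.IsUnramifiedAt q := by
  by_cases hs : ∀ g : GQ, ∃ c : 𝒪, ρ₀.ρ g = c • (1 : Module.End 𝒪 ρ₀.V)
  · exact coreA_exists p S hpS a ρ₀ hq χ hχ hs
  · simp only [not_forall, not_exists] at hs
    obtain ⟨g₀, hg₀⟩ := hs
    exact ⟨ρ₀, coreB_charpolyOutside p hcheb S hpS a ρ₀ hq χ hχ g₀ hg₀, fun _ _ _ h => h⟩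

end Core

end Fermat.Agent.GalRep
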