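/-
Item 72 (Galois representations of eigenforms), piece G2 (helper8):
the `p`-adic cyclotomic character with values in `𝒪ˣ` for a complete local ring `𝒪` with
`p ∈ 𝔪`: continuity, `χ(Frob_ℓ) = ℓ` for `ℓ ≠ p`, unramified outside `p`.
-/
import Mathlib
import Fermat.Agent.GalRep.Interface

set_option autoImplicit false

namespace Fermat.Agent.GalRep

open IsLocalRing

section padicHom

variable (p : ℕ) [Fact p.Prime] (𝒪 : Type) [CommRing 𝒪] [IsLocalRing 𝒪]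

omit [Fact p.Prime] in
theorem cyclo_pow_eq_zero (hp : (p : 𝒪) ∈ maximalIdeal 𝒪) (n : ℕ) :
    ((p ^ n : ℕ) : 𝒪 ⧸ maximalIdeal 𝒪 ^ n) = 0 := by
  have h : ((p ^ n : ℕ) : 𝒪) ∈ maximalIdeal 𝒪 ^ n := by
    push_cast
    exact Ideal.pow_mem_pow hp n
  rw [← map_natCast (Ideal.Quotient.mk (maximalIdeal 𝒪 ^ n))]
  exact Ideal.Quotient.eq_zero_iff_mem.mpr h

/-- `ℤ/pⁿ → 𝒪/𝔪ⁿ` -/
noncomputable def cyclo_zmodHom (hp : (p : 𝒪) ∈ maximalIdeal 𝒪) (n : ℕ) :
    ZMod (p ^ n) →+* 𝒪 ⧸ maximalIdeal 𝒪 ^ n :=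
  ZMod.castHom (ringChar.dvd (cyclo_pow_eq_zero p 𝒪 hp n)) _

/-- `ℤ_p → 𝒪/𝔪ⁿ` -/
noncomputable def cyclo_level (hp : (p : 𝒪) ∈ maximalIdeal 𝒪) (n : ℕ) :
    ℤ_[p] →+* 𝒪 ⧸ maximalIdeal 𝒪 ^ n :=
  (cyclo_zmodHom p 𝒪 hp n).comp (PadicInt.toZModPow n)

theorem cyclo_level_compat (hp : (p : 𝒪) ∈ maximalIdeal 𝒪) {m n : ℕ} (hle : m ≤ n) :
    (Ideal.Quotient.factorPow (maximalIdeal 𝒪) hle).comp (cyclo_level p 𝒪 hp n)
      = cyclo_level p 𝒪 hp m := by
  have h1 : PadicInt.toZModPow (p := p) m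
      = (ZMod.castHom (pow_dvd_pow p hle) (ZMod (p ^ m))).comp (PadicInt.toZModPow n) :=
    (PadicInt.zmod_cast_comp_toZModPow m n hle).symm
  unfold cyclo_level
  rw [h1, ← RingHom.comp_assoc, ← RingHom.comp_assoc]
  congr 1
  exact Subsingleton.elim _ _

variable [IsAdicComplete (maximalIdeal 𝒪) 𝒪]

/-- the canonical ring homomorphism `ℤ_p → 𝒪` -/
noncomputable def cyclo_padicHom (hp : (p : 𝒪) ∈ maximalIdeal 𝒪) : ℤ_[p] →+* 𝒪 :=
  IsAdicComplete.liftRingHom (maximalIdeal 𝒪) (cyclo_level p 𝒪 hp)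
    (fun hle => cyclo_level_compat p 𝒪 hp hle)

theorem cyclo_mk_padicHom (hp : (p : 𝒪) ∈ maximalIdeal 𝒪) (n : ℕ) (x : ℤ_[p]) :
    Ideal.Quotient.mk (maximalIdeal 𝒪 ^ n) (cyclo_padicHom p 𝒪 hp x)
      = cyclo_zmodHom p 𝒪 hp n (PadicInt.toZModPow n x) :=
  IsAdicComplete.mk_liftRingHom _ _ _ n x

theorem cyclo_padicHom_sub_one_mem (hp : (p : 𝒪) ∈ maximalIdeal 𝒪) (n : ℕ) (x : ℤ_[p])
    (hx : PadicInt.toZModPow n x = 1) :
    cyclo_padicHom p 𝒪 hp x - 1 ∈ maximalIdeal 𝒪 ^ n := by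
  rw [← Ideal.Quotient.eq_zero_iff_mem, map_sub, cyclo_mk_padicHom, hx, map_one, map_one,
    sub_self]

end padicHom

section roots

variable (A : ValuationSubring (AlgebraicClosure ℚ))

/-- a root of unity lies in every valuation subring -/
theorem cyclo_mem_of_pow_eq_one {ξ : AlgebraicClosure ℚ} {N : ℕ} (hN : N ≠ 0)
    (h : ξ ^ N = 1) : ξ ∈ A := by
  rcases A.mem_or_inv_mem ξ with h1 | h1
  · exact h1
  · have h2 : ξ = ξ⁻¹ ^ (N - 1) := by
      have hξ : ξ ≠ 0 := by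
        rintro rfl
        rw [zero_pow hN] at h
        exact zero_ne_one h
      have h3 : ξ ^ N = ξ ^ (N - 1) * ξ := by
        rw [← pow_succ, Nat.sub_add_cancel (Nat.one_le_iff_ne_zero.mpr hN)]
      rw [inv_pow]
      field_simp
      rw [mul_comm, ← h3, h]
    rw [h2]
    exact pow_mem h1 _

/-- natural numbers in the maximal ideal -/
theorem cyclo_natCast_residue_eq_zero {ℓ : ℕ} (hℓ : (ℓ : AlgebraicClosure ℚ) ∈ A.nonunits) :
    ((ℓ : ℕ) : ResidueField A) = 0 := by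
  have h1 : ((ℓ : A) : AlgebraicClosure ℚ) = (ℓ : AlgebraicClosure ℚ) := by simp
  rw [← h1, ValuationSubring.coe_mem_nonunits_iff, ← IsLocalRing.residue_eq_zero_iff,
    map_natCast] at hℓ
  exact hℓ

/-- roots of unity of order prime to the residue characteristic are distinct mod `𝔪_A` -/
theorem cyclo_eq_one_of_residue {ℓ N : ℕ} (hℓ : (ℓ : AlgebraicClosure ℚ) ∈ A.nonunits)
    (hcop : Nat.Coprime N ℓ) {ξ : AlgebraicClosure ℚ} (h : ξ ^ N = 1) (hmem : ξ ∈ A)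
    (hres : residue A ⟨ξ, hmem⟩ = 1) : ξ = 1 := by
  by_contra hne
  have hsum : (∑ i ∈ Finset.range N, ξ ^ i) = 0 := by
    have h1 := geom_sum_mul ξ N
    rw [h, sub_self] at h1
    rcases mul_eq_zero.mp h1 with h2 | h2
    · exact h2
    · exact absurd (sub_eq_zero.mp h2) hne
  have hsumA : (∑ i ∈ Finset.range N, (⟨ξ, hmem⟩ : A) ^ i) = 0 := by
    apply Subtype.ext
    push_cast
    exact hsum
  have hkN : ((N : ℕ) : ResidueField A) = 0 := by
    have := congrArg (residue A) hsumA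
    rw [map_sum] at this
    simp only [map_pow, hres, one_pow, Finset.sum_const, Finset.card_range, map_zero,
      nsmul_eq_mul, mul_one] at this
    exact this
  have hkℓ := cyclo_natCast_residue_eq_zero A hℓ
  obtain ⟨a, b, hab⟩ := Nat.isCoprime_iff_coprime.mpr hcop
  have h1 := congrArg (Int.cast : ℤ → ResidueField A) hab
  push_cast at h1
  rw [hkN, hkℓ, mul_zero, mul_zero, add_zero] at h1
  exact zero_ne_one h1

/-- two roots of unity which are congruent mod `𝔪_A` are equal -/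
theorem cyclo_eq_of_residue {ℓ N : ℕ} (hN : N ≠ 0) (hℓ : (ℓ : AlgebraicClosure ℚ) ∈ A.nonunits)
    (hcop : Nat.Coprime N ℓ) {ξ η : AlgebraicClosure ℚ} (hξ : ξ ^ N = 1) (hη : η ^ N = 1)
    (hres : residue A ⟨ξ, cyclo_mem_of_pow_eq_one A hN hξ⟩
      = residue A ⟨η, cyclo_mem_of_pow_eq_one A hN hη⟩) : ξ = η := by
  have hη0 : η ≠ 0 := by
    rintro rfl
    rw [zero_pow hN] at hη
    exact zero_ne_one hη
  have hinv : (η⁻¹) ^ N = 1 := by rw [inv_pow, hη, inv_one]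
  have hq : (ξ * η⁻¹) ^ N = 1 := by rw [mul_pow, hξ, hinv, one_mul]
  have hmemq : ξ * η⁻¹ ∈ A := cyclo_mem_of_pow_eq_one A hN hq
  have hmul : (⟨ξ * η⁻¹, hmemq⟩ : A) * ⟨η, cyclo_mem_of_pow_eq_one A hN hη⟩
      = ⟨ξ, cyclo_mem_of_pow_eq_one A hN hξ⟩ := by
    apply Subtype.ext
    show ξ * η⁻¹ * η = ξ
    field_simp
  have hunit : residue A ⟨η, cyclo_mem_of_pow_eq_one A hN hη⟩ ≠ 0 := by
    intro h0
    have h1 : (residue A ⟨η, cyclo_mem_of_pow_eq_one A hN hη⟩) ^ N = 1 := by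
      rw [← map_pow]
      have : (⟨η, cyclo_mem_of_pow_eq_one A hN hη⟩ : A) ^ N = 1 := by
        apply Subtype.ext
        push_cast
        exact hη
      rw [this, map_one]
    rw [h0, zero_pow hN] at h1
    exact zero_ne_one h1
  have hres1 : residue A ⟨ξ * η⁻¹, hmemq⟩ = 1 := by
    have h1 := congrArg (residue A) hmul
    rw [map_mul, hres] at h1
    exact mul_right_cancel₀ hunit (h1.trans (one_mul _).symm)
  have h1 := cyclo_eq_one_of_residue A hℓ hcop hq hmemq hres1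
  field_simp at h1
  exact h1

end roots

section char

variable (p : ℕ) [Fact p.Prime]

/-- the `p`-adic cyclotomic character of `G_ℚ` -/
noncomputable def cyclo_chi : GQ →* ℤ_[p]ˣ :=
  MonoidHom.mk'
    (fun σ => cyclotomicCharacter (AlgebraicClosure ℚ) p
      (σ : AlgebraicClosure ℚ ≃+* AlgebraicClosure ℚ))
    (fun a b => by rw [← map_mul]; congr 1)

theorem cyclo_toZModPow_eq (σ : GQ) (e n : ℕ)
    (h : ∀ t : AlgebraicClosure ℚ, t ^ p ^ n = 1 → σ t = t ^ e) :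
    PadicInt.toZModPow n ((cyclo_chi p σ : ℤ_[p]ˣ) : ℤ_[p]) = (e : ZMod (p ^ n)) := by
  have h1 := cyclotomicCharacter.toZModPow (L := AlgebraicClosure ℚ) p (n := n)
    (σ : AlgebraicClosure ℚ ≃+* AlgebraicClosure ℚ)
  have h2 := modularCyclotomicCharacter.unique (L := AlgebraicClosure ℚ)
    (HasEnoughRootsOfUnity.natCard_rootsOfUnity (AlgebraicClosure ℚ) (p ^ n))
    (σ : AlgebraicClosure ℚ ≃+* AlgebraicClosure ℚ) (c := (e : ZMod (p ^ n))) (by
      intro t ht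
      have ht1 : ((t : (AlgebraicClosure ℚ)ˣ) : AlgebraicClosure ℚ) ^ p ^ n = 1 := by
        have := (mem_rootsOfUnity _ _).mp ht
        rw [← Units.val_pow_eq_pow_val, this, Units.val_one]
      have h3 := h _ ht1
      rw [ZMod.val_natCast, ← pow_eq_pow_mod e ht1]
      exact h3)
  show PadicInt.toZModPow n ((cyclotomicCharacter (AlgebraicClosure ℚ) p
    (σ : AlgebraicClosure ℚ ≃+* AlgebraicClosure ℚ) : ℤ_[p]ˣ) : ℤ_[p]) = _
  rw [h1, ← h2]

theorem cyclo_chi_eq_natCast (σ : GQ) (e : ℕ)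
    (h : ∀ (n : ℕ) (t : AlgebraicClosure ℚ), t ^ p ^ n = 1 → σ t = t ^ e) :
    ((cyclo_chi p σ : ℤ_[p]ˣ) : ℤ_[p]) = (e : ℤ_[p]) := by
  refine PadicInt.ext_of_toZModPow.mp fun n => ?_
  rw [cyclo_toZModPow_eq p σ e n (h n), map_natCast]

end char

section assembly

variable (p : ℕ) [Fact p.Prime]

/-- an element of the decomposition group acting as `x ↦ x ^ e` on the residue field acts as
`t ↦ t ^ e` on the `p`-power roots of unity (residue characteristic `ℓ ≠ p`) -/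
theorem cyclo_map_root_of_residue (A : ValuationSubring (AlgebraicClosure ℚ)) {ℓ : ℕ}
    (hℓ : (ℓ : AlgebraicClosure ℚ) ∈ A.nonunits) (hpℓ : Nat.Coprime p ℓ) (σ : GQ)
    (hσ : σ ∈ A.decompositionSubgroup ℚ) (e : ℕ)
    (hact : ∀ x : ResidueField A, (⟨σ, hσ⟩ : A.decompositionSubgroup ℚ) • x = x ^ e)
    (n : ℕ) (t : AlgebraicClosure ℚ) (ht : t ^ p ^ n = 1) : σ t = t ^ e := by
  have hN : p ^ n ≠ 0 := pow_ne_zero _ (Fact.out : p.Prime).ne_zero
  have h1 : (σ t) ^ p ^ n = 1 := by rw [← map_pow, ht, map_one]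
  have h2 : (t ^ e) ^ p ^ n = 1 := by rw [← pow_mul, mul_comm, pow_mul, ht, one_pow]
  refine cyclo_eq_of_residue A hN hℓ (Nat.Coprime.pow_left n hpℓ) h1 h2 ?_
  have hmem : t ∈ A := cyclo_mem_of_pow_eq_one A hN ht
  have h3 := hact (residue A ⟨t, hmem⟩)
  rw [← IsLocalRing.ResidueField.residue_smul, ← map_pow] at h3
  exact h3

variable (𝒪 : Type) [CommRing 𝒪] [IsLocalRing 𝒪] [IsAdicComplete (maximalIdeal 𝒪) 𝒪]

/-- G2. the `p`-adic cyclotomic character with values in `𝒪ˣ`. -/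
theorem exists_cycloChar (hp : (p : 𝒪) ∈ IsLocalRing.maximalIdeal 𝒪) :
    ∃ χ : GQ →* 𝒪ˣ,
      (∀ n : ℕ, ∃ L : IntermediateField ℚ (AlgebraicClosure ℚ), FiniteDimensional ℚ L ∧
        ∀ σ : GQ, (∀ x ∈ L, σ x = x) → ((χ σ : 𝒪) - 1) ∈ IsLocalRing.maximalIdeal 𝒪 ^ n) ∧
      (∀ ℓ : ℕ, ℓ.Prime → ℓ ≠ p → ∀ A : ValuationSubring (AlgebraicClosure ℚ),
        A.LiesOverPrime ℓ → ∀ σ : GQ, A.IsFrobeniusAt σ ℓ → (χ σ : 𝒪) = (ℓ : 𝒪)) ∧
      (∀ q : ℕ, q.Prime → q ≠ p → ∀ A : ValuationSubring (AlgebraicClosure ℚ),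
        A.LiesOverPrime q → ∀ σ ∈ A.inertiaSubgroupIn ℚ, χ σ = 1) := by
  have hpp : p.Prime := Fact.out
  refine ⟨(Units.map (cyclo_padicHom p 𝒪 hp).toMonoidHom).comp (cyclo_chi p), ?_, ?_, ?_⟩
  · -- continuity
    intro n
    obtain ⟨ζ, hζ⟩ := HasEnoughRootsOfUnity.exists_primitiveRoot (AlgebraicClosure ℚ) (p ^ n)
    have hN : p ^ n ≠ 0 := pow_ne_zero _ hpp.ne_zero
    have hint : IsIntegral ℚ ζ := (hζ.isIntegral (Nat.pos_of_ne_zero hN)).tower_top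
    refine ⟨IntermediateField.adjoin ℚ {ζ}, IntermediateField.adjoin.finiteDimensional hint,
      fun σ hσ => ?_⟩
    have hσζ : σ ζ = ζ := hσ ζ (IntermediateField.mem_adjoin_simple_self ℚ ζ)
    have hall : ∀ t : AlgebraicClosure ℚ, t ^ p ^ n = 1 → σ t = t ^ 1 := by
      intro t ht
      have : NeZero (p ^ n) := ⟨hN⟩
      obtain ⟨i, -, rfl⟩ := hζ.eq_pow_of_pow_eq_one ht
      rw [map_pow, hσζ, pow_one]
    have h1 := cyclo_toZModPow_eq p σ 1 n hall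
    rw [Nat.cast_one] at h1
    exact cyclo_padicHom_sub_one_mem p 𝒪 hp n _ h1
  · -- Frobenius
    intro ℓ hℓ hℓp A hA σ hσ
    obtain ⟨hσd, hfrob⟩ := hσ
    have hcop : Nat.Coprime p ℓ := (Nat.coprime_primes hpp hℓ).mpr (Ne.symm hℓp)
    have h1 := cyclo_chi_eq_natCast p σ ℓ
      (fun n t ht => cyclo_map_root_of_residue p A hA hcop σ hσd ℓ hfrob n t ht)
    show cyclo_padicHom p 𝒪 hp ((cyclo_chi p σ : ℤ_[p]ˣ) : ℤ_[p]) = (ℓ : 𝒪)
    rw [h1, map_natCast]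
  · -- inertia
    intro q hq hqp A hA σ hσ
    obtain ⟨g, hg, rfl⟩ := hσ
    have hcop : Nat.Coprime p q := (Nat.coprime_primes hpp hq).mpr (Ne.symm hqp)
    have hact : ∀ x : ResidueField A,
        (⟨(g : GQ), g.2⟩ : A.decompositionSubgroup ℚ) • x = x ^ 1 := by
      intro x
      have h1 : MulSemiringAction.toRingAut (A.decompositionSubgroup ℚ)
          (IsLocalRing.ResidueField A) g = 1 := hg
      have h2 := congrArg (fun f : RingAut (IsLocalRing.ResidueField A) => f x) h1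
      rw [pow_one]
      simpa using h2
    have h1 := cyclo_chi_eq_natCast p (g : GQ) 1
      (fun n t ht => cyclo_map_root_of_residue p A hA hcop (g : GQ) g.2 1 hact n t ht)
    rw [Nat.cast_one] at h1
    apply Units.ext
    show cyclo_padicHom p 𝒪 hp ((cyclo_chi p (g : GQ) : ℤ_[p]ˣ) : ℤ_[p]) = 1
    rw [h1, map_one]

end assembly

end Fermat.Agent.GalRep
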