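import Mathlib
import Fermat.Agent.GalRep.Interface
import Fermat.Prelude.Def_ModularCurve_PeriodMap
import Fermat.Prelude.Def_CuspForm_HeckeEvalForms

/-!
# Item 72, layer 2: shared definitions

* `eigenSub A T c`: the simultaneous eigen-submodule of `A ⊗[ℤ] Λ` for a family `T` of
  endomorphisms of the lattice `Λ` with eigenvalues `c`.
* `HLat N`: the Hecke lattice `H¹_par(Γ₀(N), ℤ)` (Prelude `parabolicHoms`).
* `J1Statement`, `J2Statement`, `J3algStatement`: the statements of the pieces J1, J2, J3-alg as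
  `Prop`s (so that the final assembly can be written before the pieces land).

Definitions only.
-/

set_option autoImplicit false

open scoped TensorProduct

namespace Fermat.Agent.GalRep

/-- the simultaneous eigen-submodule of `A ⊗ Λ` -/
def eigenSub (A : Type) [CommRing A] {Λ : Type} [AddCommGroup Λ] {ι : Type}
    (T : ι → (Λ →ₗ[ℤ] Λ)) (c : ι → A) : Submodule A (A ⊗[ℤ] Λ) :=
  ⨅ i, LinearMap.ker ((T i).baseChange A - c i • (1 : Module.End A (A ⊗[ℤ] Λ)))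

theorem mem_eigenSub_iff (A : Type) [CommRing A] {Λ : Type} [AddCommGroup Λ] {ι : Type}
    (T : ι → (Λ →ₗ[ℤ] Λ)) (c : ι → A) (v : A ⊗[ℤ] Λ) :
    v ∈ eigenSub A T c ↔ ∀ i, (T i).baseChange A v = c i • v := by
  simp only [eigenSub, Submodule.mem_iInf, LinearMap.mem_ker, LinearMap.sub_apply,
    LinearMap.smul_apply, Module.End.one_apply, sub_eq_zero]

/-- the Hecke lattice `H¹_par(Γ₀(N), ℤ)` -/
abbrev HLat (N : ℕ) : Type :=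
  ModularCurve.Period.parabolicHoms ℤ (CongruenceSubgroup.Gamma0 N) ℤ

/-- statement of piece J1 (`exists_limitHom`). -/
def J1Statement : Prop :=
  ∀ (p : ℕ) {J : Type} [AddCommGroup J] {Λ : Type} [AddCommGroup Λ]
    [Module.Free ℤ Λ] [Module.Finite ℤ Λ]
    (e : ℕ → Λ →+ J)
    (_e_range : ∀ (n : ℕ) (x : J), p ^ n • x = 0 → ∃ l, e n l = x)
    (_e_ker : ∀ (n : ℕ) (l : Λ), e n l = 0 ↔ ∃ m : Λ, l = p ^ n • m)
    (_e_succ : ∀ (n : ℕ) (l : Λ), p • e (n + 1) l = e n l)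
    (𝒪 : Type) [CommRing 𝒪] [IsLocalRing 𝒪] [IsAdicComplete (IsLocalRing.maximalIdeal 𝒪) 𝒪]
    (_hp : (p : 𝒪) ∈ IsLocalRing.maximalIdeal 𝒪),
    ∃ Φ : AddMonoid.End J →+* Module.End 𝒪 (𝒪 ⊗[ℤ] Λ),
      (∀ (n : ℕ) (φ : AddMonoid.End J), (∀ x : J, p ^ n • x = 0 → φ x = 0) →
          ∀ m, Φ φ m ∈ (IsLocalRing.maximalIdeal 𝒪 ^ n) • (⊤ : Submodule 𝒪 (𝒪 ⊗[ℤ] Λ))) ∧
      (∀ (φ : AddMonoid.End J) (ψ : Λ →ₗ[ℤ] Λ), (∀ n l, φ (e n l) = e n (ψ l)) →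
          Φ φ = ψ.baseChange 𝒪)

/-- statement of piece J2 (`exists_galoisRepAdic_of_stable`). -/
def J2Statement : Prop :=
  ∀ {𝒪 : Type} [CommRing 𝒪] [IsDomain 𝒪]
    [IsDiscreteValuationRing 𝒪] {M : Type} [AddCommGroup M] [Module 𝒪 M] [Module.Free 𝒪 M]
    [Module.Finite 𝒪 M]
    (ρ : GQ →* Module.End 𝒪 M) (_hcont : GaloisActionIsAdicContinuous 𝒪 ρ)
    (E : Submodule 𝒪 M) (_hsat : ∀ (c : 𝒪) (v : M), c ≠ 0 → c • v ∈ E → v ∈ E)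
    (_hstab : ∀ (σ : GQ), ∀ v ∈ E, ρ σ v ∈ E) (_hrank : Module.finrank 𝒪 E = 2),
    ∃ (ρE : GaloisRepAdic 𝒪) (f : ρE.V →ₗ[𝒪] M), Function.Injective f ∧ (∀ v, f v ∈ E) ∧
      ∀ σ v, f (ρE.ρ σ v) = ρ σ (f v)

/-- statement of piece J3-alg (`finrank_eigenSub` + `eigenSub_saturated`). -/
def J3algStatement : Prop :=
  (∀ (𝒪 : Type) [CommRing 𝒪] [IsDomain 𝒪] [IsDiscreteValuationRing 𝒪]
    (K : Type) [Field K] [Algebra 𝒪 K] [IsFractionRing 𝒪 K]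
    {Λ : Type} [AddCommGroup Λ] [Module.Free ℤ Λ] [Module.Finite ℤ Λ] {ι : Type}
    (T : ι → (Λ →ₗ[ℤ] Λ)) (c : ι → 𝒪),
    Module.finrank 𝒪 (eigenSub 𝒪 T c) =
      Module.finrank K (eigenSub K T (fun i => algebraMap 𝒪 K (c i)))) ∧
  (∀ (𝒪 : Type) [CommRing 𝒪] [IsDomain 𝒪]
    {Λ : Type} [AddCommGroup Λ] [Module.Free ℤ Λ] {ι : Type}
    (T : ι → (Λ →ₗ[ℤ] Λ)) (c : ι → 𝒪) (a : 𝒪) (v : 𝒪 ⊗[ℤ] Λ) (_ha : a ≠ 0)
    (_h : a • v ∈ eigenSub 𝒪 T c), v ∈ eigenSub 𝒪 T c)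

end Fermat.Agent.GalRep
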