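/-
Item 72, pieces J2 + J3-alg (helper1): eigen-submodules of `𝒪 ⊗ Λ` and the Galois representation
on a saturated stable submodule of rank `2`.
-/
import Mathlib
import Fermat.Agent.GalRep.EigenDefs

set_option autoImplicit false

noncomputable section

open scoped TensorProduct

namespace Fermat.Agent.GalRep

/-! ### J3-alg: saturation -/

theorem eigenSub_saturated (𝒪 : Type) [CommRing 𝒪] [IsDomain 𝒪]
    {Λ : Type} [AddCommGroup Λ] [Module.Free ℤ Λ] {ι : Type}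
    (T : ι → (Λ →ₗ[ℤ] Λ)) (c : ι → 𝒪) (a : 𝒪) (v : 𝒪 ⊗[ℤ] Λ) (ha : a ≠ 0)
    (h : a • v ∈ eigenSub 𝒪 T c) : v ∈ eigenSub 𝒪 T c := by
  rw [mem_eigenSub_iff] at h ⊢
  intro i
  have hi := h i
  rw [map_smul, smul_comm (c i) a v] at hi
  exact smul_right_injective _ ha hi

/-! ### J3-alg: the rank -/

/-- the comparison map `𝒪 ⊗ Λ → K ⊗ Λ` -/
def esComp (𝒪 : Type) [CommRing 𝒪] (K : Type) [Field K] [Algebra 𝒪 K] (Λ : Type)
    [AddCommGroup Λ] : (𝒪 ⊗[ℤ] Λ) →ₗ[𝒪] (K ⊗[ℤ] Λ) :=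
  TensorProduct.AlgebraTensorModule.map (Algebra.linearMap 𝒪 K) (LinearMap.id : Λ →ₗ[ℤ] Λ)

@[simp] theorem esComp_tmul (𝒪 : Type) [CommRing 𝒪] (K : Type) [Field K] [Algebra 𝒪 K] (Λ : Type)
    [AddCommGroup Λ] (a : 𝒪) (l : Λ) :
    esComp 𝒪 K Λ (a ⊗ₜ[ℤ] l) = (algebraMap 𝒪 K a) ⊗ₜ[ℤ] l := rfl

theorem esComp_injective (𝒪 : Type) [CommRing 𝒪] (K : Type) [Field K] [Algebra 𝒪 K]
    [FaithfulSMul 𝒪 K] (Λ : Type) [AddCommGroup Λ] [Module.Free ℤ Λ] :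
    Function.Injective (esComp 𝒪 K Λ) := by
  have h1 : Function.Injective ((Algebra.linearMap 𝒪 K).restrictScalars ℤ) :=
    FaithfulSMul.algebraMap_injective 𝒪 K
  have h2 := Module.Flat.rTensor_preserves_injective_linearMap (M := Λ)
    ((Algebra.linearMap 𝒪 K).restrictScalars ℤ) h1
  intro x y hxy
  apply h2
  have e : ∀ z : 𝒪 ⊗[ℤ] Λ, (((Algebra.linearMap 𝒪 K).restrictScalars ℤ).rTensor Λ) z
      = esComp 𝒪 K Λ z := by
    intro z
    induction z using TensorProduct.induction_on with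
    | zero => simp
    | tmul a l => rfl
    | add a b ha hb => rw [map_add, map_add, ha, hb]
  rw [e, e, hxy]

theorem esComp_baseChange (𝒪 : Type) [CommRing 𝒪] (K : Type) [Field K] [Algebra 𝒪 K]
    {Λ : Type} [AddCommGroup Λ] (t : Λ →ₗ[ℤ] Λ) (v : 𝒪 ⊗[ℤ] Λ) :
    esComp 𝒪 K Λ (t.baseChange 𝒪 v) = t.baseChange K (esComp 𝒪 K Λ v) := by
  induction v using TensorProduct.induction_on with
  | zero => simp
  | tmul a l => simp
  | add a b ha hb => rw [map_add, map_add, map_add, map_add, ha, hb]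

theorem esComp_smul (𝒪 : Type) [CommRing 𝒪] (K : Type) [Field K] [Algebra 𝒪 K]
    {Λ : Type} [AddCommGroup Λ] (c : 𝒪) (v : 𝒪 ⊗[ℤ] Λ) :
    esComp 𝒪 K Λ (c • v) = algebraMap 𝒪 K c • esComp 𝒪 K Λ v := by
  rw [map_smul, algebraMap_smul]

theorem esComp_mem_iff (𝒪 : Type) [CommRing 𝒪] (K : Type) [Field K] [Algebra 𝒪 K]
    [FaithfulSMul 𝒪 K] {Λ : Type} [AddCommGroup Λ] [Module.Free ℤ Λ] {ι : Type}
    (T : ι → (Λ →ₗ[ℤ] Λ)) (c : ι → 𝒪) (v : 𝒪 ⊗[ℤ] Λ) :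
    esComp 𝒪 K Λ v ∈ eigenSub K T (fun i => algebraMap 𝒪 K (c i)) ↔ v ∈ eigenSub 𝒪 T c := by
  rw [mem_eigenSub_iff, mem_eigenSub_iff]
  refine forall_congr' fun i => ?_
  rw [← esComp_baseChange, ← esComp_smul]
  exact (esComp_injective 𝒪 K Λ).eq_iff

/-- every element of `K ⊗ Λ` has a nonzero multiple in the image of `𝒪 ⊗ Λ` -/
theorem esComp_exists_smul (𝒪 : Type) [CommRing 𝒪] [IsDomain 𝒪] (K : Type) [Field K]
    [Algebra 𝒪 K] [IsFractionRing 𝒪 K] {Λ : Type} [AddCommGroup Λ] (w : K ⊗[ℤ] Λ) :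
    ∃ (a : 𝒪) (v : 𝒪 ⊗[ℤ] Λ), a ≠ 0 ∧ esComp 𝒪 K Λ v = algebraMap 𝒪 K a • w := by
  induction w using TensorProduct.induction_on with
  | zero => exact ⟨1, 0, one_ne_zero, by simp⟩
  | tmul k l =>
    obtain ⟨x, s, hs, rfl⟩ := IsFractionRing.div_surjective (A := 𝒪) k
    have hs0 : s ≠ 0 := nonZeroDivisors.ne_zero hs
    have hsK : algebraMap 𝒪 K s ≠ 0 :=
      (map_ne_zero_iff _ (IsFractionRing.injective 𝒪 K)).mpr hs0
    refine ⟨s, x ⊗ₜ[ℤ] l, hs0, ?_⟩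
    rw [esComp_tmul, TensorProduct.smul_tmul', smul_eq_mul, mul_div_cancel₀ _ hsK]
  | add w₁ w₂ h₁ h₂ =>
    obtain ⟨a₁, v₁, ha₁, e₁⟩ := h₁
    obtain ⟨a₂, v₂, ha₂, e₂⟩ := h₂
    refine ⟨a₁ * a₂, a₂ • v₁ + a₁ • v₂, mul_ne_zero ha₁ ha₂, ?_⟩
    rw [map_add, esComp_smul, esComp_smul, e₁, e₂, smul_add, smul_smul, smul_smul, map_mul,
      mul_comm (algebraMap 𝒪 K a₂)]

/-- the comparison map between the eigen-submodules -/
def esCompEigen (𝒪 : Type) [CommRing 𝒪] (K : Type) [Field K] [Algebra 𝒪 K]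
    [FaithfulSMul 𝒪 K] {Λ : Type} [AddCommGroup Λ] [Module.Free ℤ Λ] {ι : Type}
    (T : ι → (Λ →ₗ[ℤ] Λ)) (c : ι → 𝒪) :
    ↥(eigenSub 𝒪 T c) →ₗ[𝒪] ↥(eigenSub K T (fun i => algebraMap 𝒪 K (c i))) where
  toFun v := ⟨esComp 𝒪 K Λ v, (esComp_mem_iff 𝒪 K T c v).mpr v.2⟩
  map_add' _ _ := Subtype.ext (map_add _ _ _)
  map_smul' _ _ := Subtype.ext (map_smul _ _ _)

theorem finrank_eigenSub (𝒪 : Type) [CommRing 𝒪] [IsDomain 𝒪] [IsDiscreteValuationRing 𝒪]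
    (K : Type) [Field K] [Algebra 𝒪 K] [IsFractionRing 𝒪 K]
    {Λ : Type} [AddCommGroup Λ] [Module.Free ℤ Λ] [Module.Finite ℤ Λ] {ι : Type}
    (T : ι → (Λ →ₗ[ℤ] Λ)) (c : ι → 𝒪) :
    Module.finrank 𝒪 (eigenSub 𝒪 T c) =
      Module.finrank K (eigenSub K T (fun i => algebraMap 𝒪 K (c i))) := by
  have hloc : IsLocalizedModule (nonZeroDivisors 𝒪) (esCompEigen 𝒪 K T c) := by
    refine ⟨fun s => ?_, fun w => ?_, fun {x₁ x₂} h => ⟨1, ?_⟩⟩
    · have hs0 : (s : 𝒪) ≠ 0 := nonZeroDivisors.ne_zero s.2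
      have hsK : algebraMap 𝒪 K s ≠ 0 :=
        (map_ne_zero_iff _ (IsFractionRing.injective 𝒪 K)).mpr hs0
      rw [Module.End.isUnit_iff]
      constructor
      · intro x y hxy
        have h : algebraMap 𝒪 K s • x = algebraMap 𝒪 K s • y := by
          rw [algebraMap_smul, algebraMap_smul]; exact hxy
        exact smul_right_injective _ hsK h
      · intro y
        refine ⟨(algebraMap 𝒪 K s)⁻¹ • y, ?_⟩
        show (s : 𝒪) • ((algebraMap 𝒪 K s)⁻¹ • y) = y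
        rw [← algebraMap_smul K (s : 𝒪), smul_smul, mul_inv_cancel₀ hsK, one_smul]
    · obtain ⟨a, v, ha, hv⟩ := esComp_exists_smul 𝒪 K (w : K ⊗[ℤ] Λ)
      have hmem : v ∈ eigenSub 𝒪 T c := by
        rw [← esComp_mem_iff 𝒪 K T c v, hv]
        exact Submodule.smul_mem _ _ w.2
      refine ⟨(⟨v, hmem⟩, ⟨a, mem_nonZeroDivisors_of_ne_zero ha⟩), ?_⟩
      apply Subtype.ext
      show (a • (w : K ⊗[ℤ] Λ)) = esComp 𝒪 K Λ v
      rw [hv, algebraMap_smul]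
    · have hx : x₁ = x₂ := by
        apply Subtype.ext
        apply esComp_injective 𝒪 K Λ
        exact congrArg Subtype.val h
      rw [hx]
  have h1 := IsLocalizedModule.finrank_eq (R := 𝒪) (nonZeroDivisors 𝒪) (esCompEigen 𝒪 K T c)
    le_rfl
  have h2 := IsLocalization.finrank_eq (R := 𝒪) K
    (N := ↥(eigenSub K T (fun i => algebraMap 𝒪 K (c i)))) (nonZeroDivisors 𝒪) le_rfl
  rw [h2, h1]

/-! ### J2: the representation on a saturated stable submodule -/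

theorem es_mem_pow_smul_top {𝒪 : Type} [CommRing 𝒪] [IsDomain 𝒪]
    [IsDiscreteValuationRing 𝒪] {M : Type} [AddCommGroup M] [Module 𝒪 M]
    [Module.Free 𝒪 M]
    (E : Submodule 𝒪 M) (hsat : ∀ (c : 𝒪) (v : M), c ≠ 0 → c • v ∈ E → v ∈ E)
    (n : ℕ) (x : E)
    (hx : (x : M) ∈ (IsLocalRing.maximalIdeal 𝒪 ^ n) • (⊤ : Submodule 𝒪 M)) :
    x ∈ (IsLocalRing.maximalIdeal 𝒪 ^ n) • (⊤ : Submodule 𝒪 E) := by
  obtain ⟨π, hπ⟩ := IsDiscreteValuationRing.exists_irreducible 𝒪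
  have hm : IsLocalRing.maximalIdeal 𝒪 = Ideal.span {π} := hπ.maximalIdeal_eq
  rw [hm, Ideal.span_singleton_pow, Submodule.ideal_span_singleton_smul] at hx ⊢
  rw [Submodule.mem_smul_pointwise_iff_exists] at hx ⊢
  obtain ⟨y, -, hy⟩ := hx
  have hπn : π ^ n ≠ 0 := pow_ne_zero _ hπ.ne_zero
  have hyE : y ∈ E := hsat (π ^ n) y hπn (by rw [hy]; exact x.2)
  exact ⟨⟨y, hyE⟩, Submodule.mem_top, Subtype.ext hy⟩

theorem exists_galoisRepAdic_of_stable {𝒪 : Type} [CommRing 𝒪] [IsDomain 𝒪]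
    [IsDiscreteValuationRing 𝒪] {M : Type} [AddCommGroup M] [Module 𝒪 M] [Module.Free 𝒪 M]
    [Module.Finite 𝒪 M]
    (ρ : GQ →* Module.End 𝒪 M) (hcont : GaloisActionIsAdicContinuous 𝒪 ρ)
    (E : Submodule 𝒪 M) (hsat : ∀ (c : 𝒪) (v : M), c ≠ 0 → c • v ∈ E → v ∈ E)
    (hstab : ∀ (σ : GQ), ∀ v ∈ E, ρ σ v ∈ E) (hrank : Module.finrank 𝒪 E = 2) :
    ∃ (ρE : GaloisRepAdic 𝒪) (f : ρE.V →ₗ[𝒪] M), Function.Injective f ∧ (∀ v, f v ∈ E) ∧
      ∀ σ v, f (ρE.ρ σ v) = ρ σ (f v) := by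
  have hfree : Module.Free 𝒪 E := inferInstance
  have hfin : Module.Finite 𝒪 E := inferInstance
  let r : GQ →* Module.End 𝒪 E :=
    { toFun := fun σ => (ρ σ).restrict (hstab σ)
      map_one' := by
        apply LinearMap.ext
        intro v
        apply Subtype.ext
        simp
      map_mul' := by
        intro σ τ
        apply LinearMap.ext
        intro v
        apply Subtype.ext
        simp [LinearMap.restrict_apply] }
  have hr : ∀ σ (v : E), ((r σ v : E) : M) = ρ σ (v : M) := fun σ v => rfl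
  refine ⟨{ V := E, finrank_eq := hrank, ρ := r, isAdicContinuous := ?_ }, E.subtype,
    Subtype.val_injective, fun v => v.2, fun σ v => rfl⟩
  intro n
  obtain ⟨L, hL, h⟩ := hcont n
  refine ⟨L, hL, fun σ hσ v => ?_⟩
  apply es_mem_pow_smul_top E hsat
  have := h σ hσ (v : M)
  simpa [hr] using this

end Fermat.Agent.GalRep

end
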