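/-
Item 72 (Galois representations of eigenforms), common tool for pieces FE and A2 (helper1):
the integral closure of a complete discrete valuation ring (characteristic `0`, finite residue
field) in a finite extension of its fraction field is again such a ring, finite over the base.
-/
import Mathlib
import Fermat.Prelude.Thm_Algebra_finite_maximalSpectrum_and_bijective_localization_of_module_finite
import Fermat.Prelude.Thm_IsLocalRing_isAdicComplete_of_module_finite

set_option autoImplicit false

noncomputable section

namespace Fermat.Agent.GalRep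

/-- A domain which is a finite algebra over a complete Noetherian local ring is local. -/
theorem icd_isLocalRing_of_finite_of_isDomain (𝒪 : Type) [CommRing 𝒪] [IsLocalRing 𝒪]
    [IsNoetherianRing 𝒪] [IsAdicComplete (IsLocalRing.maximalIdeal 𝒪) 𝒪]
    (A : Type) [CommRing A] [IsDomain A] [Algebra 𝒪 A] [Module.Finite 𝒪 A] : IsLocalRing A := by
  classical
  obtain ⟨-, hbij, -, -⟩ :=
    Algebra.finite_maximalSpectrum_and_bijective_localization_of_module_finite (𝒪 := 𝒪) A
  set f := RingHom.pi fun I : MaximalSpectrum A => algebraMap A (Localization.AtPrime I.asIdeal)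
    with hf
  have huniq : ∀ I J : MaximalSpectrum A, I = J := by
    intro I J
    by_contra hIJ
    obtain ⟨a, ha⟩ := hbij.2 (Pi.single I 1)
    have hmul : f (a * (1 - a)) = 0 := by
      rw [map_mul, map_sub, map_one, ha]
      funext M
      by_cases hM : M = I
      · subst hM
        simp
      · simp [Pi.single_eq_of_ne hM]
    have h0 : a * (1 - a) = 0 := hbij.1 (hmul.trans (map_zero f).symm)
    rcases mul_eq_zero.mp h0 with h | h
    · rw [h, map_zero] at ha
      have := congrFun ha I
      simp at this
    · have h1 : a = 1 := (sub_eq_zero.mp h).symm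
      rw [h1, map_one] at ha
      have := congrFun ha J
      rw [Pi.single_eq_of_ne (Ne.symm hIJ)] at this
      simp at this
  obtain ⟨M, hM⟩ := Ideal.exists_maximal A
  refine IsLocalRing.of_unique_max_ideal ⟨M, hM, fun N hN => ?_⟩
  exact congrArg MaximalSpectrum.asIdeal (huniq ⟨N, hN⟩ ⟨M, hM⟩)

/-- **Tool.** The integral closure of a complete discrete valuation ring of characteristic `0` with
finite residue field in a finite extension `L` of its fraction field is a complete discrete
valuation ring of characteristic `0` with finite residue field, finite over the base. -/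
theorem icd_integralClosure (𝒪 : Type) [CommRing 𝒪] [IsDomain 𝒪] [IsDiscreteValuationRing 𝒪]
    [IsAdicComplete (IsLocalRing.maximalIdeal 𝒪) 𝒪] [Finite (IsLocalRing.ResidueField 𝒪)]
    [CharZero 𝒪]
    (L : Type) [Field L] [Algebra 𝒪 L] [Algebra (FractionRing 𝒪) L]
    [IsScalarTower 𝒪 (FractionRing 𝒪) L] [FiniteDimensional (FractionRing 𝒪) L] :
    ∃ (_ : IsDiscreteValuationRing (integralClosure 𝒪 L))
      (_ : IsAdicComplete (IsLocalRing.maximalIdeal (integralClosure 𝒪 L)) (integralClosure 𝒪 L))
      (_ : Finite (IsLocalRing.ResidueField (integralClosure 𝒪 L)))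
      (_ : CharZero (integralClosure 𝒪 L)) (_ : Module.Finite 𝒪 (integralClosure 𝒪 L))
      (_ : IsLocalHom (algebraMap 𝒪 (integralClosure 𝒪 L))),
      Function.Injective (algebraMap 𝒪 (integralClosure 𝒪 L)) := by
  have hcK : CharZero (FractionRing 𝒪) :=
    charZero_of_injective_algebraMap (IsFractionRing.injective 𝒪 (FractionRing 𝒪))
  have hfin : Module.Finite 𝒪 (integralClosure 𝒪 L) :=
    IsIntegralClosure.finite 𝒪 (FractionRing 𝒪) L (integralClosure 𝒪 L)
  have hDed : IsDedekindDomain (integralClosure 𝒪 L) :=
    integralClosure.isDedekindDomain 𝒪 (FractionRing 𝒪) L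
  have hloc : IsLocalRing (integralClosure 𝒪 L) :=
    icd_isLocalRing_of_finite_of_isDomain 𝒪 (integralClosure 𝒪 L)
  have hinjL : Function.Injective (algebraMap 𝒪 L) := by
    rw [IsScalarTower.algebraMap_eq 𝒪 (FractionRing 𝒪) L]
    exact (algebraMap (FractionRing 𝒪) L).injective.comp
      (IsFractionRing.injective 𝒪 (FractionRing 𝒪))
  have hinj : Function.Injective (algebraMap 𝒪 (integralClosure 𝒪 L)) := by
    intro x y hxy
    apply hinjL
    have := congrArg (algebraMap (integralClosure 𝒪 L) L) hxy
    rwa [← IsScalarTower.algebraMap_apply, ← IsScalarTower.algebraMap_apply] at this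
  have hfaith : FaithfulSMul 𝒪 (integralClosure 𝒪 L) :=
    (faithfulSMul_iff_algebraMap_injective 𝒪 (integralClosure 𝒪 L)).mpr hinj
  have hlochom : IsLocalHom (algebraMap 𝒪 (integralClosure 𝒪 L)) := inferInstance
  have hcomp : IsAdicComplete (IsLocalRing.maximalIdeal (integralClosure 𝒪 L))
      (integralClosure 𝒪 L) :=
    IsLocalRing.isAdicComplete_of_module_finite (𝒪 := 𝒪) (T := integralClosure 𝒪 L)
  have hnf : ¬ IsField (integralClosure 𝒪 L) := fun h =>
    IsDiscreteValuationRing.not_isField 𝒪 (isField_of_isIntegral_of_isField hinj h)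
  have hDVR : IsDiscreteValuationRing (integralClosure 𝒪 L) :=
    ((IsDiscreteValuationRing.TFAE (integralClosure 𝒪 L) hnf).out 0 2).mpr hDed
  have hres : Finite (IsLocalRing.ResidueField (integralClosure 𝒪 L)) :=
    Module.finite_of_finite (IsLocalRing.ResidueField 𝒪)
  have hchar : CharZero (integralClosure 𝒪 L) := charZero_of_injective_algebraMap hinj
  exact ⟨hDVR, hcomp, hres, hchar, hfin, hlochom, hinj⟩

end Fermat.Agent.GalRep

end
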