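/-
Item 72, piece FE (helper1): extension of a character of a subring `T₀ ⊆ T` (`T` finite over `ℤ`)
with values in a complete discrete valuation ring to a character of `T` with values in a finite
extension.
-/
import Mathlib
import Fermat.Agent.GalRep.IntClosureDVR

set_option autoImplicit false

noncomputable section

namespace Fermat.Agent.GalRep

/-- Extension of a ring homomorphism into an algebraically closed field along an injective
integral ring homomorphism. -/
theorem fe_exists_lift_algClosed {T₀ T : Type} [CommRing T₀] [CommRing T] (ι : T₀ →+* T)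
    (hι : Function.Injective ι) (hint : ι.IsIntegral)
    (Ω : Type) [Field Ω] [IsAlgClosed Ω] (χ : T₀ →+* Ω) :
    ∃ ψ : T →+* Ω, ∀ t : T₀, ψ (ι t) = χ t := by
  let _ : Algebra T₀ T := ι.toAlgebra
  have hI : Algebra.IsIntegral T₀ T := ⟨hint⟩
  have hp : (RingHom.ker χ).IsPrime := RingHom.ker_isPrime χ
  obtain ⟨Q, -, hQp, hQ⟩ := Ideal.exists_ideal_over_prime_of_isIntegral (S := T) (RingHom.ker χ)
    (⊥ : Ideal T) (by
      have : RingHom.ker (algebraMap T₀ T) = ⊥ := (RingHom.injective_iff_ker_eq_bot _).mp hι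
      rw [← RingHom.ker_eq_comap_bot, this]
      exact bot_le)
  have hlo : Q.LiesOver (RingHom.ker χ) := ⟨hQ.symm⟩
  -- the quotient domains
  let _ : Algebra (T₀ ⧸ RingHom.ker χ) Ω := (RingHom.kerLift χ).toAlgebra
  have hinj : Function.Injective (algebraMap (T₀ ⧸ RingHom.ker χ) Ω) :=
    RingHom.kerLift_injective χ
  have hd0 : IsDomain (T₀ ⧸ RingHom.ker χ) := Ideal.Quotient.isDomain _
  have hd1 : IsDomain (T ⧸ Q) := Ideal.Quotient.isDomain _
  have hf0 : FaithfulSMul (T₀ ⧸ RingHom.ker χ) Ω :=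
    (faithfulSMul_iff_algebraMap_injective _ _).mpr hinj
  have hIq : Algebra.IsIntegral (T₀ ⧸ RingHom.ker χ) (T ⧸ Q) :=
    Ideal.Quotient.algebra_isIntegral_of_liesOver Q (RingHom.ker χ)
  have hAq : Algebra.IsAlgebraic (T₀ ⧸ RingHom.ker χ) (T ⧸ Q) := hIq.isAlgebraic
  have hf1 : FaithfulSMul (T₀ ⧸ RingHom.ker χ) (T ⧸ Q) := Ideal.Quotient.instFaithfulSMul Q _
  have ht1 : Module.IsTorsionFree (T₀ ⧸ RingHom.ker χ) (T ⧸ Q) :=
    FaithfulSMul.to_isTorsionFree _ _
  have ht0 : Module.IsTorsionFree (T₀ ⧸ RingHom.ker χ) Ω :=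
    FaithfulSMul.to_isTorsionFree _ _
  let σ : (T ⧸ Q) →ₐ[T₀ ⧸ RingHom.ker χ] Ω := IsAlgClosed.lift
  refine ⟨(σ : (T ⧸ Q) →+* Ω).comp (Ideal.Quotient.mk Q), fun t => ?_⟩
  have h1 : (Ideal.Quotient.mk Q) (ι t)
      = algebraMap (T₀ ⧸ RingHom.ker χ) (T ⧸ Q) (Ideal.Quotient.mk _ t) := rfl
  rw [RingHom.comp_apply, h1]
  have h2 := σ.commutes (Ideal.Quotient.mk (RingHom.ker χ) t)
  exact h2

/-- an injective ring homomorphism into a ring which is finite over `ℤ` is integral -/
theorem fe_isIntegral_of_finite_int {T₀ T : Type} [CommRing T₀] [CommRing T] (ι : T₀ →+* T)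
    [Module.Finite ℤ T] : ι.IsIntegral := by
  intro t
  have ht : IsIntegral ℤ t := Algebra.IsIntegral.isIntegral t
  obtain ⟨p, hp, hpt⟩ := ht
  refine ⟨p.map (Int.castRingHom T₀), hp.map _, ?_⟩
  rw [Polynomial.eval₂_map]
  have e : ι.comp (Int.castRingHom T₀) = algebraMap ℤ T := RingHom.ext_int _ _
  rw [e]
  exact hpt

/-- the image of a ring which is finite over `ℤ` consists of integral elements -/
theorem fe_isIntegral_image {T : Type} [CommRing T] [Module.Finite ℤ T] {R : Type} [CommRing R]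
    {B : Type} [CommRing B] [Algebra R B] (ψ : T →+* B) (t : T) : IsIntegral R (ψ t) := by
  have ht : IsIntegral ℤ t := Algebra.IsIntegral.isIntegral t
  have h1 : IsIntegral ℤ (ψ t) := ht.map ψ.toIntAlgHom
  exact h1.tower_top

/-- FE -/
theorem exists_extension_of_char {T₀ T : Type} [CommRing T₀] [CommRing T] (ι : T₀ →+* T)
    (hι : Function.Injective ι)
    [Module.Finite ℤ T] (𝒪' : Type) [CommRing 𝒪'] [IsDomain 𝒪'] [IsDiscreteValuationRing 𝒪']
    [IsAdicComplete (IsLocalRing.maximalIdeal 𝒪') 𝒪'] [Finite (IsLocalRing.ResidueField 𝒪')]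
    [CharZero 𝒪']
    (χ : T₀ →+* 𝒪') :
    ∃ (𝒪'' : Type) (_ : CommRing 𝒪'') (_ : IsDomain 𝒪'') (_ : IsDiscreteValuationRing 𝒪'')
      (_ : IsAdicComplete (IsLocalRing.maximalIdeal 𝒪'') 𝒪'')
      (_ : Finite (IsLocalRing.ResidueField 𝒪''))
      (_ : CharZero 𝒪'') (_ : Algebra 𝒪' 𝒪'') (_ : Module.Finite 𝒪' 𝒪'')
      (_ : IsLocalHom (algebraMap 𝒪' 𝒪''))
      (χ' : T →+* 𝒪''), Function.Injective (algebraMap 𝒪' 𝒪'') ∧
        ∀ t : T₀, χ' (ι t) = algebraMap 𝒪' 𝒪'' (χ t) := by
  classical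
  -- an algebraic closure of the fraction field
  obtain ⟨ψ, hψ⟩ := fe_exists_lift_algClosed ι hι (fe_isIntegral_of_finite_int ι)
    (AlgebraicClosure (FractionRing 𝒪'))
    ((algebraMap 𝒪' (AlgebraicClosure (FractionRing 𝒪'))).comp χ)
  -- a finite subextension containing the image of `T`
  obtain ⟨s, hs⟩ := (Module.Finite.fg_top : (⊤ : Submodule ℤ T).FG)
  set L : IntermediateField (FractionRing 𝒪') (AlgebraicClosure (FractionRing 𝒪')) :=
    IntermediateField.adjoin (FractionRing 𝒪') (ψ '' (s : Set T)) with hL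
  have hLfin : FiniteDimensional (FractionRing 𝒪') L := by
    have hfinset : (ψ '' (s : Set T)).Finite := s.finite_toSet.image ψ
    have : Finite (ψ '' (s : Set T)) := hfinset.to_subtype
    exact IntermediateField.finiteDimensional_adjoin fun x _ =>
      (Algebra.IsAlgebraic.isAlgebraic (R := FractionRing 𝒪') x).isIntegral
  have hmem : ∀ t : T, ψ t ∈ L := by
    intro t
    have ht : t ∈ Submodule.span ℤ (s : Set T) := hs ▸ Submodule.mem_top
    induction ht using Submodule.span_induction with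
    | mem x hx => exact IntermediateField.subset_adjoin _ _ ⟨x, hx, rfl⟩
    | zero => rw [map_zero]; exact L.zero_mem
    | add x y _ _ hx hy => rw [map_add]; exact L.add_mem hx hy
    | smul n x _ hx =>
      rw [zsmul_eq_mul, map_mul, map_intCast]
      exact L.mul_mem (intCast_mem L n) hx
  -- the integral closure
  obtain ⟨hDVR, hcomp, hres, hchar, hfin, hlochom, hinj⟩ := icd_integralClosure 𝒪' L
  have hint : ∀ t : T, (⟨ψ t, hmem t⟩ : L) ∈ integralClosure 𝒪' L := by
    intro t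
    exact fe_isIntegral_image (R := 𝒪') (ψ.codRestrict L hmem) t
  refine ⟨integralClosure 𝒪' L, inferInstance, inferInstance, hDVR, hcomp, hres, hchar,
    inferInstance, hfin, hlochom,
    (ψ.codRestrict L hmem).codRestrict (integralClosure 𝒪' L) hint,
    hinj, fun t => ?_⟩
  apply Subtype.ext
  apply Subtype.ext
  exact hψ t

end Fermat.Agent.GalRep

end
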