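import Mathlib
import Fermat.Agent.GalRep.EigenDefs
import Fermat.Prelude.Def_ModularCurve_HeckeModule

/-!
# Item 72, layer 2: the input from the arithmetic of `J₀(N)` (items 68, 69, 74, ES-H)

`JacInput N p` bundles everything the construction of the Galois representations needs to know
about `J₀(N)[p^∞]`.  Definitions only.
-/

set_option autoImplicit false

open scoped TensorProduct

namespace Fermat.Agent.GalRep

open ModularCurve

/-- Everything item 72 needs about `J₀(N)[p^∞]`. -/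
structure JacInput (N p : ℕ) [NeZero N] : Type 1 where
  /-- (68) inertia at `ℓ ∤ Np` acts trivially on `p`-power torsion -/
  unram : ∀ ℓ : ℕ, ℓ.Prime → ¬ ℓ ∣ N * p →
    ∀ A : ValuationSubring (AlgebraicClosure ℚ), A.LiesOverPrime ℓ →
      ∀ σ ∈ A.inertiaSubgroupIn ℚ, ∀ x : JZero N, (∃ n : ℕ, p ^ n • x = 0) → σ • x = x
  /-- (68) the Eichler–Shimura relation on `p`-power torsion -/
  frob : ∀ (ℓ : ℕ) (hℓ : ℓ.Prime), ¬ ℓ ∣ N * p →
    ∀ A : ValuationSubring (AlgebraicClosure ℚ), A.LiesOverPrime ℓ →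
      ∀ σ : GQ, A.IsFrobeniusAt σ ℓ →
        ∀ x : JZero N, (∃ n : ℕ, p ^ n • x = 0) →
          σ • σ • x - heckeOperatorBar N ⟨ℓ, hℓ⟩ (σ • x) + ℓ • x = 0
  /-- (74) the Galois action commutes with the Hecke operators -/
  galComm : ∀ (σ : GQ) (ℓ : Nat.Primes) (x : JZero N),
    σ • heckeOperatorBar N ℓ x = heckeOperatorBar N ℓ (σ • x)
  /-- (J4) every `p`-power torsion point is fixed by an open subgroup -/
  stab : ∀ x : JZero N, (∃ n : ℕ, p ^ n • x = 0) →
    ∃ L : IntermediateField ℚ (AlgebraicClosure ℚ), FiniteDimensional ℚ L ∧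
      ∀ σ : GQ, (∀ a ∈ L, σ a = a) → σ • x = x
  /-- (69) the Hecke lattice -/
  Λ : Type
  [instAddCommGroup : AddCommGroup Λ]
  [instFree : Module.Free ℤ Λ]
  [instFinite : Module.Finite ℤ Λ]
  /-- the Hecke operators on the lattice -/
  T : Nat.Primes → (Λ →ₗ[ℤ] Λ)
  /-- (69) the level structures `e n : Λ → J[pⁿ]`, "`λ ↦ λ / pⁿ`" -/
  e : ℕ → Λ →+ JZero N
  e_range : ∀ (n : ℕ) (x : JZero N), p ^ n • x = 0 → ∃ l, e n l = x
  e_ker : ∀ (n : ℕ) (l : Λ), e n l = 0 ↔ ∃ m : Λ, l = p ^ n • m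
  e_succ : ∀ (n : ℕ) (l : Λ), p • e (n + 1) l = e n l
  /-- (69, layer E) Hecke-equivariance of the level structures -/
  e_hecke : ∀ (n : ℕ) (ℓ : Nat.Primes) (l : Λ), e n (T ℓ l) = heckeOperatorBar N ℓ (e n l)
  /-- (ES-H) multiplicity: eigenspaces of the full Hecke algebra are `2`-dimensional -/
  mult : ∀ (K : Type) [Field K] [CharZero K]
    (χ : CuspForm.heckeAlgebra N 2 (∅ : Set ℕ) →+* K),
    Module.finrank K (eigenSub K T
      (fun ℓ => χ (CuspForm.heckeEvalForms N 2 (ModularCurve.heckeGen ℓ)))) = 2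

attribute [instance] JacInput.instAddCommGroup JacInput.instFree JacInput.instFinite

/-- statement of piece J4: torsion points of `J₀(N)` have open stabilisers. -/
def J4Statement : Prop :=
  ∀ (N : ℕ) [NeZero N] (n : ℕ) (_hn : 0 < n) (x : JZero N) (_hx : n • x = 0),
    ∃ L : IntermediateField ℚ (AlgebraicClosure ℚ), FiniteDimensional ℚ L ∧
      ∀ σ : GQ, (∀ a ∈ L, σ a = a) → σ • x = x

/-- statement of S37 (item 68). -/
def S37Statement : Prop :=
  ∀ (N p : ℕ) [NeZero N] (_hcomm : HeckeOperatorsCommuteBar N),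
    letI := heckeModuleBar N
    ∀ (_ : SMulCommClass GQ HeckeAlg (JZero N)),
      SpecializationExists (K := ℚ) (L := AlgebraicClosure ℚ) N p (JZero N)

/-- statement of item 74, part 1: the Hecke operators on `J₀(N)` commute. -/
def HCStatement : Prop :=
  ∀ (N : ℕ) [NeZero N], HeckeOperatorsCommuteBar N

/-- statement of item 74, part 2: the Galois action commutes with the Hecke operators. -/
def GalCommStatement : Prop :=
  ∀ (N : ℕ) [NeZero N] (σ : GQ) (ℓ : Nat.Primes) (x : JZero N),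
    σ • heckeOperatorBar N ℓ x = heckeOperatorBar N ℓ (σ • x)

end Fermat.Agent.GalRep
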