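import Mathlib
import Fermat.Agent.GalRep.EigenDefs

/-!
# Item 72 / J1: the limit representation attached to a `p`-adic level structure ("Form L")
-/

open scoped TensorProduct
open IsLocalRing

namespace Fermat.Agent.GalRep

/-- A `p`-adic level structure ("Form L"): a lattice `Λ` with compatible surjections
`e n : Λ → J[p^n]` with kernel `p^n Λ`. -/
structure LevelStructure (p : ℕ) (Λ J : Type*) [AddCommGroup Λ] [AddCommGroup J] where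
  e : ℕ → Λ →+ J
  ker_iff : ∀ (n : ℕ) (l : Λ), e n l = 0 ↔ ∃ m : Λ, l = (p ^ n) • m
  range_iff : ∀ (n : ℕ) (x : J), (p ^ n) • x = 0 ↔ ∃ l : Λ, e n l = x
  compat : ∀ (n : ℕ) (l : Λ), p • e (n + 1) l = e n l

namespace LevelStructure

variable {p : ℕ} {Λ J : Type*} [AddCommGroup Λ] [AddCommGroup J] (E : LevelStructure p Λ J)

theorem e_torsion (n : ℕ) (l : Λ) : (p ^ n) • E.e n l = 0 :=
  (E.range_iff n _).mpr ⟨l, rfl⟩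

theorem compat_pow (n k : ℕ) (l : Λ) : (p ^ k) • E.e (n + k) l = E.e n l := by
  induction k with
  | zero => simp
  | succ k ih =>
    rw [pow_succ, mul_smul, ← add_assoc, E.compat, ih]

theorem exists_lift (φ : J →+ J) (n : ℕ) (l : Λ) : ∃ l' : Λ, E.e n l' = φ (E.e n l) := by
  refine (E.range_iff n _).mp ?_
  rw [← map_nsmul, E.e_torsion, map_zero]

theorem sub_mem_of_e_eq {n : ℕ} {l l' : Λ} (h : E.e n l = E.e n l') :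
    ∃ m : Λ, l - l' = (p ^ n) • m :=
  (E.ker_iff n _).mp (by rw [map_sub, h, sub_self])

end LevelStructure

section Limit

variable {p : ℕ} {Λ : Type*} {J : Type*} [AddCommGroup Λ] [AddCommGroup J]
variable (𝒪 : Type*) [CommRing 𝒪] [IsLocalRing 𝒪]

/-- the `n`-th step of the adic filtration of `𝒪 ⊗ Λ`. -/
def limFil (Λ : Type*) [AddCommGroup Λ] (n : ℕ) : Submodule 𝒪 (𝒪 ⊗[ℤ] Λ) :=
  (maximalIdeal 𝒪 ^ n) • (⊤ : Submodule 𝒪 (𝒪 ⊗[ℤ] Λ))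

variable {𝒪}

theorem lim_tmul_nsmul_mem (hp : (p : 𝒪) ∈ maximalIdeal 𝒪) (n : ℕ) (m : Λ) :
    (1 : 𝒪) ⊗ₜ[ℤ] ((p ^ n) • m) ∈ limFil 𝒪 Λ n := by
  have h1 : (1 : 𝒪) ⊗ₜ[ℤ] ((p ^ n) • m) = ((p : 𝒪) ^ n) • ((1 : 𝒪) ⊗ₜ[ℤ] m) := by
    rw [TensorProduct.smul_tmul', smul_eq_mul, mul_one]
    rw [show ((p ^ n) • m : Λ) = ((p ^ n : ℕ) : ℤ) • m by rw [natCast_zsmul],
      ← TensorProduct.smul_tmul]
    congr 1
    simp
  rw [h1]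
  exact Submodule.smul_mem_smul (Ideal.pow_mem_pow hp n) Submodule.mem_top

theorem lim_map_mem (f : (𝒪 ⊗[ℤ] Λ) →ₗ[𝒪] (𝒪 ⊗[ℤ] Λ)) {n : ℕ} {x : 𝒪 ⊗[ℤ] Λ}
    (hx : x ∈ limFil 𝒪 Λ n) : f x ∈ limFil 𝒪 Λ n := by
  refine Submodule.smul_induction_on (p := fun x => f x ∈ limFil 𝒪 Λ n) hx ?_ ?_
  · intro a ha w _
    rw [map_smul]
    exact Submodule.smul_mem_smul ha Submodule.mem_top
  · intro x y hx hy
    rw [map_add]
    exact Submodule.add_mem _ hx hy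

theorem lim_tmul_sub_mem (E : LevelStructure p Λ J) (hp : (p : 𝒪) ∈ maximalIdeal 𝒪) {n : ℕ}
    {l l' : Λ} (h : E.e n l = E.e n l') :
    (1 : 𝒪) ⊗ₜ[ℤ] l - 1 ⊗ₜ[ℤ] l' ∈ limFil 𝒪 Λ n := by
  obtain ⟨m, hm⟩ := E.sub_mem_of_e_eq h
  rw [← TensorProduct.tmul_sub, hm]
  exact lim_tmul_nsmul_mem hp n m



/-- membership in the adic filtration, in coordinates. -/
theorem lim_mem_iff_repr {ι : Type*} [Fintype ι] (B : Module.Basis ι 𝒪 (𝒪 ⊗[ℤ] Λ)) (n : ℕ)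
    (x : 𝒪 ⊗[ℤ] Λ) : x ∈ limFil 𝒪 Λ n ↔ ∀ i, B.repr x i ∈ maximalIdeal 𝒪 ^ n := by
  constructor
  · intro hx i
    refine Submodule.smul_induction_on (p := fun x => B.repr x i ∈ maximalIdeal 𝒪 ^ n) hx ?_ ?_
    · intro a ha w _
      rw [map_smul, Finsupp.smul_apply, smul_eq_mul]
      exact Ideal.mul_mem_right _ _ ha
    · intro x y hx hy
      rw [map_add, Finsupp.add_apply]
      exact Ideal.add_mem _ hx hy
  · intro h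
    rw [← B.sum_repr x]
    refine Submodule.sum_mem _ fun i _ => ?_
    exact Submodule.smul_mem_smul (h i) Submodule.mem_top

variable [Module.Free ℤ Λ] [Module.Finite ℤ Λ]

/-- `𝒪 ⊗ Λ` is separated for the adic filtration. -/
theorem lim_eq_zero_of_forall_mem [IsHausdorff (maximalIdeal 𝒪) 𝒪] {x : 𝒪 ⊗[ℤ] Λ}
    (h : ∀ n, x ∈ limFil 𝒪 Λ n) : x = 0 := by
  classical
  let b : Module.Basis (Module.Free.ChooseBasisIndex ℤ Λ) ℤ Λ := Module.Free.chooseBasis ℤ Λ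
  let B : Module.Basis (Module.Free.ChooseBasisIndex ℤ Λ) 𝒪 (𝒪 ⊗[ℤ] Λ) :=
    Algebra.TensorProduct.basis 𝒪 b
  apply B.repr.injective
  rw [map_zero]
  ext i
  rw [Finsupp.zero_apply]
  refine IsHausdorff.haus (I := maximalIdeal 𝒪) inferInstance _ fun n => ?_
  rw [SModEq.zero, smul_eq_mul, Ideal.mul_top]
  exact (lim_mem_iff_repr B n x).mp (h n) i

variable [IsAdicComplete (maximalIdeal 𝒪) 𝒪]

/-- **existence of the limit endomorphism** attached to an additive endomorphism of `J`. -/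
theorem lim_exists (E : LevelStructure p Λ J) (hp : (p : 𝒪) ∈ maximalIdeal 𝒪) (φ : J →+ J) :
    ∃ f : (𝒪 ⊗[ℤ] Λ) →ₗ[𝒪] (𝒪 ⊗[ℤ] Λ), ∀ (n : ℕ) (l l' : Λ), E.e n l' = φ (E.e n l) →
      f (1 ⊗ₜ[ℤ] l) - 1 ⊗ₜ[ℤ] l' ∈ limFil 𝒪 Λ n := by
  classical
  let b : Module.Basis (Module.Free.ChooseBasisIndex ℤ Λ) ℤ Λ := Module.Free.chooseBasis ℤ Λ
  let B : Module.Basis (Module.Free.ChooseBasisIndex ℤ Λ) 𝒪 (𝒪 ⊗[ℤ] Λ) :=
    Algebra.TensorProduct.basis 𝒪 b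
  have hB : ∀ l : Λ, (1 : 𝒪) ⊗ₜ[ℤ] l = ∑ j, ((b.repr l j : ℤ) : 𝒪) • B j := by
    intro l
    conv_lhs => rw [← b.sum_repr l]
    rw [TensorProduct.tmul_sum]
    refine Finset.sum_congr rfl fun j _ => ?_
    rw [Algebra.TensorProduct.basis_apply, TensorProduct.tmul_smul, Int.cast_smul_eq_zsmul]
  choose L hL using fun (n : ℕ) (j : Module.Free.ChooseBasisIndex ℤ Λ) =>
    E.exists_lift φ n (b j)
  -- the coordinates are Cauchy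
  have hcauchy : ∀ (i j : Module.Free.ChooseBasisIndex ℤ Λ) {m n : ℕ}, m ≤ n →
      ((b.repr (L m j) i : ℤ) : 𝒪) ≡ ((b.repr (L n j) i : ℤ) : 𝒪)
        [SMOD (maximalIdeal 𝒪 ^ m • ⊤ : Submodule 𝒪 𝒪)] := by
    intro i j m n hmn
    rw [SModEq.sub_mem, smul_eq_mul, Ideal.mul_top]
    have he : E.e m (L m j) = E.e m (L n j) := by
      obtain ⟨k, rfl⟩ := Nat.exists_eq_add_of_le hmn
      rw [hL m j, ← E.compat_pow m k (L (m + k) j), hL (m + k) j, ← map_nsmul, E.compat_pow]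
    obtain ⟨μ, hμ⟩ := E.sub_mem_of_e_eq he
    have : (b.repr (L m j) i : ℤ) - b.repr (L n j) i = (p ^ m : ℕ) * b.repr μ i := by
      have := congrArg (fun x => b.repr x i) hμ
      simpa [map_sub, Finsupp.sub_apply, map_nsmul, Finsupp.smul_apply] using this
    rw [← Int.cast_sub, this]
    push_cast
    exact Ideal.mul_mem_right _ _ (Ideal.pow_mem_pow hp m)
  choose a ha using fun (i j : Module.Free.ChooseBasisIndex ℤ Λ) =>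
    IsPrecomplete.prec' (I := maximalIdeal 𝒪)
      (f := fun n => ((b.repr (L n j) i : ℤ) : 𝒪)) (fun {m n} hmn => hcauchy i j hmn)
  have ha' : ∀ i j n, a i j - ((b.repr (L n j) i : ℤ) : 𝒪) ∈ maximalIdeal 𝒪 ^ n := by
    intro i j n
    have := (ha i j n).symm
    rw [SModEq.sub_mem, smul_eq_mul, Ideal.mul_top] at this
    exact this
  let Y : Module.Free.ChooseBasisIndex ℤ Λ → 𝒪 ⊗[ℤ] Λ := fun j => ∑ i, a i j • B i
  have hY : ∀ j n, Y j - (1 : 𝒪) ⊗ₜ[ℤ] L n j ∈ limFil 𝒪 Λ n := by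
    intro j n
    rw [hB (L n j), ← Finset.sum_sub_distrib]
    refine Submodule.sum_mem _ fun i _ => ?_
    rw [← sub_smul]
    exact Submodule.smul_mem_smul (ha' i j n) Submodule.mem_top
  refine ⟨B.constr 𝒪 Y, fun n l l' h => ?_⟩
  have hfl : B.constr 𝒪 Y ((1 : 𝒪) ⊗ₜ[ℤ] l) = ∑ j, ((b.repr l j : ℤ) : 𝒪) • Y j := by
    rw [hB l, map_sum]
    refine Finset.sum_congr rfl fun j _ => ?_
    rw [map_smul, Module.Basis.constr_basis]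
  -- the lift built from the basis lifts
  set l'' : Λ := ∑ j, (b.repr l j) • L n j with hl''
  have he : E.e n l'' = E.e n l' := by
    rw [h, hl'', map_sum]
    conv_rhs => rw [← b.sum_repr l, map_sum, map_sum]
    refine Finset.sum_congr rfl fun j _ => ?_
    rw [map_zsmul, map_zsmul, map_zsmul, hL]
  have h2 := lim_tmul_sub_mem (𝒪 := 𝒪) E hp he
  have hl''t : (1 : 𝒪) ⊗ₜ[ℤ] l'' = ∑ j, ((b.repr l j : ℤ) : 𝒪) • ((1 : 𝒪) ⊗ₜ[ℤ] L n j) := by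
    rw [hl'', TensorProduct.tmul_sum]
    refine Finset.sum_congr rfl fun j _ => ?_
    rw [TensorProduct.tmul_smul, Int.cast_smul_eq_zsmul]
  have h1 : B.constr 𝒪 Y ((1 : 𝒪) ⊗ₜ[ℤ] l) - (1 : 𝒪) ⊗ₜ[ℤ] l'' ∈ limFil 𝒪 Λ n := by
    rw [hfl, hl''t, ← Finset.sum_sub_distrib]
    refine Submodule.sum_mem _ fun j _ => ?_
    rw [← smul_sub]
    exact Submodule.smul_mem _ _ (hY j n)
  have : B.constr 𝒪 Y ((1 : 𝒪) ⊗ₜ[ℤ] l) - (1 : 𝒪) ⊗ₜ[ℤ] l'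
      = (B.constr 𝒪 Y ((1 : 𝒪) ⊗ₜ[ℤ] l) - (1 : 𝒪) ⊗ₜ[ℤ] l'')
        + ((1 : 𝒪) ⊗ₜ[ℤ] l'' - (1 : 𝒪) ⊗ₜ[ℤ] l') := by abel
  rw [this]
  exact Submodule.add_mem _ h1 h2

omit [Module.Finite ℤ Λ] [Module.Free ℤ Λ] [IsAdicComplete (maximalIdeal 𝒪) 𝒪] in
/-- two `𝒪`-linear maps agreeing on the pure tensors `1 ⊗ l` are equal. -/
theorem lim_ext {f g : (𝒪 ⊗[ℤ] Λ) →ₗ[𝒪] (𝒪 ⊗[ℤ] Λ)}
    (h : ∀ l : Λ, f (1 ⊗ₜ[ℤ] l) = g (1 ⊗ₜ[ℤ] l)) : f = g := by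
  refine TensorProduct.AlgebraTensorModule.curry_injective ?_
  refine LinearMap.ext_ring (LinearMap.ext fun l => ?_)
  simp only [TensorProduct.AlgebraTensorModule.curry_apply, LinearMap.restrictScalars_apply,
    TensorProduct.curry_apply]
  exact h l

omit [IsAdicComplete (maximalIdeal 𝒪) 𝒪] in
/-- **uniqueness of the limit endomorphism.** -/
theorem lim_unique [IsHausdorff (maximalIdeal 𝒪) 𝒪] (E : LevelStructure p Λ J) (φ : J →+ J)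
    (f g : (𝒪 ⊗[ℤ] Λ) →ₗ[𝒪] (𝒪 ⊗[ℤ] Λ))
    (hf : ∀ (n : ℕ) (l l' : Λ), E.e n l' = φ (E.e n l) →
      f (1 ⊗ₜ[ℤ] l) - 1 ⊗ₜ[ℤ] l' ∈ limFil 𝒪 Λ n)
    (hg : ∀ (n : ℕ) (l l' : Λ), E.e n l' = φ (E.e n l) →
      g (1 ⊗ₜ[ℤ] l) - 1 ⊗ₜ[ℤ] l' ∈ limFil 𝒪 Λ n) : f = g := by
  refine lim_ext fun l => ?_
  rw [← sub_eq_zero]
  refine lim_eq_zero_of_forall_mem fun n => ?_
  obtain ⟨l', hl'⟩ := E.exists_lift φ n l
  have := Submodule.sub_mem _ (hf n l l' hl') (hg n l l' hl')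
  rwa [sub_sub_sub_cancel_right] at this


omit [IsAdicComplete (maximalIdeal 𝒪) 𝒪] in
/-- uniqueness, in the convenient form: it suffices to find ONE good lift for each `n, l`. -/
theorem lim_eq_of_exists [IsHausdorff (maximalIdeal 𝒪) 𝒪] (E : LevelStructure p Λ J)
    (hp : (p : 𝒪) ∈ maximalIdeal 𝒪) (φ : J →+ J)
    (f g : (𝒪 ⊗[ℤ] Λ) →ₗ[𝒪] (𝒪 ⊗[ℤ] Λ))
    (hf : ∀ (n : ℕ) (l l' : Λ), E.e n l' = φ (E.e n l) →
      f (1 ⊗ₜ[ℤ] l) - 1 ⊗ₜ[ℤ] l' ∈ limFil 𝒪 Λ n)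
    (hg : ∀ (n : ℕ) (l : Λ), ∃ l' : Λ, E.e n l' = φ (E.e n l) ∧
      g (1 ⊗ₜ[ℤ] l) - 1 ⊗ₜ[ℤ] l' ∈ limFil 𝒪 Λ n) : f = g := by
  refine lim_unique E φ f g hf fun n l l' h => ?_
  obtain ⟨l'', h'', hg''⟩ := hg n l
  have h3 := lim_tmul_sub_mem (𝒪 := 𝒪) E hp (h''.trans h.symm)
  have : g ((1 : 𝒪) ⊗ₜ[ℤ] l) - (1 : 𝒪) ⊗ₜ[ℤ] l'
      = (g ((1 : 𝒪) ⊗ₜ[ℤ] l) - (1 : 𝒪) ⊗ₜ[ℤ] l'') + ((1 : 𝒪) ⊗ₜ[ℤ] l'' - (1 : 𝒪) ⊗ₜ[ℤ] l') := by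
    abel
  rw [this]
  exact Submodule.add_mem _ hg'' h3

/-- the limit endomorphism (a choice; unique by `lim_unique`). -/
noncomputable def limEndFun (E : LevelStructure p Λ J) (hp : (p : 𝒪) ∈ maximalIdeal 𝒪)
    (φ : J →+ J) : (𝒪 ⊗[ℤ] Λ) →ₗ[𝒪] (𝒪 ⊗[ℤ] Λ) :=
  (lim_exists E hp φ).choose

theorem limEndFun_spec (E : LevelStructure p Λ J) (hp : (p : 𝒪) ∈ maximalIdeal 𝒪)
    (φ : J →+ J) (n : ℕ) (l l' : Λ) (h : E.e n l' = φ (E.e n l)) :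
    limEndFun E hp φ (1 ⊗ₜ[ℤ] l) - 1 ⊗ₜ[ℤ] l' ∈ limFil 𝒪 Λ n :=
  (lim_exists E hp φ).choose_spec n l l' h

theorem limEndFun_eq (E : LevelStructure p Λ J) (hp : (p : 𝒪) ∈ maximalIdeal 𝒪)
    (φ : J →+ J) (g : (𝒪 ⊗[ℤ] Λ) →ₗ[𝒪] (𝒪 ⊗[ℤ] Λ))
    (hg : ∀ (n : ℕ) (l : Λ), ∃ l' : Λ, E.e n l' = φ (E.e n l) ∧
      g (1 ⊗ₜ[ℤ] l) - 1 ⊗ₜ[ℤ] l' ∈ limFil 𝒪 Λ n) : limEndFun E hp φ = g :=
  lim_eq_of_exists E hp φ _ g (limEndFun_spec E hp φ) hg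

/-- **the Tate-module functor**: the ring homomorphism `End J → End_𝒪 (𝒪 ⊗ Λ)`. -/
noncomputable def limEnd (E : LevelStructure p Λ J) (hp : (p : 𝒪) ∈ maximalIdeal 𝒪) :
    AddMonoid.End J →+* Module.End 𝒪 (𝒪 ⊗[ℤ] Λ) where
  toFun φ := limEndFun E hp φ
  map_one' := by
    refine limEndFun_eq E hp _ _ fun n l => ⟨l, rfl, ?_⟩
    simp
  map_mul' φ ψ := by
    refine limEndFun_eq E hp _ _ fun n l => ?_
    obtain ⟨l₁, h₁⟩ := E.exists_lift ψ n l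
    obtain ⟨l₂, h₂⟩ := E.exists_lift φ n l₁
    refine ⟨l₂, by rw [h₂, h₁]; rfl, ?_⟩
    have hψ := limEndFun_spec (𝒪 := 𝒪) E hp ψ n l l₁ h₁
    have hφ := limEndFun_spec (𝒪 := 𝒪) E hp φ n l₁ l₂ h₂
    have h3 := lim_map_mem (limEndFun E hp φ) hψ
    rw [map_sub] at h3
    have : (limEndFun E hp φ * limEndFun E hp ψ) ((1 : 𝒪) ⊗ₜ[ℤ] l) - (1 : 𝒪) ⊗ₜ[ℤ] l₂
        = (limEndFun E hp φ (limEndFun E hp ψ ((1 : 𝒪) ⊗ₜ[ℤ] l))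
            - limEndFun E hp φ ((1 : 𝒪) ⊗ₜ[ℤ] l₁))
          + (limEndFun E hp φ ((1 : 𝒪) ⊗ₜ[ℤ] l₁) - (1 : 𝒪) ⊗ₜ[ℤ] l₂) := by
      rw [Module.End.mul_apply]; abel
    rw [this]
    exact Submodule.add_mem _ h3 hφ
  map_zero' := by
    refine limEndFun_eq E hp _ _ fun n l => ⟨0, (map_zero (E.e n)).trans rfl, ?_⟩
    simp
  map_add' φ ψ := by
    refine limEndFun_eq E hp _ _ fun n l => ?_
    obtain ⟨l₁, h₁⟩ := E.exists_lift φ n l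
    obtain ⟨l₂, h₂⟩ := E.exists_lift ψ n l
    refine ⟨l₁ + l₂, by rw [map_add, h₁, h₂]; rfl, ?_⟩
    have hφ := limEndFun_spec (𝒪 := 𝒪) E hp φ n l l₁ h₁
    have hψ := limEndFun_spec (𝒪 := 𝒪) E hp ψ n l l₂ h₂
    have : (limEndFun E hp φ + limEndFun E hp ψ) ((1 : 𝒪) ⊗ₜ[ℤ] l) - (1 : 𝒪) ⊗ₜ[ℤ] (l₁ + l₂)
        = (limEndFun E hp φ ((1 : 𝒪) ⊗ₜ[ℤ] l) - (1 : 𝒪) ⊗ₜ[ℤ] l₁)
          + (limEndFun E hp ψ ((1 : 𝒪) ⊗ₜ[ℤ] l) - (1 : 𝒪) ⊗ₜ[ℤ] l₂) := by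
      rw [LinearMap.add_apply, TensorProduct.tmul_add]; abel
    rw [this]
    exact Submodule.add_mem _ hφ hψ

theorem limEnd_apply (E : LevelStructure p Λ J) (hp : (p : 𝒪) ∈ maximalIdeal 𝒪) (φ : J →+ J) :
    limEnd E hp φ = limEndFun E hp φ := rfl

/-- if `φ` kills `J[p^n]` then its limit maps `𝒪 ⊗ Λ` into `𝔪^n (𝒪 ⊗ Λ)`. -/
theorem limEnd_mem_of_torsion (E : LevelStructure p Λ J) (hp : (p : 𝒪) ∈ maximalIdeal 𝒪)
    (n : ℕ) (φ : AddMonoid.End J) (h : ∀ x : J, p ^ n • x = 0 → φ x = 0) (m : 𝒪 ⊗[ℤ] Λ) :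
    limEnd E hp φ m ∈ (maximalIdeal 𝒪 ^ n) • (⊤ : Submodule 𝒪 (𝒪 ⊗[ℤ] Λ)) := by
  change limEndFun E hp φ m ∈ limFil 𝒪 Λ n
  induction m using TensorProduct.induction_on with
  | zero => rw [map_zero]; exact Submodule.zero_mem _
  | tmul c l =>
    have h1 := limEndFun_spec (𝒪 := 𝒪) E hp φ n l 0
      ((map_zero (E.e n)).trans (h _ (E.e_torsion n l)).symm)
    rw [TensorProduct.tmul_zero, sub_zero] at h1
    have : c ⊗ₜ[ℤ] l = c • ((1 : 𝒪) ⊗ₜ[ℤ] l) := by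
      rw [TensorProduct.smul_tmul', smul_eq_mul, mul_one]
    rw [this, map_smul]
    exact Submodule.smul_mem _ _ h1
  | add x y hx hy => rw [map_add]; exact Submodule.add_mem _ hx hy

/-- the limit of an endomorphism that lifts to the lattice is the base change of the lift. -/
theorem limEnd_eq_baseChange (E : LevelStructure p Λ J) (hp : (p : 𝒪) ∈ maximalIdeal 𝒪)
    (φ : AddMonoid.End J) (ψ : Λ →ₗ[ℤ] Λ) (h : ∀ n l, φ (E.e n l) = E.e n (ψ l)) :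
    limEnd E hp φ = ψ.baseChange 𝒪 := by
  refine limEndFun_eq E hp φ _ fun n l => ⟨ψ l, (h n l).symm, ?_⟩
  rw [LinearMap.baseChange_tmul, sub_self]
  exact Submodule.zero_mem _

end Limit

/-- **Piece J1** in the exact form of `J1Statement` (GalRep/EigenDefs.lean). -/
theorem exists_limitHom : J1Statement := by
  intro p J _ Λ _ _ _ e e_range e_ker e_succ 𝒪 _ _ _ hp
  let E : LevelStructure p Λ J :=
    { e := e
      ker_iff := e_ker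
      range_iff := fun n x => ⟨e_range n x, fun ⟨l, hl⟩ => by
        rw [← hl, ← map_nsmul]
        exact (e_ker n _).mpr ⟨l, rfl⟩⟩
      compat := e_succ }
  exact ⟨limEnd E hp, fun n φ h m => limEnd_mem_of_torsion E hp n φ h m,
    fun φ ψ h => limEnd_eq_baseChange E hp φ ψ h⟩

end Fermat.Agent.GalRep
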