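import Mathlib
import Fermat.Agent.GalRep.JacInput
import Fermat.Agent.GalRep.Goals
import Fermat.Agent.GalRep.ExtendChar
import Fermat.Agent.GalRep.LimitRep
import Fermat.Agent.GalRep.EigenSub
import Fermat.Agent.GalRep.Cyclo
import Fermat.Agent.GalRep.CoreA
import Fermat.Agent.Cheb.WeakQbar
import Fermat.Agent.S22

/-!
# Item 72, W1: the final assembly of S30

`s30_of_jacInput : (∀ N p, Nonempty (JacInput N p)) → S30Statement`.
-/

set_option autoImplicit false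

open scoped TensorProduct
open IsLocalRing ModularCurve

namespace Fermat.Agent.GalRep

section Assemble

/-- the Galois action on `J₀(N)` as a monoid hom -/
noncomputable def asmGal (N : ℕ) : GQ →* AddMonoid.End (JZero N) :=
  DistribMulAction.toAddMonoidEnd GQ (JZero N)

theorem asmGal_apply {N : ℕ} (σ : GQ) (x : JZero N) : asmGal N σ x = σ • x := rfl

/-- the Hecke operator as an additive endomorphism -/
noncomputable def asmHecke (N : ℕ) [NeZero N] (ℓ : Nat.Primes) : AddMonoid.End (JZero N) :=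
  (heckeOperatorBar N ℓ).toAddMonoidHom

theorem asmHecke_apply {N : ℕ} [NeZero N] (ℓ : Nat.Primes) (x : JZero N) :
    asmHecke N ℓ x = heckeOperatorBar N ℓ x := rfl

set_option linter.unusedSectionVars false

variable {N p : ℕ} [NeZero N] [Fact p.Prime]

theorem asm_e_torsion (I : JacInput N p) (n : ℕ) (l : I.Λ) : p ^ n • I.e n l = 0 := by
  rw [← map_nsmul]
  exact (I.e_ker n _).mpr ⟨l, rfl⟩

/-- continuity of the Galois action on `J[pⁿ]` -/
theorem asm_exists_field (I : JacInput N p) (n : ℕ) :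
    ∃ L : IntermediateField ℚ (AlgebraicClosure ℚ), FiniteDimensional ℚ L ∧
      ∀ σ : GQ, (∀ a ∈ L, σ a = a) → ∀ x : JZero N, p ^ n • x = 0 → σ • x = x := by
  classical
  have hst : ∀ l : I.Λ, ∃ L : IntermediateField ℚ (AlgebraicClosure ℚ), FiniteDimensional ℚ L ∧
      ∀ σ : GQ, (∀ a ∈ L, σ a = a) → σ • I.e n l = I.e n l :=
    fun l => I.stab (I.e n l) ⟨n, asm_e_torsion I n l⟩
  choose t ht1 ht2 using hst
  obtain ⟨s, hs⟩ := (Module.finite_def (R := ℤ) (M := I.Λ)).mp inferInstance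
  refine ⟨⨆ l ∈ s, t l, IntermediateField.finiteDimensional_iSup_of_finset' fun l _ => ht1 l,
    fun σ hσ x hx => ?_⟩
  have key : ∀ l : I.Λ, σ • I.e n l = I.e n l := by
    intro l
    have hmem : l ∈ Submodule.span ℤ (s : Set I.Λ) := by rw [hs]; exact Submodule.mem_top
    induction hmem using Submodule.span_induction with
    | mem l hl =>
      refine ht2 l σ fun a ha => hσ a ?_
      exact (le_iSup₂ (f := fun l (_ : l ∈ s) => t l) l hl) ha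
    | zero => rw [map_zero]; exact smul_zero (A := JZero N) σ
    | add a b _ _ iha ihb => rw [map_add, smul_add, iha, ihb]
    | smul c a _ iha =>
      rw [map_zsmul]
      have := map_zsmul (DistribSMul.toAddMonoidHom (JZero N) σ) c (I.e n a)
      rw [DistribSMul.toAddMonoidHom_apply, DistribSMul.toAddMonoidHom_apply] at this
      rw [this, iha]
  obtain ⟨l, rfl⟩ := I.e_range n x hx
  exact key l

/-- Krull: a finite module over a DVR is Hausdorff -/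
theorem asm_eq_zero_of_forall_mem {𝒪 : Type} [CommRing 𝒪] [IsDomain 𝒪]
    [IsDiscreteValuationRing 𝒪] {M : Type} [AddCommGroup M] [Module 𝒪 M] [Module.Finite 𝒪 M]
    (m : M) (h : ∀ n : ℕ, m ∈ (maximalIdeal 𝒪 ^ n) • (⊤ : Submodule 𝒪 M)) : m = 0 := by
  have h1 : m ∈ ⨅ i : ℕ, (maximalIdeal 𝒪 ^ i) • (⊤ : Submodule 𝒪 M) :=
    (Submodule.mem_iInf _).mpr h
  rw [Ideal.iInf_pow_smul_eq_bot_of_isLocalRing (maximalIdeal 𝒪)
    (Ideal.IsMaximal.ne_top inferInstance)] at h1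
  exact (Submodule.mem_bot 𝒪).mp h1

/-- the big Galois representation on `𝒪 ⊗ Λ` -/
theorem asm_exists_bigRep (I : JacInput N p) (𝒪 : Type) [CommRing 𝒪] [IsDomain 𝒪]
    [IsDiscreteValuationRing 𝒪] [IsAdicComplete (maximalIdeal 𝒪) 𝒪]
    (hp : (p : 𝒪) ∈ maximalIdeal 𝒪) :
    ∃ ρ : GQ →* Module.End 𝒪 (𝒪 ⊗[ℤ] I.Λ),
      GaloisActionIsAdicContinuous 𝒪 ρ ∧
      (∀ (σ : GQ) (ℓ : Nat.Primes),
        ρ σ * (I.T ℓ).baseChange 𝒪 = (I.T ℓ).baseChange 𝒪 * ρ σ) ∧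
      (∀ (ℓ : ℕ) (hℓ : ℓ.Prime), ¬ ℓ ∣ N * p →
        ∀ A : ValuationSubring (AlgebraicClosure ℚ), A.LiesOverPrime ℓ →
          ∀ σ : GQ, A.IsFrobeniusAt σ ℓ →
            ρ σ * ρ σ - (I.T ⟨ℓ, hℓ⟩).baseChange 𝒪 * ρ σ
              + (ℓ : Module.End 𝒪 (𝒪 ⊗[ℤ] I.Λ)) = 0) ∧
      (∀ ℓ : ℕ, ℓ.Prime → ¬ ℓ ∣ N * p →
        ∀ A : ValuationSubring (AlgebraicClosure ℚ), A.LiesOverPrime ℓ →
          ∀ σ ∈ A.inertiaSubgroupIn ℚ, ρ σ = 1) := by
  obtain ⟨Φ, hΦt, hΦb⟩ := exists_limitHom p I.e I.e_range I.e_ker I.e_succ 𝒪 hp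
  -- endomorphisms killing all `p`-power torsion go to zero
  have hΦ0 : ∀ φ : AddMonoid.End (JZero N),
      (∀ x : JZero N, (∃ n : ℕ, p ^ n • x = 0) → φ x = 0) → Φ φ = 0 := by
    intro φ hφ
    apply LinearMap.ext
    intro m
    exact asm_eq_zero_of_forall_mem _ fun n => hΦt n φ (fun x hx => hφ x ⟨n, hx⟩) m
  have hΦT : ∀ ℓ : Nat.Primes, Φ (asmHecke N ℓ) = (I.T ℓ).baseChange 𝒪 := fun ℓ =>
    hΦb (asmHecke N ℓ) (I.T ℓ) fun n l => by
      rw [asmHecke_apply, I.e_hecke]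
  refine ⟨Φ.toMonoidHom.comp (asmGal N), ?_, ?_, ?_, ?_⟩
  · -- continuity
    intro n
    obtain ⟨L, hL, h⟩ := asm_exists_field I n
    refine ⟨L, hL, fun σ hσ v => ?_⟩
    have h1 : ∀ x : JZero N, p ^ n • x = 0 → (asmGal N σ - 1) x = 0 := by
      intro x hx
      show asmGal N σ x - x = 0
      rw [asmGal_apply, h σ hσ x hx]
      exact sub_self x
    have h2 := hΦt n (asmGal N σ - 1) h1 v
    rw [map_sub, map_one, LinearMap.sub_apply, Module.End.one_apply] at h2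
    exact h2
  · -- Galois commutes with Hecke
    intro σ ℓ
    show Φ (asmGal N σ) * _ = _ * Φ (asmGal N σ)
    rw [← hΦT, ← map_mul, ← map_mul]
    congr 1
    apply AddMonoidHom.ext
    intro x
    show asmGal N σ (asmHecke N ℓ x) = asmHecke N ℓ (asmGal N σ x)
    rw [asmGal_apply, asmGal_apply, asmHecke_apply, asmHecke_apply, I.galComm]
  · -- Eichler–Shimura
    intro ℓ hℓ hℓN A hA σ hσ
    show Φ (asmGal N σ) * Φ (asmGal N σ) - _ * Φ (asmGal N σ) + _ = 0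
    have e : Φ (asmGal N σ * asmGal N σ - asmHecke N ⟨ℓ, hℓ⟩ * asmGal N σ
        + (ℓ : AddMonoid.End (JZero N))) = 0 := by
      apply hΦ0
      intro x hx
      have := I.frob ℓ hℓ hℓN A hA σ hσ x hx
      show asmGal N σ (asmGal N σ x) - asmHecke N ⟨ℓ, hℓ⟩ (asmGal N σ x)
        + (ℓ : AddMonoid.End (JZero N)) x = 0
      rw [asmGal_apply, asmGal_apply, asmHecke_apply, AddMonoid.End.natCast_apply]
      exact this
    rw [map_add, map_sub, map_mul, map_mul, map_natCast, hΦT] at e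
    exact e
  · -- unramified
    intro ℓ hℓ hℓN A hA σ hσ
    show Φ (asmGal N σ) = 1
    have h1 : Φ (asmGal N σ - 1) = 0 := by
      apply hΦ0
      intro x hx
      show asmGal N σ x - x = 0
      rw [asmGal_apply, I.unram ℓ hℓ hℓN A hA σ hσ x hx]
      exact sub_self x
    rw [map_sub, map_one] at h1
    exact sub_eq_zero.mp h1

open Classical in
/-- the eigenvalue function of a character of the full Hecke algebra -/
noncomputable def asmEig {𝒪 : Type} [CommRing 𝒪]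
    (χ' : CuspForm.heckeAlgebra N 2 (∅ : Set ℕ) →+* 𝒪) (ℓ : ℕ) : 𝒪 :=
  if h : ℓ.Prime then χ' (CuspForm.heckeEvalForms N 2 (heckeGen ⟨ℓ, h⟩)) else 0

theorem asmEig_of_prime {𝒪 : Type} [CommRing 𝒪]
    (χ' : CuspForm.heckeAlgebra N 2 (∅ : Set ℕ) →+* 𝒪) {ℓ : ℕ} (h : ℓ.Prime) :
    asmEig χ' ℓ = χ' (CuspForm.heckeEvalForms N 2 (heckeGen ⟨ℓ, h⟩)) :=
  dif_pos h

/-- the two-dimensional representation satisfying the quadratic relations -/
theorem asm_exists_rep (I : JacInput N p) (𝒪 : Type) [CommRing 𝒪] [IsDomain 𝒪]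
    [IsDiscreteValuationRing 𝒪] [IsAdicComplete (maximalIdeal 𝒪) 𝒪] [CharZero 𝒪]
    (hp : (p : 𝒪) ∈ maximalIdeal 𝒪)
    (χ' : CuspForm.heckeAlgebra N 2 (∅ : Set ℕ) →+* 𝒪) (S : Finset ℕ) (hpS : p ∈ S)
    (hNS : ∀ q : ℕ, q.Prime → q ∣ N → q ∈ S) :
    ∃ ρE : GaloisRepAdic 𝒪, QuadraticOutside ρE (↑S : Set ℕ) (asmEig χ') ∧
      ∀ q : ℕ, q.Prime → ¬ q ∣ N → q ≠ p → ρE.IsUnramifiedAt q := by
  obtain ⟨ρ, hcont, hcomm, hfrob, hunr⟩ := asm_exists_bigRep I 𝒪 hp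
  set c : Nat.Primes → 𝒪 := fun ℓ => χ' (CuspForm.heckeEvalForms N 2 (heckeGen ℓ)) with hc
  -- the eigen-submodule
  have hsat : ∀ (a : 𝒪) (v : 𝒪 ⊗[ℤ] I.Λ), a ≠ 0 → a • v ∈ eigenSub 𝒪 I.T c →
      v ∈ eigenSub 𝒪 I.T c := fun a v ha h => eigenSub_saturated 𝒪 I.T c a v ha h
  have hstab : ∀ (σ : GQ), ∀ v ∈ eigenSub 𝒪 I.T c, ρ σ v ∈ eigenSub 𝒪 I.T c := by
    intro σ v hv
    rw [mem_eigenSub_iff] at hv ⊢
    intro ℓ
    have h1 := congrArg (fun f => f v) (hcomm σ ℓ)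
    simp only [Module.End.mul_apply] at h1
    rw [← h1, hv ℓ, map_smul]
  have hrank : Module.finrank 𝒪 (eigenSub 𝒪 I.T c) = 2 := by
    rw [finrank_eigenSub 𝒪 (FractionRing 𝒪) I.T c]
    exact I.mult (FractionRing 𝒪) ((algebraMap 𝒪 (FractionRing 𝒪)).comp χ')
  obtain ⟨ρE, f, hf, hfE, hfρ⟩ :=
    exists_galoisRepAdic_of_stable ρ hcont (eigenSub 𝒪 I.T c) hsat hstab hrank
  have hdvd : ∀ ℓ : ℕ, ℓ.Prime → ℓ ∉ (↑S : Set ℕ) → ¬ ℓ ∣ N * p := by
    intro ℓ hℓ hℓS h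
    rcases (Nat.Prime.dvd_mul hℓ).mp h with h | h
    · exact hℓS (Finset.mem_coe.mpr (hNS ℓ hℓ h))
    · have : ℓ = p := (Nat.prime_dvd_prime_iff_eq hℓ Fact.out).mp h
      exact hℓS (Finset.mem_coe.mpr (this ▸ hpS))
  refine ⟨ρE, ?_, ?_⟩
  · intro ℓ hℓ hℓS A hA σ hσ
    apply LinearMap.ext
    intro v
    apply hf
    rw [LinearMap.zero_apply, map_zero]
    have h1 := congrArg (fun g => g (f v)) (hfrob ℓ hℓ (hdvd ℓ hℓ hℓS) A hA σ hσ)
    simp only [LinearMap.add_apply, LinearMap.sub_apply, Module.End.mul_apply,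
      LinearMap.zero_apply, Module.End.natCast_apply] at h1
    have h2 : (I.T ⟨ℓ, hℓ⟩).baseChange 𝒪 (ρ σ (f v)) = c ⟨ℓ, hℓ⟩ • ρ σ (f v) :=
      (mem_eigenSub_iff 𝒪 I.T c _).mp (hstab σ _ (hfE v)) ⟨ℓ, hℓ⟩
    rw [h2] at h1
    simp only [LinearMap.add_apply, LinearMap.sub_apply, Module.End.mul_apply,
      LinearMap.smul_apply, Module.End.one_apply, map_add, map_sub, map_smul, hfρ,
      asmEig_of_prime χ' hℓ]
    rw [← h1, Nat.cast_smul_eq_nsmul]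
  · intro q hq hqN hqp P hP σ hσ
    have hd : ¬ q ∣ N * p := by
      intro h
      rcases (Nat.Prime.dvd_mul hq).mp h with h | h
      · exact hqN h
      · exact hqp ((Nat.prime_dvd_prime_iff_eq hq Fact.out).mp h)
    apply LinearMap.ext
    intro v
    apply hf
    rw [hfρ, hunr q hq hd P hP σ hσ]
    rfl

end Assemble

/-- **W1**: S30 from the arithmetic input `JacInput`. -/
theorem s30_of_jacInput
    (h : ∀ (N p : ℕ) [NeZero N] [Fact p.Prime], Nonempty (JacInput N p)) : S30Statement := by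
  intro p _ N _ S hpS hNS 𝒪' _ _ _ _ _ _ hp𝒪' χ
  obtain ⟨I⟩ := h N p
  -- extend the character to the full Hecke algebra
  have : Module.Finite ℤ (CuspForm.heckeAlgebra N 2 (∅ : Set ℕ)) := Fermat.Agent.S22.result N 2 ∅
  have hle : CuspForm.heckeAlgebra N 2 (↑S : Set ℕ) ≤ CuspForm.heckeAlgebra N 2 (∅ : Set ℕ) :=
    CuspForm.heckeAlgebra_mono (Set.empty_subset _)
  obtain ⟨𝒪'', i1, i2, i3, i4, i5, i6, i7, i8, i9, χ', hinj, hχ'⟩ :=
    exists_extension_of_char (Subalgebra.inclusion hle).toRingHom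
      (Subalgebra.inclusion_injective hle) 𝒪' χ
  refine ⟨𝒪'', i1, i2, i3, i4, i5, i6, i7, i8, i9, hinj, ?_⟩
  have hp : (p : 𝒪'') ∈ maximalIdeal 𝒪'' := by
    have e : (p : 𝒪'') = algebraMap 𝒪' 𝒪'' (p : 𝒪') := (map_natCast _ p).symm
    rw [e]
    exact (IsLocalRing.mem_maximalIdeal _).mpr
      (map_mem_nonunits_iff (algebraMap 𝒪' 𝒪'') _ |>.mpr ((IsLocalRing.mem_maximalIdeal _).mp hp𝒪'))
  obtain ⟨ρ₀, hquad, hunr⟩ := asm_exists_rep I 𝒪'' hp χ' S hpS hNS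
  obtain ⟨χc, hχc⟩ := exists_cycloChar p 𝒪'' hp
  obtain ⟨ρ, hρ, hρu⟩ :=
    exists_charpolyOutside_of_cycloChar p weakCheb S hpS (asmEig χ') ρ₀ hquad χc hχc
  refine ⟨ρ, ?_, fun q hq hqN hqp => hρu q hq hqp (hunr q hq hqN hqp)⟩
  intro ℓ hℓ hℓN hℓS A hA σ hσ
  rw [hρ ℓ hℓ hℓS A hA σ hσ, asmEig_of_prime χ' hℓ,
    CuspForm.heckeEvalForms_heckeGen_of_not_dvd (ℓ := ⟨ℓ, hℓ⟩) hℓN, ← hχ']
  rfl



end Fermat.Agent.GalRep
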