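/-
Item 72, piece A2 (helper1): a complete discrete valuation ring at a prime of `ℤ̄`.
-/
import Mathlib
import Fermat.Agent.GalRep.IntClosureDVR
import Fermat.Agent.GalRep.ExtendChar

set_option autoImplicit false

noncomputable section

namespace Fermat.Agent.GalRep

open scoped TensorProduct

/-- A finite algebra `T` over a complete discrete valuation ring `𝒪` (characteristic `0`, finite
residue field) with `𝒪 → T` injective maps, over `𝒪`, to a complete discrete valuation ring finite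
over `𝒪`. -/
theorem cdvr_exists_hom_of_finite (𝒪 : Type) [CommRing 𝒪] [IsDomain 𝒪]
    [IsDiscreteValuationRing 𝒪] [IsAdicComplete (IsLocalRing.maximalIdeal 𝒪) 𝒪]
    [Finite (IsLocalRing.ResidueField 𝒪)] [CharZero 𝒪]
    (T : Type) [CommRing T] [Algebra 𝒪 T] [Module.Finite 𝒪 T]
    (hinj : Function.Injective (algebraMap 𝒪 T)) :
    ∃ (𝒪'' : Type) (_ : CommRing 𝒪'') (_ : IsDomain 𝒪'') (_ : IsDiscreteValuationRing 𝒪'')
      (_ : IsAdicComplete (IsLocalRing.maximalIdeal 𝒪'') 𝒪'')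
      (_ : Finite (IsLocalRing.ResidueField 𝒪''))
      (_ : CharZero 𝒪'') (_ : Algebra 𝒪 𝒪'') (_ : Module.Finite 𝒪 𝒪'')
      (_ : IsLocalHom (algebraMap 𝒪 𝒪''))
      (χ' : T →+* 𝒪''), Function.Injective (algebraMap 𝒪 𝒪'') ∧
        ∀ a : 𝒪, χ' (algebraMap 𝒪 T a) = algebraMap 𝒪 𝒪'' a := by
  classical
  have hI : Algebra.IsIntegral 𝒪 T := Algebra.IsIntegral.of_finite 𝒪 T
  have hint : (algebraMap 𝒪 T).IsIntegral := fun x => hI.isIntegral x
  obtain ⟨ψ, hψ⟩ := fe_exists_lift_algClosed (algebraMap 𝒪 T) hinj hint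
    (AlgebraicClosure (FractionRing 𝒪)) (algebraMap 𝒪 (AlgebraicClosure (FractionRing 𝒪)))
  obtain ⟨s, hs⟩ := (Module.Finite.fg_top : (⊤ : Submodule 𝒪 T).FG)
  set L : IntermediateField (FractionRing 𝒪) (AlgebraicClosure (FractionRing 𝒪)) :=
    IntermediateField.adjoin (FractionRing 𝒪) (ψ '' (s : Set T)) with hL
  have hLfin : FiniteDimensional (FractionRing 𝒪) L := by
    have hfinset : (ψ '' (s : Set T)).Finite := s.finite_toSet.image ψ
    have : Finite (ψ '' (s : Set T)) := hfinset.to_subtype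
    exact IntermediateField.finiteDimensional_adjoin fun x _ =>
      (Algebra.IsAlgebraic.isAlgebraic (R := FractionRing 𝒪) x).isIntegral
  have hmem : ∀ t : T, ψ t ∈ L := by
    intro t
    have ht : t ∈ Submodule.span 𝒪 (s : Set T) := hs ▸ Submodule.mem_top
    induction ht using Submodule.span_induction with
    | mem x hx => exact IntermediateField.subset_adjoin _ _ ⟨x, hx, rfl⟩
    | zero => rw [map_zero]; exact L.zero_mem
    | add x y _ _ hx hy => rw [map_add]; exact L.add_mem hx hy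
    | smul a x _ hx =>
      rw [Algebra.smul_def, map_mul, hψ,
        IsScalarTower.algebraMap_apply 𝒪 (FractionRing 𝒪) (AlgebraicClosure (FractionRing 𝒪))]
      exact L.mul_mem (L.algebraMap_mem _) hx
  obtain ⟨hDVR, hcomp, hres, hchar, hfin, hlochom, hinj'⟩ := icd_integralClosure 𝒪 L
  let ψL : T →ₐ[𝒪] L :=
    { ψ.codRestrict L hmem with
      commutes' := fun a => Subtype.ext (hψ a) }
  have hintL : ∀ t : T, ψL t ∈ integralClosure 𝒪 L := fun t =>
    (hI.isIntegral t).map ψL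
  refine ⟨integralClosure 𝒪 L, inferInstance, inferInstance, hDVR, hcomp, hres, hchar,
    inferInstance, hfin, hlochom,
    (ψL : T →+* L).codRestrict (integralClosure 𝒪 L) hintL,
    hinj', fun a => ?_⟩
  apply Subtype.ext
  apply Subtype.ext
  exact hψ a

/-- a prime ideal of an integral extension of a local ring whose contraction contains the maximal
ideal is maximal -/
theorem cdvr_isMaximal_of_le_comap (𝒪 : Type) [CommRing 𝒪] [IsLocalRing 𝒪] (S : Type) [CommRing S]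
    [Algebra 𝒪 S] [Algebra.IsIntegral 𝒪 S] (P : Ideal S) [P.IsPrime]
    (h : IsLocalRing.maximalIdeal 𝒪 ≤ P.comap (algebraMap 𝒪 S)) : P.IsMaximal := by
  have hne : P.comap (algebraMap 𝒪 S) ≠ ⊤ := (Ideal.comap_isPrime _ P).ne_top
  have heq : IsLocalRing.maximalIdeal 𝒪 = P.comap (algebraMap 𝒪 S) :=
    (IsLocalRing.maximalIdeal.isMaximal 𝒪).eq_of_le hne h
  exact Ideal.isMaximal_of_isIntegral_of_isMaximal_comap P
    (heq ▸ IsLocalRing.maximalIdeal.isMaximal 𝒪)

instance cdvr_finite_residueField_padicInt (p : ℕ) [Fact p.Prime] :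
    Finite (IsLocalRing.ResidueField ℤ_[p]) :=
  Finite.of_equiv _ (PadicInt.residueField (p := p)).symm.toEquiv

theorem cdvr_natCast_mem_maximalIdeal (p : ℕ) [Fact p.Prime] :
    (p : ℤ_[p]) ∈ IsLocalRing.maximalIdeal ℤ_[p] := by
  rw [PadicInt.maximalIdeal_eq_span_p]
  exact Ideal.subset_span rfl

/-- A finite flat `ℤ_p`-algebra with a homomorphism `θ` to a field maps to a complete discrete
valuation ring in such a way that the kernel of the reduction is the kernel of `θ`. -/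
theorem cdvr_exists_of_flat (p : ℕ) [Fact p.Prime] (C : Type) [CommRing C] [Algebra ℤ_[p] C]
    [Module.Finite ℤ_[p] C] [Module.Flat ℤ_[p] C] {k : Type} [Field k] (θ : C →+* k)
    (hθ : θ (p : C) = 0) :
    ∃ (𝒪' : Type) (_ : CommRing 𝒪') (_ : IsDomain 𝒪') (_ : IsDiscreteValuationRing 𝒪')
      (_ : IsAdicComplete (IsLocalRing.maximalIdeal 𝒪') 𝒪')
      (_ : Finite (IsLocalRing.ResidueField 𝒪'))
      (_ : CharZero 𝒪') (j : C →+* 𝒪'), (p : 𝒪') ∈ IsLocalRing.maximalIdeal 𝒪' ∧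
      ∀ c : C, IsLocalRing.residue 𝒪' (j c) = 0 ↔ θ c = 0 := by
  classical
  have hMprime : (RingHom.ker θ).IsPrime := RingHom.ker_isPrime _
  have hCint : Algebra.IsIntegral ℤ_[p] C := Algebra.IsIntegral.of_finite _ _
  have hMle : IsLocalRing.maximalIdeal ℤ_[p] ≤ (RingHom.ker θ).comap (algebraMap ℤ_[p] C) := by
    rw [PadicInt.maximalIdeal_eq_span_p, Ideal.span_le, Set.singleton_subset_iff]
    show algebraMap ℤ_[p] C (p : ℤ_[p]) ∈ RingHom.ker θ
    rw [RingHom.mem_ker, map_natCast]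
    exact hθ
  have hMmax : (RingHom.ker θ).IsMaximal := cdvr_isMaximal_of_le_comap ℤ_[p] C _ hMle
  -- the local factor
  have hTfin : Module.Finite ℤ_[p] (Localization.AtPrime (RingHom.ker θ)) :=
    (Algebra.finite_maximalSpectrum_and_bijective_localization_of_module_finite (𝒪 := ℤ_[p])
      C).2.2.1 ⟨_, hMmax⟩
  have hTflat : Module.Flat ℤ_[p] (Localization.AtPrime (RingHom.ker θ)) := inferInstance
  have hTtf : Module.IsTorsionFree ℤ_[p] (Localization.AtPrime (RingHom.ker θ)) :=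
    Module.Flat.isTorsionFree
  have hTfaith : FaithfulSMul ℤ_[p] (Localization.AtPrime (RingHom.ker θ)) :=
    Module.IsTorsionFree.to_faithfulSMul
  have hTinj : Function.Injective (algebraMap ℤ_[p] (Localization.AtPrime (RingHom.ker θ))) :=
    FaithfulSMul.algebraMap_injective _ _
  have hTint : Algebra.IsIntegral ℤ_[p] (Localization.AtPrime (RingHom.ker θ)) :=
    Algebra.IsIntegral.of_finite _ _
  obtain ⟨𝒪'', i1, i2, i3, i4, i5, i6, i7, i8, i9, χ'', -, hχ''⟩ :=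
    cdvr_exists_hom_of_finite ℤ_[p] (Localization.AtPrime (RingHom.ker θ)) hTinj
  have hpmem : (p : 𝒪'') ∈ IsLocalRing.maximalIdeal 𝒪'' := by
    have h1 : (p : 𝒪'') = algebraMap ℤ_[p] 𝒪'' (p : ℤ_[p]) := (map_natCast _ p).symm
    rw [h1, IsLocalRing.mem_maximalIdeal, mem_nonunits_iff]
    intro hu
    have := (isUnit_map_iff (algebraMap ℤ_[p] 𝒪'') _).mp hu
    exact (IsLocalRing.mem_maximalIdeal _).mp (cdvr_natCast_mem_maximalIdeal p) this
  -- `χ''` is a local homomorphism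
  have hcomap : (IsLocalRing.maximalIdeal 𝒪'').comap χ'' =
      IsLocalRing.maximalIdeal (Localization.AtPrime (RingHom.ker θ)) := by
    have hprime : ((IsLocalRing.maximalIdeal 𝒪'').comap χ'').IsPrime := Ideal.comap_isPrime _ _
    have hle : IsLocalRing.maximalIdeal ℤ_[p] ≤
        ((IsLocalRing.maximalIdeal 𝒪'').comap χ'').comap
          (algebraMap ℤ_[p] (Localization.AtPrime (RingHom.ker θ))) := by
      rw [PadicInt.maximalIdeal_eq_span_p, Ideal.span_le, Set.singleton_subset_iff]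
      show χ'' (algebraMap ℤ_[p] _ (p : ℤ_[p])) ∈ IsLocalRing.maximalIdeal 𝒪''
      rw [hχ'', map_natCast]
      exact hpmem
    have hmax := cdvr_isMaximal_of_le_comap ℤ_[p] _ _ hle
    exact IsLocalRing.eq_maximalIdeal hmax
  refine ⟨𝒪'', i1, i2, i3, i4, i5, i6,
    χ''.comp (algebraMap C (Localization.AtPrime (RingHom.ker θ))), hpmem, fun c => ?_⟩
  rw [IsLocalRing.residue_eq_zero_iff, RingHom.comp_apply, ← Ideal.mem_comap, hcomap,
    IsLocalization.AtPrime.to_map_mem_maximal_iff _ (RingHom.ker θ), RingHom.mem_ker]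

/-- A2 -/
theorem exists_completeDVR_of_residue {R : Type} [CommRing R] [Module.Finite ℤ R]
    (χ : R →+* integralClosure ℤ ℂ) {p : ℕ} (hp : p.Prime) {k : Type} [Field k] [CharP k p]
    (φ : integralClosure ℤ ℂ →+* k) :
    ∃ (𝒪' : Type) (_ : CommRing 𝒪') (_ : IsDomain 𝒪') (_ : IsDiscreteValuationRing 𝒪')
      (_ : IsAdicComplete (IsLocalRing.maximalIdeal 𝒪') 𝒪')
      (_ : Finite (IsLocalRing.ResidueField 𝒪'))
      (_ : CharZero 𝒪') (χ' : R →+* 𝒪'), (p : 𝒪') ∈ IsLocalRing.maximalIdeal 𝒪' ∧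
      ∀ t : R, IsLocalRing.residue 𝒪' (χ' t) = 0 ↔ φ (χ t) = 0 := by
  classical
  have : Fact p.Prime := ⟨hp⟩
  -- the image of `χ`, as the quotient `B = R / ker χ`
  have hker : (RingHom.ker χ).IsPrime := RingHom.ker_isPrime χ
  have hBdom : IsDomain (R ⧸ RingHom.ker χ) := Ideal.Quotient.isDomain _
  have hBchar : CharZero (R ⧸ RingHom.ker χ) := (RingHom.kerLift χ).charZero
  have hBflat : Module.Flat ℤ (R ⧸ RingHom.ker χ) := inferInstance
  -- the tensor product with `ℤ_p` and its map to `k`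
  let f₁ : ℤ_[p] →ₐ[ℤ] k := ((ZMod.castHom (dvd_refl p) k).comp PadicInt.toZMod).toIntAlgHom
  let f₂ : (R ⧸ RingHom.ker χ) →ₐ[ℤ] k := (φ.comp (RingHom.kerLift χ)).toIntAlgHom
  let θ : (ℤ_[p] ⊗[ℤ] (R ⧸ RingHom.ker χ)) →ₐ[ℤ] k := Algebra.TensorProduct.productMap f₁ f₂
  have hθp : (θ : (ℤ_[p] ⊗[ℤ] (R ⧸ RingHom.ker χ)) →+* k)
      (p : ℤ_[p] ⊗[ℤ] (R ⧸ RingHom.ker χ)) = 0 := by
    rw [map_natCast]
    exact CharP.cast_eq_zero k p
  obtain ⟨𝒪', i1, i2, i3, i4, i5, i6, j, hpmem, hj⟩ :=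
    cdvr_exists_of_flat p (ℤ_[p] ⊗[ℤ] (R ⧸ RingHom.ker χ))
      (θ : (ℤ_[p] ⊗[ℤ] (R ⧸ RingHom.ker χ)) →+* k) hθp
  refine ⟨𝒪', i1, i2, i3, i4, i5, i6,
    j.comp ((Algebra.TensorProduct.includeRight (R := ℤ) (A := ℤ_[p])
        (B := R ⧸ RingHom.ker χ)).toRingHom.comp (Ideal.Quotient.mk (RingHom.ker χ))),
    hpmem, fun t => ?_⟩
  have e : (θ : (ℤ_[p] ⊗[ℤ] (R ⧸ RingHom.ker χ)) →+* k)
      (((Algebra.TensorProduct.includeRight (R := ℤ) (A := ℤ_[p])
        (B := R ⧸ RingHom.ker χ)).toRingHom.comp (Ideal.Quotient.mk (RingHom.ker χ))) t)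
      = φ (χ t) := by
    show θ ((1 : ℤ_[p]) ⊗ₜ[ℤ] (Ideal.Quotient.mk (RingHom.ker χ) t)) = φ (χ t)
    exact (Algebra.TensorProduct.productMap_right_apply f₁ f₂ _).trans rfl
  rw [RingHom.comp_apply, hj, e]

end Fermat.Agent.GalRep

end
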