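import Fermat.Agent.GalRep.CoreMat

/-!
# Item 72, piece G3 (part 2): the non-scalar case

If `ρ₀` satisfies the quadratic relations at the Frobenius elements outside `S` and some
`ρ₀ g₀` is not a scalar, then `det ρ₀` is the cyclotomic character (weak Chebotarev).
-/

set_option autoImplicit false

open Polynomial

namespace Fermat.Agent.GalRep

/-- The properties of the `p`-adic cyclotomic character with values in `𝒪ˣ`
(the conclusion of piece G2). -/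
def IsCycloChar (p : ℕ) (𝒪 : Type) [CommRing 𝒪] [IsLocalRing 𝒪] (χ : GQ →* 𝒪ˣ) : Prop :=
  (∀ n : ℕ, ∃ L : IntermediateField ℚ (AlgebraicClosure ℚ), FiniteDimensional ℚ L ∧
    ∀ σ : GQ, (∀ x ∈ L, σ x = x) → ((χ σ : 𝒪) - 1) ∈ IsLocalRing.maximalIdeal 𝒪 ^ n) ∧
  (∀ ℓ : ℕ, ℓ.Prime → ℓ ≠ p → ∀ A : ValuationSubring (AlgebraicClosure ℚ),
    A.LiesOverPrime ℓ → ∀ σ : GQ, A.IsFrobeniusAt σ ℓ → (χ σ : 𝒪) = (ℓ : 𝒪)) ∧
  (∀ q : ℕ, q.Prime → q ≠ p → ∀ A : ValuationSubring (AlgebraicClosure ℚ),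
    A.LiesOverPrime q → ∀ σ ∈ A.inertiaSubgroupIn ℚ, χ σ = 1)

section Hausdorff

variable {𝒪 : Type} [CommRing 𝒪] [IsDomain 𝒪] [IsDiscreteValuationRing 𝒪]

theorem coreB_eq_zero_of_forall_mem_pow (x : 𝒪)
    (h : ∀ n : ℕ, x ∈ IsLocalRing.maximalIdeal 𝒪 ^ n) : x = 0 := by
  have h0 := Ideal.iInf_pow_eq_bot_of_isLocalRing (IsLocalRing.maximalIdeal 𝒪)
    Ideal.IsPrime.ne_top'
  have : x ∈ (⨅ i : ℕ, IsLocalRing.maximalIdeal 𝒪 ^ i) := by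
    rw [Ideal.mem_iInf]
    exact h
  rw [h0] at this
  exact this

theorem coreB_eq_zero_of_forall_ge_mem_pow (x : 𝒪) (n : ℕ)
    (h : ∀ m : ℕ, n ≤ m → x ∈ IsLocalRing.maximalIdeal 𝒪 ^ m) : x = 0 := by
  apply coreB_eq_zero_of_forall_mem_pow
  intro m
  by_cases hm : n ≤ m
  · exact h m hm
  · exact Ideal.pow_le_pow_right (le_of_not_ge hm) (h n le_rfl)

/-- a matrix which is scalar modulo every power of `𝔪` is scalar. -/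
theorem coreB_scalar_of_forall (ρ : GaloisRepAdic 𝒪) (g : GQ)
    (h : ∀ n : ℕ, ∃ c : 𝒪 ⧸ IsLocalRing.maximalIdeal 𝒪 ^ n,
      coreMatMod ρ n g = c • (1 : Matrix (Fin 2) (Fin 2) (𝒪 ⧸ IsLocalRing.maximalIdeal 𝒪 ^ n))) :
    ∃ c : 𝒪, ρ.ρ g = c • (1 : Module.End 𝒪 ρ.V) := by
  refine ⟨coreMat ρ g 0 0, ?_⟩
  rw [← coreMat_eq_smul_one_iff]
  have h01 : coreMat ρ g 0 1 = 0 := by
    apply coreB_eq_zero_of_forall_mem_pow
    intro n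
    obtain ⟨c, hc⟩ := h n
    have := congrFun (congrFun hc 0) 1
    rw [coreMatMod_apply, Matrix.map_apply, Matrix.smul_apply,
      Matrix.one_apply_ne (show (0 : Fin 2) ≠ 1 by decide), smul_zero] at this
    exact Ideal.Quotient.eq_zero_iff_mem.mp this
  have h10 : coreMat ρ g 1 0 = 0 := by
    apply coreB_eq_zero_of_forall_mem_pow
    intro n
    obtain ⟨c, hc⟩ := h n
    have := congrFun (congrFun hc 1) 0
    rw [coreMatMod_apply, Matrix.map_apply, Matrix.smul_apply,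
      Matrix.one_apply_ne (show (1 : Fin 2) ≠ 0 by decide), smul_zero] at this
    exact Ideal.Quotient.eq_zero_iff_mem.mp this
  have h11 : coreMat ρ g 1 1 = coreMat ρ g 0 0 := by
    rw [← sub_eq_zero]
    apply coreB_eq_zero_of_forall_mem_pow
    intro n
    obtain ⟨c, hc⟩ := h n
    have e0 := congrFun (congrFun hc 0) 0
    have e1 := congrFun (congrFun hc 1) 1
    rw [coreMatMod_apply, Matrix.map_apply, Matrix.smul_apply, Matrix.one_apply_eq] at e0 e1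
    exact Ideal.Quotient.eq.mp (e1.trans e0.symm)
  ext i j
  fin_cases i <;> fin_cases j <;> simp [h01, h10, h11]

end Hausdorff

end Fermat.Agent.GalRep

namespace Fermat.Agent.GalRep

section Main

variable (p : ℕ) {𝒪 : Type} [CommRing 𝒪] [IsDomain 𝒪] [IsDiscreteValuationRing 𝒪]

/-- **Key step.**  If `ρ g` is not a scalar modulo `𝔪ⁿ`, then `det ρ g = χ_cyc g`. -/
theorem coreB_det_eq_of_not_scalar_mod (hcheb : WeakCheb) (S : Finset ℕ) (hpS : p ∈ S)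
    (a : ℕ → 𝒪) (ρ : GaloisRepAdic 𝒪) (hq : QuadraticOutside ρ (↑S : Set ℕ) a)
    (χ : GQ →* 𝒪ˣ) (hχ : IsCycloChar p 𝒪 χ) (n : ℕ) (g : GQ)
    (hns : ∀ c : 𝒪 ⧸ IsLocalRing.maximalIdeal 𝒪 ^ n,
      coreMatMod ρ n g ≠ c • (1 : Matrix (Fin 2) (Fin 2) (𝒪 ⧸ IsLocalRing.maximalIdeal 𝒪 ^ n))) :
    LinearMap.det (ρ.ρ g) = (χ g : 𝒪) := by
  rw [← sub_eq_zero]
  apply coreB_eq_zero_of_forall_ge_mem_pow _ n
  intro m _
  obtain ⟨L₀, hL₀fd, hL₀⟩ := exists_level_coreMatMod ρ n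
  obtain ⟨L₁, hL₁fd, hL₁⟩ := exists_level_coreMatMod ρ m
  obtain ⟨L₂, hL₂fd, hL₂⟩ := hχ.1 m
  have hLfd : FiniteDimensional ℚ (L₀ ⊔ L₁ ⊔ L₂ : IntermediateField ℚ (AlgebraicClosure ℚ)) := by
    have := hL₀fd
    have := hL₁fd
    have := hL₂fd
    have : FiniteDimensional ℚ (L₀ ⊔ L₁ : IntermediateField ℚ (AlgebraicClosure ℚ)) :=
      IntermediateField.finiteDimensional_sup L₀ L₁
    exact IntermediateField.finiteDimensional_sup (L₀ ⊔ L₁) L₂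
  obtain ⟨ℓ, A, τ, k, k', hℓ, hℓS, hA, hτ, -, h2⟩ := hcheb (L₀ ⊔ L₁ ⊔ L₂) hLfd S g
  have hle₀ : L₀ ≤ L₀ ⊔ L₁ ⊔ L₂ := le_sup_left.trans le_sup_left
  have hle₁ : L₁ ≤ L₀ ⊔ L₁ ⊔ L₂ := le_sup_right.trans le_sup_left
  have hle₂ : L₂ ≤ L₀ ⊔ L₁ ⊔ L₂ := le_sup_right
  have e0 : coreMatMod ρ n g = (coreMatMod ρ n τ) ^ k' := by
    rw [coreMatMod_eq_of_agree ρ n L₀ hL₀ g (τ ^ k') (fun x hx => h2 x (hle₀ hx)), map_pow]
  have e1 : coreMatMod ρ m g = (coreMatMod ρ m τ) ^ k' := by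
    rw [coreMatMod_eq_of_agree ρ m L₁ hL₁ g (τ ^ k') (fun x hx => h2 x (hle₁ hx)), map_pow]
  -- `τ` is not a scalar
  have hτns : ∀ c : 𝒪, ρ.ρ τ ≠ c • (1 : Module.End 𝒪 ρ.V) := by
    intro c hc
    have h3 : coreMat ρ τ = c • (1 : Matrix (Fin 2) (Fin 2) 𝒪) :=
      (coreMat_eq_smul_one_iff ρ τ c).mpr hc
    apply hns ((Ideal.Quotient.mk (IsLocalRing.maximalIdeal 𝒪 ^ n) c) ^ k')
    rw [e0, coreMatMod_apply, h3]
    have h4 : (c • (1 : Matrix (Fin 2) (Fin 2) 𝒪)).map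
        (Ideal.Quotient.mk (IsLocalRing.maximalIdeal 𝒪 ^ n))
        = (Ideal.Quotient.mk (IsLocalRing.maximalIdeal 𝒪 ^ n) c) •
          (1 : Matrix (Fin 2) (Fin 2) (𝒪 ⧸ IsLocalRing.maximalIdeal 𝒪 ^ n)) := by
      ext i j
      simp [Matrix.map_apply, Matrix.one_apply]
      split_ifs <;> simp
    rw [h4, _root_.smul_pow, one_pow]
  have hℓS' : ℓ ∉ (↑S : Set ℕ) := by simpa using hℓS
  have hquad := hq ℓ hℓ hℓS' A hA τ hτ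
  obtain ⟨-, hdet⟩ := trace_det_of_quadratic ρ.finrank_eq (ρ.ρ τ) (a ℓ) (ℓ : 𝒪) hquad hτns
  have hℓp : ℓ ≠ p := fun h => hℓS (h ▸ hpS)
  have hχτ : (χ τ : 𝒪) = (ℓ : 𝒪) := hχ.2.1 ℓ hℓ hℓp A hA τ hτ
  -- the determinant congruence
  have hdetg : LinearMap.det (ρ.ρ g) - (ℓ : 𝒪) ^ k' ∈ IsLocalRing.maximalIdeal 𝒪 ^ m := by
    rw [← Ideal.Quotient.eq]
    have hd : ∀ σ : GQ, Ideal.Quotient.mk (IsLocalRing.maximalIdeal 𝒪 ^ m) (LinearMap.det (ρ.ρ σ))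
        = (coreMatMod ρ m σ).det := by
      intro σ
      rw [← coreMat_det, coreMatMod_apply]
      exact RingHom.map_det _ _
    rw [hd g, e1, Matrix.det_pow, ← hd τ, hdet, map_pow]
  -- the congruence for the character
  have hχg : (χ g : 𝒪) - (ℓ : 𝒪) ^ k' ∈ IsLocalRing.maximalIdeal 𝒪 ^ m := by
    have hσ : ∀ x ∈ L₂, ((τ ^ k')⁻¹ * g) x = x := by
      intro x hx
      rw [AlgEquiv.mul_apply, h2 x (hle₂ hx)]
      exact (τ ^ k').symm_apply_apply x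
    have h5 := hL₂ ((τ ^ k')⁻¹ * g) hσ
    have h6 : g = τ ^ k' * ((τ ^ k')⁻¹ * g) := by group
    have h7 : (χ g : 𝒪) = (ℓ : 𝒪) ^ k' * (χ ((τ ^ k')⁻¹ * g) : 𝒪) := by
      conv_lhs => rw [h6]
      rw [map_mul, map_pow, Units.val_mul, Units.val_pow_eq_pow_val, hχτ]
    rw [h7]
    have : (ℓ : 𝒪) ^ k' * (χ ((τ ^ k')⁻¹ * g) : 𝒪) - (ℓ : 𝒪) ^ k'
        = (ℓ : 𝒪) ^ k' * ((χ ((τ ^ k')⁻¹ * g) : 𝒪) - 1) := by ring
    rw [this]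
    exact Ideal.mul_mem_left _ _ h5
  have : LinearMap.det (ρ.ρ g) - (χ g : 𝒪)
      = (LinearMap.det (ρ.ρ g) - (ℓ : 𝒪) ^ k') - ((χ g : 𝒪) - (ℓ : 𝒪) ^ k') := by ring
  rw [this]
  exact Ideal.sub_mem _ hdetg hχg

/-- scalars are closed under inverses. -/
theorem coreB_scalar_inv (ρ : GaloisRepAdic 𝒪) (g : GQ) (c : 𝒪)
    (hc : ρ.ρ g = c • (1 : Module.End 𝒪 ρ.V)) :
    ∃ u : 𝒪, ρ.ρ g⁻¹ = u • (1 : Module.End 𝒪 ρ.V) := by
  have h1 : ρ.ρ g * ρ.ρ g⁻¹ = 1 := by rw [← map_mul, mul_inv_cancel, map_one]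
  rw [hc, smul_mul_assoc, one_mul] at h1
  -- `c • ρ g⁻¹ = 1`, so `c` is a unit
  have hdet := congrArg LinearMap.det h1
  rw [LinearMap.det_smul, ρ.finrank_eq, map_one] at hdet
  refine ⟨c * LinearMap.det (ρ.ρ g⁻¹), ?_⟩
  have h2 : (c * LinearMap.det (ρ.ρ g⁻¹)) • (c • ρ.ρ g⁻¹) = ρ.ρ g⁻¹ := by
    rw [smul_smul]
    have : c * LinearMap.det (ρ.ρ g⁻¹) * c = 1 := by
      rw [← hdet]; ring
    rw [this, one_smul]
  calc ρ.ρ g⁻¹ = (c * LinearMap.det (ρ.ρ g⁻¹)) • (c • ρ.ρ g⁻¹) := h2.symm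
    _ = (c * LinearMap.det (ρ.ρ g⁻¹)) • (1 : Module.End 𝒪 ρ.V) := by rw [h1]

/-- In the non-scalar case the determinant is the cyclotomic character. -/
theorem coreB_det_eq (hcheb : WeakCheb) (S : Finset ℕ) (hpS : p ∈ S)
    (a : ℕ → 𝒪) (ρ : GaloisRepAdic 𝒪) (hq : QuadraticOutside ρ (↑S : Set ℕ) a)
    (χ : GQ →* 𝒪ˣ) (hχ : IsCycloChar p 𝒪 χ) (g₀ : GQ)
    (hg₀ : ∀ c : 𝒪, ρ.ρ g₀ ≠ c • (1 : Module.End 𝒪 ρ.V)) (g : GQ) :
    LinearMap.det (ρ.ρ g) = (χ g : 𝒪) := by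
  have key : ∀ h : GQ, (∀ c : 𝒪, ρ.ρ h ≠ c • (1 : Module.End 𝒪 ρ.V)) →
      LinearMap.det (ρ.ρ h) = (χ h : 𝒪) := by
    intro h hh
    have : ∃ n : ℕ, ∀ c : 𝒪 ⧸ IsLocalRing.maximalIdeal 𝒪 ^ n,
        coreMatMod ρ n h ≠ c • (1 : Matrix (Fin 2) (Fin 2) (𝒪 ⧸ IsLocalRing.maximalIdeal 𝒪 ^ n)) := by
      by_contra hcon
      simp only [not_exists, not_forall, not_not] at hcon
      obtain ⟨c, hc⟩ := coreB_scalar_of_forall ρ h hcon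
      exact hh c hc
    obtain ⟨n, hn⟩ := this
    exact coreB_det_eq_of_not_scalar_mod p hcheb S hpS a ρ hq χ hχ n h hn
  by_cases hs : ∀ c : 𝒪, ρ.ρ g ≠ c • (1 : Module.End 𝒪 ρ.V)
  · exact key g hs
  · simp only [not_forall, not_not] at hs
    obtain ⟨c, hc⟩ := hs
    have hgg₀ : ∀ c' : 𝒪, ρ.ρ (g * g₀) ≠ c' • (1 : Module.End 𝒪 ρ.V) := by
      intro c' hc'
      obtain ⟨u, hu⟩ := coreB_scalar_inv ρ g c hc
      apply hg₀ (u * c')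
      have : g₀ = g⁻¹ * (g * g₀) := by group
      rw [this, map_mul, hu, hc', smul_mul_assoc, one_mul, smul_smul]
    have h1 := key (g * g₀) hgg₀
    have h2 := key g₀ hg₀
    rw [map_mul, map_mul, h2, map_mul, Units.val_mul] at h1
    exact mul_right_cancel₀ (Units.ne_zero (χ g₀)) h1

/-- **Case B.**  In the non-scalar case `ρ` itself has the right characteristic polynomials. -/
theorem coreB_charpolyOutside [CharZero 𝒪] (hcheb : WeakCheb) (S : Finset ℕ) (hpS : p ∈ S)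
    (a : ℕ → 𝒪) (ρ : GaloisRepAdic 𝒪) (hq : QuadraticOutside ρ (↑S : Set ℕ) a)
    (χ : GQ →* 𝒪ˣ) (hχ : IsCycloChar p 𝒪 χ) (g₀ : GQ)
    (hg₀ : ∀ c : 𝒪, ρ.ρ g₀ ≠ c • (1 : Module.End 𝒪 ρ.V)) :
    CharpolyOutside ρ (↑S : Set ℕ) a := by
  intro ℓ hℓ hℓS A hA σ hσ
  have hℓp : ℓ ≠ p := fun h => hℓS (by rw [h]; exact_mod_cast hpS)
  have hdet : LinearMap.det (ρ.ρ σ) = (ℓ : 𝒪) := by
    rw [coreB_det_eq p hcheb S hpS a ρ hq χ hχ g₀ hg₀ σ]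
    exact hχ.2.1 ℓ hℓ hℓp A hA σ hσ
  exact charpoly_eq_of_quadratic_of_det ρ.finrank_eq (ρ.ρ σ) (a ℓ) (ℓ : 𝒪)
    (hq ℓ hℓ hℓS A hA σ hσ) hdet (Nat.cast_ne_zero.mpr hℓ.ne_zero)

end Main

end Fermat.Agent.GalRep
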