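import Mathlib

/-!
# Item 72, piece G1: 2×2 linear algebra

An endomorphism `f` of a free module of rank 2 over a domain which satisfies a monic quadratic
relation `f² - a f + b = 0` and is not a scalar has characteristic polynomial `X² - a X + b`.
-/

set_option autoImplicit false

open Polynomial

namespace Fermat.Agent.GalRep

section Matrix

variable {𝒪 : Type*} [CommRing 𝒪]

/-- Cayley–Hamilton for `2 × 2` matrices, by hand. -/
theorem linAlg2_cayley (A : Matrix (Fin 2) (Fin 2) 𝒪) :
    A * A - A.trace • A + A.det • (1 : Matrix (Fin 2) (Fin 2) 𝒪) = 0 := by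
  ext i j
  fin_cases i <;> fin_cases j <;>
    simp [Matrix.mul_apply, Fin.sum_univ_two, Matrix.trace_fin_two, Matrix.det_fin_two] <;> ring

theorem linAlg2_matrix_charpoly [IsDomain 𝒪] (A : Matrix (Fin 2) (Fin 2) 𝒪) (a b : 𝒪)
    (hq : A * A - a • A + b • (1 : Matrix (Fin 2) (Fin 2) 𝒪) = 0)
    (hns : ∀ c : 𝒪, A ≠ c • (1 : Matrix (Fin 2) (Fin 2) 𝒪)) :
    A.trace = a ∧ A.det = b := by
  have hCH := linAlg2_cayley A
  have hdiff : (A.trace - a) • A = (A.det - b) • (1 : Matrix (Fin 2) (Fin 2) 𝒪) := by
    have : (A.trace - a) • A - (A.det - b) • (1 : Matrix (Fin 2) (Fin 2) 𝒪)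
        = (A * A - a • A + b • (1 : Matrix (Fin 2) (Fin 2) 𝒪))
          - (A * A - A.trace • A + A.det • (1 : Matrix (Fin 2) (Fin 2) 𝒪)) := by
      simp only [sub_smul]
      abel
    rw [hq, hCH, sub_zero] at this
    exact sub_eq_zero.mp this
  have htr : A.trace = a := by
    by_contra hne
    have hne' : A.trace - a ≠ 0 := sub_ne_zero.mpr hne
    have h01 : A 0 1 = 0 := by
      have := congrFun (congrFun hdiff 0) 1
      simp only [Matrix.smul_apply, smul_eq_mul, Matrix.one_apply_ne (show (0 : Fin 2) ≠ 1 by decide),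
        mul_zero] at this
      exact (mul_eq_zero.mp this).resolve_left hne'
    have h10 : A 1 0 = 0 := by
      have := congrFun (congrFun hdiff 1) 0
      simp only [Matrix.smul_apply, smul_eq_mul, Matrix.one_apply_ne (show (1 : Fin 2) ≠ 0 by decide),
        mul_zero] at this
      exact (mul_eq_zero.mp this).resolve_left hne'
    have h00 : (A.trace - a) * A 0 0 = A.det - b := by
      have := congrFun (congrFun hdiff 0) 0
      simpa only [Matrix.smul_apply, smul_eq_mul, Matrix.one_apply_eq, mul_one] using this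
    have h11 : (A.trace - a) * A 1 1 = A.det - b := by
      have := congrFun (congrFun hdiff 1) 1
      simpa only [Matrix.smul_apply, smul_eq_mul, Matrix.one_apply_eq, mul_one] using this
    have heq : A 0 0 = A 1 1 := mul_left_cancel₀ hne' (h00.trans h11.symm)
    apply hns (A 0 0)
    ext i j
    fin_cases i <;> fin_cases j <;> simp [h01, h10, heq]
  refine ⟨htr, ?_⟩
  rw [htr, sub_self, zero_smul] at hdiff
  have := congrFun (congrFun hdiff 0) 0
  simp only [Matrix.zero_apply, Matrix.smul_apply, smul_eq_mul, Matrix.one_apply_eq, mul_one] at this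
  exact (sub_eq_zero.mp this.symm)

end Matrix

section Module

variable {𝒪 : Type*} [CommRing 𝒪] [IsDomain 𝒪]
variable {V : Type*} [AddCommGroup V] [Module 𝒪 V] [Module.Free 𝒪 V] [Module.Finite 𝒪 V]

/-- charpoly of an endomorphism of a rank-2 free module in terms of trace and determinant. -/
theorem linAlg2_charpoly_eq (hV : Module.finrank 𝒪 V = 2) (f : Module.End 𝒪 V) :
    LinearMap.charpoly f = X ^ 2 - C (LinearMap.trace 𝒪 V f) * X + C (LinearMap.det f) := by
  classical
  let b : Module.Basis (Fin 2) 𝒪 V := Module.finBasisOfFinrankEq 𝒪 V hV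
  rw [← LinearMap.charpoly_toMatrix f b, Matrix.charpoly_fin_two,
    LinearMap.trace_eq_matrix_trace 𝒪 b f, ← LinearMap.det_toMatrix b f]

/-- **G1.** A non-scalar endomorphism of a free module of rank 2 over a domain satisfying
`f² - a f + b = 0` has characteristic polynomial `X² - a X + b`. -/
theorem charpoly_eq_of_quadratic (hV : Module.finrank 𝒪 V = 2) (f : Module.End 𝒪 V) (a b : 𝒪)
    (hq : f * f - a • f + b • (1 : Module.End 𝒪 V) = 0)
    (hns : ∀ c : 𝒪, f ≠ c • (1 : Module.End 𝒪 V)) :
    LinearMap.charpoly f = X ^ 2 - C a * X + C b := by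
  classical
  let bas : Module.Basis (Fin 2) 𝒪 V := Module.finBasisOfFinrankEq 𝒪 V hV
  let e := LinearMap.toMatrixAlgEquiv bas
  have hqA : e f * e f - a • e f + b • (1 : Matrix (Fin 2) (Fin 2) 𝒪) = 0 := by
    have := congrArg e hq
    simpa only [map_add, map_sub, map_mul, map_smul, map_one, map_zero] using this
  have hnsA : ∀ c : 𝒪, e f ≠ c • (1 : Matrix (Fin 2) (Fin 2) 𝒪) := by
    intro c hc
    apply hns c
    apply e.injective
    rw [hc, map_smul, map_one]
  obtain ⟨htr, hdet⟩ := linAlg2_matrix_charpoly (e f) a b hqA hnsA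
  rw [linAlg2_charpoly_eq hV f, LinearMap.trace_eq_matrix_trace 𝒪 bas f,
    ← LinearMap.det_toMatrix bas f]
  have h1 : LinearMap.toMatrix bas bas f = e f := rfl
  rw [h1, htr, hdet]

/-- trace and determinant of a non-scalar endomorphism satisfying a quadratic relation. -/
theorem trace_det_of_quadratic (hV : Module.finrank 𝒪 V = 2) (f : Module.End 𝒪 V) (a b : 𝒪)
    (hq : f * f - a • f + b • (1 : Module.End 𝒪 V) = 0)
    (hns : ∀ c : 𝒪, f ≠ c • (1 : Module.End 𝒪 V)) :
    LinearMap.trace 𝒪 V f = a ∧ LinearMap.det f = b := by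
  classical
  let bas : Module.Basis (Fin 2) 𝒪 V := Module.finBasisOfFinrankEq 𝒪 V hV
  let e := LinearMap.toMatrixAlgEquiv bas
  have hqA : e f * e f - a • e f + b • (1 : Matrix (Fin 2) (Fin 2) 𝒪) = 0 := by
    have := congrArg e hq
    simpa only [map_add, map_sub, map_mul, map_smul, map_one, map_zero] using this
  have hnsA : ∀ c : 𝒪, e f ≠ c • (1 : Matrix (Fin 2) (Fin 2) 𝒪) := by
    intro c hc
    apply hns c
    apply e.injective
    rw [hc, map_smul, map_one]
  obtain ⟨htr, hdet⟩ := linAlg2_matrix_charpoly (e f) a b hqA hnsA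
  have h1 : LinearMap.toMatrix bas bas f = e f := rfl
  refine ⟨?_, ?_⟩
  · rw [LinearMap.trace_eq_matrix_trace 𝒪 bas f, h1, htr]
  · rw [← LinearMap.det_toMatrix bas f, h1, hdet]

/-- **G1'.** The same conclusion for any endomorphism, if the determinant is known to be `b ≠ 0`. -/
theorem charpoly_eq_of_quadratic_of_det (hV : Module.finrank 𝒪 V = 2) (f : Module.End 𝒪 V)
    (a b : 𝒪) (hq : f * f - a • f + b • (1 : Module.End 𝒪 V) = 0)
    (hdet : LinearMap.det f = b) (hb : b ≠ 0) :
    LinearMap.charpoly f = X ^ 2 - C a * X + C b := by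
  classical
  by_cases hns : ∀ c : 𝒪, f ≠ c • (1 : Module.End 𝒪 V)
  · exact charpoly_eq_of_quadratic hV f a b hq hns
  · simp only [not_forall, not_not] at hns
    obtain ⟨c, hc⟩ := hns
    have hdetc : LinearMap.det f = c ^ 2 := by
      rw [hc, LinearMap.det_smul, hV, map_one, mul_one]
    have htrc : LinearMap.trace 𝒪 V f = 2 * c := by
      rw [hc, map_smul, LinearMap.trace_one, hV, smul_eq_mul, mul_comm]
      norm_num
    have hb' : b = c ^ 2 := hdet.symm.trans hdetc
    have hc0 : c ≠ 0 := by
      rintro rfl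
      apply hb
      rw [hb']
      ring
    -- the quadratic relation on scalars
    have hrel : c * c - a * c + b = 0 := by
      have h2 : (c * c - a * c + b) • (1 : Module.End 𝒪 V) = 0 := by
        rw [← hq, hc]
        simp only [mul_smul_comm, mul_one, smul_smul, add_smul, sub_smul]
      have hV0 : Nontrivial V := by
        apply Module.nontrivial_of_finrank_pos (R := 𝒪)
        rw [hV]; norm_num
      by_contra hne
      obtain ⟨v, hv⟩ := exists_ne (0 : V)
      have := congrArg (fun g : Module.End 𝒪 V => g v) h2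
      simp only [LinearMap.smul_apply, Module.End.one_apply, LinearMap.zero_apply] at this
      exact hv ((smul_eq_zero.mp this).resolve_left hne)
    have ha : a = 2 * c := by
      have : c * (2 * c - a) = 0 := by
        have : c * (2 * c - a) = (c * c - a * c + b) + (c ^ 2 - b) := by ring
        rw [this, hrel, hb']
        ring
      have := (mul_eq_zero.mp this).resolve_left hc0
      exact (sub_eq_zero.mp this).symm
    rw [linAlg2_charpoly_eq hV f, htrc, hdetc, ha, hb']

end Module

end Fermat.Agent.GalRep
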