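import Fermat.Agent.GalRep.Interface
import Fermat.Agent.GalRep.LinAlg2

/-!
# Item 72, piece G3 (part 1): matrices of an adic Galois representation modulo `𝔪ⁿ`
-/

set_option autoImplicit false

open Polynomial

namespace Fermat.Agent.GalRep

section Basis

variable {𝒪 : Type*} [CommRing 𝒪] {V : Type*} [AddCommGroup V] [Module 𝒪 V]
variable {ι : Type*}

/-- coordinates of an element of `I • ⊤` lie in `I`. -/
theorem coreMat_repr_mem_of_mem_smul_top (b : Module.Basis ι 𝒪 V) (I : Ideal 𝒪) {x : V}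
    (hx : x ∈ I • (⊤ : Submodule 𝒪 V)) (i : ι) : b.repr x i ∈ I := by
  refine Submodule.smul_induction_on (p := fun x => b.repr x i ∈ I) hx ?_ ?_
  · intro r hr m _
    rw [map_smul, Finsupp.smul_apply, smul_eq_mul]
    exact I.mul_mem_right _ hr
  · intro x y hx hy
    rw [map_add, Finsupp.add_apply]
    exact I.add_mem hx hy

/-- an element all of whose coordinates lie in `I` is in `I • ⊤`. -/
theorem coreMat_mem_smul_top_of_repr_mem [Fintype ι] (b : Module.Basis ι 𝒪 V) (I : Ideal 𝒪) {x : V}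
    (hx : ∀ i, b.repr x i ∈ I) : x ∈ I • (⊤ : Submodule 𝒪 V) := by
  rw [← b.sum_repr x]
  exact Submodule.sum_mem _ fun i _ => Submodule.smul_mem_smul (hx i) Submodule.mem_top

end Basis

section Mat

variable {𝒪 : Type} [CommRing 𝒪] [IsLocalRing 𝒪]

/-- the chosen basis of the space of a `GaloisRepAdic`. -/
noncomputable def coreBasis (ρ : GaloisRepAdic 𝒪) : Module.Basis (Fin 2) 𝒪 ρ.V :=
  Module.finBasisOfFinrankEq 𝒪 ρ.V ρ.finrank_eq

/-- the matrix of `ρ σ` in the chosen basis, as a monoid hom. -/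
noncomputable def coreMat (ρ : GaloisRepAdic 𝒪) : GQ →* Matrix (Fin 2) (Fin 2) 𝒪 :=
  (LinearMap.toMatrixAlgEquiv (coreBasis ρ)).toAlgHom.toRingHom.toMonoidHom.comp ρ.ρ

theorem coreMat_apply (ρ : GaloisRepAdic 𝒪) (σ : GQ) :
    coreMat ρ σ = LinearMap.toMatrix (coreBasis ρ) (coreBasis ρ) (ρ.ρ σ) := rfl

theorem coreMat_det (ρ : GaloisRepAdic 𝒪) (σ : GQ) :
    (coreMat ρ σ).det = LinearMap.det (ρ.ρ σ) := by
  rw [coreMat_apply, LinearMap.det_toMatrix]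

theorem coreMat_eq_smul_one_iff (ρ : GaloisRepAdic 𝒪) (σ : GQ) (c : 𝒪) :
    coreMat ρ σ = c • (1 : Matrix (Fin 2) (Fin 2) 𝒪) ↔ ρ.ρ σ = c • (1 : Module.End 𝒪 ρ.V) := by
  constructor
  · intro h
    apply (LinearMap.toMatrixAlgEquiv (coreBasis ρ)).injective
    rw [map_smul, map_one]
    exact h
  · intro h
    rw [coreMat_apply, h]
    have : LinearMap.toMatrix (coreBasis ρ) (coreBasis ρ) (c • (1 : Module.End 𝒪 ρ.V))
        = LinearMap.toMatrixAlgEquiv (coreBasis ρ) (c • (1 : Module.End 𝒪 ρ.V)) := rfl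
    rw [this, map_smul, map_one]

/-- the matrix of `ρ σ` modulo `𝔪ⁿ`. -/
noncomputable def coreMatMod (ρ : GaloisRepAdic 𝒪) (n : ℕ) :
    GQ →* Matrix (Fin 2) (Fin 2) (𝒪 ⧸ IsLocalRing.maximalIdeal 𝒪 ^ n) :=
  (RingHom.mapMatrix (m := Fin 2)
    (Ideal.Quotient.mk (IsLocalRing.maximalIdeal 𝒪 ^ n))).toMonoidHom.comp (coreMat ρ)

theorem coreMatMod_apply (ρ : GaloisRepAdic 𝒪) (n : ℕ) (σ : GQ) :
    coreMatMod ρ n σ = (coreMat ρ σ).map (Ideal.Quotient.mk (IsLocalRing.maximalIdeal 𝒪 ^ n)) :=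
  rfl

/-- If `ρ σ v - v ∈ 𝔪ⁿ V` for all `v`, the matrix of `σ` is `1` modulo `𝔪ⁿ`. -/
theorem coreMatMod_eq_one (ρ : GaloisRepAdic 𝒪) (n : ℕ) (σ : GQ)
    (h : ∀ v : ρ.V, ρ.ρ σ v - v ∈ (IsLocalRing.maximalIdeal 𝒪 ^ n) • (⊤ : Submodule 𝒪 ρ.V)) :
    coreMatMod ρ n σ = 1 := by
  ext i j
  rw [coreMatMod_apply, Matrix.map_apply, coreMat_apply, LinearMap.toMatrix_apply]
  have h1 := coreMat_repr_mem_of_mem_smul_top (coreBasis ρ) _ (h (coreBasis ρ j)) i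
  rw [map_sub, Finsupp.sub_apply, Module.Basis.repr_self, Finsupp.single_apply] at h1
  rw [Matrix.one_apply]
  by_cases hij : i = j
  · subst hij
    rw [if_pos rfl] at h1 ⊢
    rw [← map_one (Ideal.Quotient.mk (IsLocalRing.maximalIdeal 𝒪 ^ n))]
    exact Ideal.Quotient.eq.mpr h1
  · rw [if_neg (Ne.symm hij), sub_zero] at h1
    rw [if_neg hij]
    exact Ideal.Quotient.eq_zero_iff_mem.mpr h1

/-- There is a finite level at which `ρ` is trivial modulo `𝔪ⁿ`. -/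
theorem exists_level_coreMatMod (ρ : GaloisRepAdic 𝒪) (n : ℕ) :
    ∃ L : IntermediateField ℚ (AlgebraicClosure ℚ), FiniteDimensional ℚ L ∧
      ∀ σ : GQ, (∀ x ∈ L, σ x = x) → coreMatMod ρ n σ = 1 := by
  obtain ⟨L, hL, h⟩ := ρ.isAdicContinuous n
  exact ⟨L, hL, fun σ hσ => coreMatMod_eq_one ρ n σ (h σ hσ)⟩

/-- Two elements which agree on the level have the same matrix modulo `𝔪ⁿ`. -/
theorem coreMatMod_eq_of_agree (ρ : GaloisRepAdic 𝒪) (n : ℕ)
    (L : IntermediateField ℚ (AlgebraicClosure ℚ))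
    (hL : ∀ σ : GQ, (∀ x ∈ L, σ x = x) → coreMatMod ρ n σ = 1)
    (σ τ : GQ) (h : ∀ x ∈ L, σ x = τ x) : coreMatMod ρ n σ = coreMatMod ρ n τ := by
  have h1 : coreMatMod ρ n (τ⁻¹ * σ) = 1 := by
    apply hL
    intro x hx
    rw [AlgEquiv.mul_apply, h x hx]
    exact τ.symm_apply_apply x
  have h2 : σ = τ * (τ⁻¹ * σ) := by group
  rw [h2, map_mul, h1, mul_one]

end Mat

end Fermat.Agent.GalRep
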