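/-
Item 72, piece A1: a normalized eigenform `g` of weight 2 and level `Γ₀(N)` defines a ring
homomorphism `χ : heckeAlgebra N 2 S →+* ℤ̄` with `χ (T_ℓ) = a_ℓ(g)`.

* `ec_qCoeff_mul_prime_good / _bad` : the Hecke relations for the coefficients;
* `ec_heckeT_eq`, `ec_heckeU_eq` : `g` is an eigenvector of `T_ℓ`, `U_q` with eigenvalue `a_ℓ`, `a_q`;
* `ec_eigen_of_mem` : `g` is an eigenvector of every element of the Hecke algebra;
* `exists_heckeChar_of_eigenform` (A1).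
(helper28)
-/
import Mathlib
import Fermat.Agent.GalRep.Goals
import Fermat.Agent.S49_Normalize
import Fermat.Agent.S22

set_option autoImplicit false

open CongruenceSubgroup ModularFormClass UpperHalfPlane

namespace Fermat.Agent.GalRep

open Fermat.Agent.S49norm

variable {N : ℕ}

/-- multiplicativity with a prime power: `a (ℓ^r m) = a (ℓ^r) a m` for `ℓ ∤ m` -/
lemma ec_qCoeff_pow_mul {g : CuspForm (Gamma0 N) 2} (hg : g.IsNormalizedEigenform)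
    {ℓ : ℕ} (hℓ : ℓ.Prime) (r m : ℕ) (hm : ¬ ℓ ∣ m) :
    qCoeff (⇑g) (ℓ ^ r * m) = qCoeff (⇑g) (ℓ ^ r) * qCoeff (⇑g) m :=
  hg.qCoeff_mul_of_coprime _ _ (Nat.Coprime.pow_left r ((Nat.Prime.coprime_iff_not_dvd hℓ).2 hm))

/-- every positive `n` is `ℓ^r m` with `ℓ ∤ m` -/
lemma ec_exists_eq_pow_mul {ℓ : ℕ} (hℓ : ℓ.Prime) {n : ℕ} (hn : n ≠ 0) :
    ∃ r m : ℕ, ¬ ℓ ∣ m ∧ n = ℓ ^ r * m := by
  obtain ⟨r, m, hm, h⟩ := Nat.exists_eq_pow_mul_and_not_dvd hn ℓ hℓ.ne_one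
  exact ⟨r, m, hm, h⟩

/-- The Hecke relation at a good prime. -/
theorem ec_qCoeff_mul_prime_good {g : CuspForm (Gamma0 N) 2} (hg : g.IsNormalizedEigenform)
    {ℓ : ℕ} (hℓ : ℓ.Prime) (hℓN : ¬ ℓ ∣ N) (n : ℕ) :
    qCoeff (⇑g) (n * ℓ) + (if ℓ ∣ n then (ℓ : ℂ) * qCoeff (⇑g) (n / ℓ) else 0)
      = qCoeff (⇑g) ℓ * qCoeff (⇑g) n := by
  rcases Nat.eq_zero_or_pos n with rfl | hn
  · simp [qCoeff_zero_cuspForm g]
  obtain ⟨r, m, hm, rfl⟩ := ec_exists_eq_pow_mul hℓ hn.ne'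
  have e1 : ℓ ^ r * m * ℓ = ℓ ^ (r + 1) * m := by ring
  rw [e1, ec_qCoeff_pow_mul hg hℓ (r + 1) m hm, ec_qCoeff_pow_mul hg hℓ r m hm]
  rcases Nat.eq_zero_or_pos r with rfl | hr
  · have hnd : ¬ ℓ ∣ ℓ ^ 0 * m := by simpa using hm
    rw [if_neg hnd]
    simp [hg.qCoeff_one]
  · obtain ⟨s, rfl⟩ : ∃ s, r = s + 1 := ⟨r - 1, by omega⟩
    have hd : ℓ ∣ ℓ ^ (s + 1) * m := Dvd.dvd.mul_right (dvd_pow_self ℓ (by omega)) m
    rw [if_pos hd]
    have e2 : ℓ ^ (s + 1) * m / ℓ = ℓ ^ s * m := by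
      rw [pow_succ, mul_comm (ℓ ^ s) ℓ, mul_assoc]
      exact Nat.mul_div_cancel_left _ hℓ.pos
    rw [e2, ec_qCoeff_pow_mul hg hℓ s m hm, hg.qCoeff_prime_pow_of_not_dvd ℓ s hℓ hℓN]
    ring

/-- The Hecke relation at a bad prime. -/
theorem ec_qCoeff_mul_prime_bad {g : CuspForm (Gamma0 N) 2} (hg : g.IsNormalizedEigenform)
    {ℓ : ℕ} (hℓ : ℓ.Prime) (hℓN : ℓ ∣ N) (n : ℕ) :
    qCoeff (⇑g) (n * ℓ) = qCoeff (⇑g) ℓ * qCoeff (⇑g) n := by
  rcases Nat.eq_zero_or_pos n with rfl | hn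
  · simp [qCoeff_zero_cuspForm g]
  obtain ⟨r, m, hm, rfl⟩ := ec_exists_eq_pow_mul hℓ hn.ne'
  have e1 : ℓ ^ r * m * ℓ = ℓ ^ (r + 1) * m := by ring
  rw [e1, ec_qCoeff_pow_mul hg hℓ (r + 1) m hm, ec_qCoeff_pow_mul hg hℓ r m hm]
  rcases Nat.eq_zero_or_pos r with rfl | hr
  · simp [hg.qCoeff_one]
  · obtain ⟨s, rfl⟩ : ∃ s, r = s + 1 := ⟨r - 1, by omega⟩
    rw [hg.qCoeff_prime_pow_of_dvd ℓ s hℓ hℓN]
    ring

/-- two cusp forms with the same `q`-coefficients are equal -/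
lemma ec_cuspForm_ext (f f' : CuspForm (Gamma0 N) 2)
    (h : ∀ n : ℕ, qCoeff (⇑f) n = qCoeff (⇑f') n) : f = f' := by
  have hΓ := one_mem_strictPeriods_Gamma0' N
  have hcusp : Fact (IsCusp OnePoint.infty (Gamma0 N : Subgroup (GL (Fin 2) ℝ))) :=
    ⟨Subgroup.isCusp_of_mem_strictPeriods one_pos hΓ⟩
  apply DFunLike.coe_injective
  exact UpperHalfPlane.eq_of_forall_qCoeff_eq
    (by simpa using SlashInvariantFormClass.periodic_comp_ofComplex f hΓ)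
    (ModularFormClass.holo f) (ModularFormClass.bdd_at_infty f)
    (by simpa using SlashInvariantFormClass.periodic_comp_ofComplex f' hΓ)
    (ModularFormClass.holo f') (ModularFormClass.bdd_at_infty f') h

/-- A normalized eigenform is an eigenvector of `T_ℓ`. -/
theorem ec_heckeT_eq {g : CuspForm (Gamma0 N) 2} (hg : g.IsNormalizedEigenform)
    {ℓ : ℕ} (hℓ : ℓ.Prime) (hℓN : ¬ ℓ ∣ N) :
    CuspForm.heckeTLin 2 hℓ hℓN g = qCoeff (⇑g) ℓ • g := by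
  have hΓ := one_mem_strictPeriods_Gamma0' N
  apply ec_cuspForm_ext
  intro n
  rw [qCoeff_smul_cuspForm, CuspForm.coe_heckeTLin_apply,
    ModularFormClass.qCoeff_heckeT g hΓ hℓ.ne_zero n, ModularForm.coeffHeckeT_apply,
    ← ec_qCoeff_mul_prime_good hg hℓ hℓN n]
  congr 1
  split_ifs
  · norm_num
  · rfl

/-- A normalized eigenform is an eigenvector of `U_q`. -/
theorem ec_heckeU_eq [NeZero N] {g : CuspForm (Gamma0 N) 2} (hg : g.IsNormalizedEigenform)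
    {q : ℕ} (hq : q.Prime) (hqN : q ∣ N) :
    CuspForm.heckeULin 2 hqN g = qCoeff (⇑g) q • g := by
  have hΓ := one_mem_strictPeriods_Gamma0' N
  apply ec_cuspForm_ext
  intro n
  rw [qCoeff_smul_cuspForm, CuspForm.coe_heckeULin_apply,
    ModularFormClass.qCoeff_heckeU g hΓ hq.ne_zero n, ModularForm.coeffHeckeU_apply,
    ec_qCoeff_mul_prime_bad hg hq hqN n]


/-- A normalized eigenform is an eigenvector of every element of the Hecke algebra. -/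
theorem ec_eigen_of_mem [NeZero N] {g : CuspForm (Gamma0 N) 2} (hg : g.IsNormalizedEigenform)
    (S : Set ℕ) (t : Module.End ℂ (CuspForm (Gamma0 N) 2))
    (ht : t ∈ CuspForm.heckeAlgebra N 2 S) : ∃ c : ℂ, t g = c • g := by
  unfold CuspForm.heckeAlgebra at ht
  induction ht using Algebra.adjoin_induction with
  | mem x hx =>
    rcases hx with ⟨ℓ, hℓ, hℓN, -, rfl⟩ | ⟨q, hqN, hq, -, rfl⟩
    · exact ⟨_, ec_heckeT_eq hg hℓ hℓN⟩
    · exact ⟨_, ec_heckeU_eq hg hq hqN⟩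
  | algebraMap r =>
    refine ⟨(r : ℂ), ?_⟩
    rw [Algebra.algebraMap_eq_smul_one, LinearMap.smul_apply, Module.End.one_apply]
    exact (Int.cast_smul_eq_zsmul ℂ r g).symm
  | add x y _ _ hx hy =>
    obtain ⟨c, hc⟩ := hx
    obtain ⟨c', hc'⟩ := hy
    exact ⟨c + c', by rw [LinearMap.add_apply, hc, hc', add_smul]⟩
  | mul x y _ _ hx hy =>
    obtain ⟨c, hc⟩ := hx
    obtain ⟨c', hc'⟩ := hy
    exact ⟨c' * c, by rw [Module.End.mul_apply, hc', map_smul, hc, smul_smul]⟩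

/-- the eigenvalue is the first coefficient of `t g` -/
lemma ec_eigen_eq {g : CuspForm (Gamma0 N) 2} (hg : g.IsNormalizedEigenform)
    {f : CuspForm (Gamma0 N) 2} {c : ℂ} (h : f = c • g) : c = qCoeff (⇑f) 1 := by
  rw [h, qCoeff_smul_cuspForm, hg.qCoeff_one, mul_one]

/-- The character of the Hecke algebra attached to a normalized eigenform, with values in `ℂ`. -/
noncomputable def ecChar [NeZero N] {g : CuspForm (Gamma0 N) 2} (hg : g.IsNormalizedEigenform)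
    (S : Set ℕ) : CuspForm.heckeAlgebra N 2 S →+* ℂ where
  toFun t := qCoeff (⇑((t : Module.End ℂ (CuspForm (Gamma0 N) 2)) g)) 1
  map_one' := by
    show qCoeff (⇑((1 : Module.End ℂ (CuspForm (Gamma0 N) 2)) g)) 1 = 1
    rw [Module.End.one_apply, hg.qCoeff_one]
  map_mul' t t' := by
    obtain ⟨c, hc⟩ := ec_eigen_of_mem hg S t.1 t.2
    obtain ⟨c', hc'⟩ := ec_eigen_of_mem hg S t'.1 t'.2
    have h1 : ((t * t' : CuspForm.heckeAlgebra N 2 S) : Module.End ℂ (CuspForm (Gamma0 N) 2)) g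
        = (c * c') • g := by
      show (t.1 * t'.1) g = _
      rw [Module.End.mul_apply, hc', map_smul, hc, smul_smul, mul_comm]
    rw [← ec_eigen_eq hg h1, ← ec_eigen_eq hg hc, ← ec_eigen_eq hg hc']
  map_zero' := by
    have h1 : ((0 : CuspForm.heckeAlgebra N 2 S) : Module.End ℂ (CuspForm (Gamma0 N) 2)) g
        = (0 : ℂ) • g := by
      show (0 : Module.End ℂ (CuspForm (Gamma0 N) 2)) g = _
      rw [LinearMap.zero_apply, zero_smul]
    exact (ec_eigen_eq hg h1).symm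
  map_add' t t' := by
    obtain ⟨c, hc⟩ := ec_eigen_of_mem hg S t.1 t.2
    obtain ⟨c', hc'⟩ := ec_eigen_of_mem hg S t'.1 t'.2
    have h1 : ((t + t' : CuspForm.heckeAlgebra N 2 S) : Module.End ℂ (CuspForm (Gamma0 N) 2)) g
        = (c + c') • g := by
      show (t.1 + t'.1) g = _
      rw [LinearMap.add_apply, hc, hc', add_smul]
    rw [← ec_eigen_eq hg h1, ← ec_eigen_eq hg hc, ← ec_eigen_eq hg hc']

lemma ecChar_apply [NeZero N] {g : CuspForm (Gamma0 N) 2} (hg : g.IsNormalizedEigenform)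
    (S : Set ℕ) (t : CuspForm.heckeAlgebra N 2 S) :
    ecChar hg S t = qCoeff (⇑((t : Module.End ℂ (CuspForm (Gamma0 N) 2)) g)) 1 := rfl

/-- `t g = χ(t) g` -/
lemma ecChar_spec [NeZero N] {g : CuspForm (Gamma0 N) 2} (hg : g.IsNormalizedEigenform)
    (S : Set ℕ) (t : CuspForm.heckeAlgebra N 2 S) :
    (t : Module.End ℂ (CuspForm (Gamma0 N) 2)) g = ecChar hg S t • g := by
  obtain ⟨c, hc⟩ := ec_eigen_of_mem hg S t.1 t.2
  rw [ecChar_apply, ← ec_eigen_eq hg hc, hc]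

lemma ecChar_T [NeZero N] {g : CuspForm (Gamma0 N) 2} (hg : g.IsNormalizedEigenform)
    (S : Set ℕ) {ℓ : ℕ} (hℓ : ℓ.Prime) (hℓN : ¬ ℓ ∣ N) (hℓS : ℓ ∉ S) :
    ecChar hg S (CuspForm.heckeAlgebra.T hℓ hℓN hℓS) = qCoeff (⇑g) ℓ := by
  rw [ecChar_apply, CuspForm.heckeAlgebra.coe_T]
  exact (ec_eigen_eq hg (ec_heckeT_eq hg hℓ hℓN)).symm

lemma ecChar_U [NeZero N] {g : CuspForm (Gamma0 N) 2} (hg : g.IsNormalizedEigenform)
    (S : Set ℕ) {q : ℕ} (hq : q.Prime) (hqN : q ∣ N) (hqS : q ∉ S) :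
    ecChar hg S (CuspForm.heckeAlgebra.U hq hqN hqS) = qCoeff (⇑g) q := by
  rw [ecChar_apply, CuspForm.heckeAlgebra.coe_U]
  exact (ec_eigen_eq hg (ec_heckeU_eq hg hq hqN)).symm

/-- the values of the character are algebraic integers -/
lemma ecChar_isIntegral [NeZero N] {g : CuspForm (Gamma0 N) 2} (hg : g.IsNormalizedEigenform)
    (S : Set ℕ) (t : CuspForm.heckeAlgebra N 2 S) : IsIntegral ℤ (ecChar hg S t) := by
  have : Module.Finite ℤ (CuspForm.heckeAlgebra N 2 S) := Fermat.Agent.S22.result N 2 S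
  have h1 : IsIntegral ℤ t := IsIntegral.of_finite ℤ t
  exact h1.map (ecChar hg S).toIntAlgHom

/-- **A1**: the character of the Hecke algebra attached to a normalized eigenform. -/
theorem exists_heckeChar_of_eigenform {N : ℕ} [NeZero N]
    {g : CuspForm (CongruenceSubgroup.Gamma0 N) 2}
    (hg : g.IsNormalizedEigenform) (S : Set ℕ) :
    ∃ χ : CuspForm.heckeAlgebra N 2 S →+* integralClosure ℤ ℂ,
      ∀ (ℓ : ℕ) (hℓ : ℓ.Prime) (hℓN : ¬ ℓ ∣ N) (hℓS : ℓ ∉ S),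
        ((χ (CuspForm.heckeAlgebra.T hℓ hℓN hℓS) : integralClosure ℤ ℂ) : ℂ) =
          ModularFormClass.qCoeff g ℓ := by
  refine ⟨(ecChar hg S).codRestrict (integralClosure ℤ ℂ) (fun t => ecChar_isIntegral hg S t), ?_⟩
  intro ℓ hℓ hℓN hℓS
  exact ecChar_T hg S hℓ hℓN hℓS


/-- A1, with the values at the `U_q` as well. -/
theorem exists_heckeChar_of_eigenform_full {N : ℕ} [NeZero N]
    {g : CuspForm (CongruenceSubgroup.Gamma0 N) 2}
    (hg : g.IsNormalizedEigenform) (S : Set ℕ) :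
    ∃ χ : CuspForm.heckeAlgebra N 2 S →+* integralClosure ℤ ℂ,
      (∀ (ℓ : ℕ) (hℓ : ℓ.Prime) (hℓN : ¬ ℓ ∣ N) (hℓS : ℓ ∉ S),
        ((χ (CuspForm.heckeAlgebra.T hℓ hℓN hℓS) : integralClosure ℤ ℂ) : ℂ) =
          ModularFormClass.qCoeff g ℓ) ∧
      (∀ (q : ℕ) (hq : q.Prime) (hqN : q ∣ N) (hqS : q ∉ S),
        ((χ (CuspForm.heckeAlgebra.U hq hqN hqS) : integralClosure ℤ ℂ) : ℂ) =
          ModularFormClass.qCoeff g q) ∧
      ∀ t : CuspForm.heckeAlgebra N 2 S,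
        (t : Module.End ℂ (CuspForm (Gamma0 N) 2)) g = ((χ t : integralClosure ℤ ℂ) : ℂ) • g := by
  refine ⟨(ecChar hg S).codRestrict (integralClosure ℤ ℂ) (fun t => ecChar_isIntegral hg S t),
    fun ℓ hℓ hℓN hℓS => ecChar_T hg S hℓ hℓN hℓS, fun q hq hqN hqS => ecChar_U hg S hq hqN hqS,
    fun t => ecChar_spec hg S t⟩

end Fermat.Agent.GalRep
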