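/-
Item 72, piece J3 part (d): descent of the dimension of simultaneous eigenspaces along field
extensions, and factorisation of characters of rings finite over `ℤ` through subfields of `ℂ`.

* `finrank_eigenSub_map` (d1): `finrank K (eigenSub K T (φ ∘ c₀)) = finrank K₀ (eigenSub K₀ T c₀)`
  for every ring hom of fields `φ : K₀ →+* K`;
* `exists_factor_through_complex` (d2);
* `finrank_eigenSub_of_complex`: if all `ℂ`-valued characters have eigenspace of dimension `d`,
  so do all characters with values in fields of characteristic zero.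
(helper8)
-/
import Mathlib
import Fermat.Agent.GalRep.EigenDefs

set_option autoImplicit false

open scoped TensorProduct

namespace Fermat.Agent.GalRep

section descent

variable {K₀ K : Type} [Field K₀] [Field K] [Algebra K₀ K]
  {Λ : Type} [AddCommGroup Λ]

/-- the base-change comparison isomorphism `K ⊗[K₀] (K₀ ⊗ Λ) ≃ K ⊗ Λ` -/
noncomputable def edCb (K₀ K : Type) [Field K₀] [Field K] [Algebra K₀ K]
    (Λ : Type) [AddCommGroup Λ] : K ⊗[K₀] (K₀ ⊗[ℤ] Λ) ≃ₗ[K] K ⊗[ℤ] Λ :=
  TensorProduct.AlgebraTensorModule.cancelBaseChange ℤ K₀ K K Λ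

lemma edCb_tmul (k : K) (a : K₀) (l : Λ) :
    edCb K₀ K Λ (k ⊗ₜ (a ⊗ₜ l)) = (a • k) ⊗ₜ l := rfl

/-- the operator `T ⊗ 1 - c` over `K₀` -/
noncomputable def edOp (T : Λ →ₗ[ℤ] Λ) (c : K₀) : (K₀ ⊗[ℤ] Λ) →ₗ[K₀] (K₀ ⊗[ℤ] Λ) :=
  T.baseChange K₀ - c • (1 : Module.End K₀ (K₀ ⊗[ℤ] Λ))

lemma edCb_comp (T : Λ →ₗ[ℤ] Λ) (c : K₀) (w : K ⊗[K₀] (K₀ ⊗[ℤ] Λ)) :
    edCb K₀ K Λ ((edOp T c).baseChange K w) =
      (T.baseChange K - (algebraMap K₀ K c) • (1 : Module.End K (K ⊗[ℤ] Λ))) (edCb K₀ K Λ w) := by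
  induction w using TensorProduct.induction_on with
  | zero => simp
  | add x y hx hy => simp only [map_add, hx, hy]
  | tmul k v =>
    induction v using TensorProduct.induction_on with
    | zero => simp
    | add x y hx hy =>
      simp only [TensorProduct.tmul_add, map_add, hx, hy]
    | tmul a l =>
      simp only [edOp, LinearMap.baseChange_tmul, LinearMap.sub_apply, LinearMap.smul_apply,
        Module.End.one_apply, TensorProduct.tmul_sub, map_sub, edCb_tmul]
      congr 1
      rw [TensorProduct.smul_tmul', TensorProduct.smul_tmul', edCb_tmul]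
      congr 1
      simp [Algebra.smul_def, mul_comm, mul_left_comm]

lemma ed_eigenSub_eq {ι : Type} (T : ι → (Λ →ₗ[ℤ] Λ)) (c₀ : ι → K₀) :
    eigenSub K₀ T c₀ = ⨅ i, LinearMap.ker (edOp (T i) (c₀ i)) := rfl

theorem ed_map_baseChange_eq {ι : Type} (T : ι → (Λ →ₗ[ℤ] Λ)) (c₀ : ι → K₀) :
    (Submodule.baseChange K (eigenSub K₀ T c₀)).map (edCb K₀ K Λ).toLinearMap =
      eigenSub K T (fun i => algebraMap K₀ K (c₀ i)) := by
  classical
  apply le_antisymm
  · rw [Submodule.map_le_iff_le_comap, Submodule.baseChange_eq_span, Submodule.span_le]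
    rintro _ ⟨v, hv, rfl⟩
    simp only [Submodule.comap_coe, Set.mem_preimage, SetLike.mem_coe, LinearEquiv.coe_coe]
    rw [eigenSub, Submodule.mem_iInf]
    intro i
    rw [LinearMap.mem_ker]
    have h1 := edCb_comp (K := K) (T i) (c₀ i) ((TensorProduct.mk K₀ K _ 1) v)
    rw [← h1]
    have h2 : edOp (T i) (c₀ i) v = 0 := by
      have := hv
      rw [SetLike.mem_coe, ed_eigenSub_eq, Submodule.mem_iInf] at this
      exact LinearMap.mem_ker.1 (this i)
    simp [h2]
  · intro w hw
    obtain ⟨ℬ⟩ := Module.Free.exists_basis (R := K₀) (M := K)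
    obtain ⟨x, hx⟩ := TensorProduct.eq_repr_basis_left ℬ.2 ((edCb K₀ K Λ).symm w)
    have key : ∀ α, x α ∈ eigenSub K₀ T c₀ := by
      intro α
      rw [ed_eigenSub_eq, Submodule.mem_iInf]
      intro i
      rw [LinearMap.mem_ker]
      have h0 : (edOp (T i) (c₀ i)).baseChange K ((edCb K₀ K Λ).symm w) = 0 := by
        apply (edCb K₀ K Λ).injective
        rw [edCb_comp, map_zero, LinearEquiv.apply_symm_apply]
        rw [eigenSub, Submodule.mem_iInf] at hw
        exact LinearMap.mem_ker.1 (hw i)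
      rw [← hx] at h0
      have h3 : ((x.mapRange (edOp (T i) (c₀ i)) (map_zero _)).sum fun i n => ℬ.2 i ⊗ₜ[K₀] n) = 0 := by
        rw [← h0, Finsupp.sum_mapRange_index (by simp)]
        simp only [Finsupp.sum, map_sum, LinearMap.baseChange_tmul]
      have h4 := TensorProduct.sum_tmul_basis_left_eq_zero ℬ.2 _ h3
      have := DFunLike.congr_fun h4 α
      simpa using this
    refine ⟨(edCb K₀ K Λ).symm w, ?_, by simp⟩
    rw [← hx]
    refine Submodule.sum_mem _ fun α _ => ?_
    exact Submodule.tmul_mem_baseChange_of_mem _ (key α)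

theorem finrank_eigenSub_algebraMap {ι : Type} (T : ι → (Λ →ₗ[ℤ] Λ)) (c₀ : ι → K₀) :
    Module.finrank K (eigenSub K T (fun i => algebraMap K₀ K (c₀ i))) =
      Module.finrank K₀ (eigenSub K₀ T c₀) := by
  rw [← ed_map_baseChange_eq, LinearEquiv.finrank_map_eq,
    ← (Submodule.toBaseChange.toLinearEquiv K (eigenSub K₀ T c₀)).finrank_eq]
  exact Module.finrank_baseChange

end descent

/-- (d1) descent of the dimension of the simultaneous eigenspace along a field extension. -/
theorem finrank_eigenSub_map {K₀ K : Type} [Field K₀] [Field K] (φ : K₀ →+* K)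
    {Λ : Type} [AddCommGroup Λ] [Module.Free ℤ Λ] [Module.Finite ℤ Λ] {ι : Type}
    (T : ι → (Λ →ₗ[ℤ] Λ)) (c₀ : ι → K₀) :
    Module.finrank K (eigenSub K T (fun i => φ (c₀ i))) =
      Module.finrank K₀ (eigenSub K₀ T c₀) := by
  let _ : Algebra K₀ K := φ.toAlgebra
  exact finrank_eigenSub_algebraMap T c₀

/-- (d2) a character of a ring finite over `ℤ` with values in a field of characteristic zero
factors through a field that embeds into `ℂ`. -/
theorem exists_factor_through_complex {R : Type} [CommRing R] [Module.Finite ℤ R]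
    {K : Type} [Field K] [CharZero K] (χ : R →+* K) :
    ∃ (K₀ : Type) (_ : Field K₀) (χ₀ : R →+* K₀) (φ : K₀ →+* K) (_ψ : K₀ →+* ℂ),
      ∀ r, χ r = φ (χ₀ r) := by
  classical
  let L : IntermediateField ℚ K := IntermediateField.adjoin ℚ (Set.range χ)
  have hint : ∀ x ∈ Set.range χ, IsIntegral ℚ x := by
    rintro _ ⟨r, rfl⟩
    have h1 : IsIntegral ℤ r := Algebra.IsIntegral.isIntegral r
    have h2 : IsIntegral ℤ (χ r) := h1.map (χ.toIntAlgHom)
    exact h2.tower_top
  have : Algebra.IsAlgebraic ℚ L := IntermediateField.isAlgebraic_adjoin hint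
  let ψ : L →ₐ[ℚ] ℂ := IsAlgClosed.lift
  refine ⟨L, inferInstance, χ.codRestrict L.toSubring
    (fun r => IntermediateField.subset_adjoin ℚ _ ⟨r, rfl⟩), L.val.toRingHom, ψ.toRingHom, ?_⟩
  intro r
  rfl

/-- if all `ℂ`-valued characters of `R` have eigenspace of dimension `d`, so do all characters
with values in a field of characteristic zero. -/
theorem finrank_eigenSub_of_complex {R : Type} [CommRing R] [Module.Finite ℤ R]
    {Λ : Type} [AddCommGroup Λ] [Module.Free ℤ Λ] [Module.Finite ℤ Λ] {ι : Type}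
    (T : ι → (Λ →ₗ[ℤ] Λ)) (t : ι → R) (d : ℕ)
    (hC : ∀ lam : R →+* ℂ, Module.finrank ℂ (eigenSub ℂ T (fun i => lam (t i))) = d)
    {K : Type} [Field K] [CharZero K] (χ : R →+* K) :
    Module.finrank K (eigenSub K T (fun i => χ (t i))) = d := by
  obtain ⟨K₀, _, χ₀, φ, ψ, h⟩ := exists_factor_through_complex χ
  have e1 : (fun i => χ (t i)) = fun i => φ (χ₀ (t i)) := funext fun i => h (t i)
  rw [e1, finrank_eigenSub_map φ T (fun i => χ₀ (t i)),
    ← finrank_eigenSub_map ψ T (fun i => χ₀ (t i))]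
  exact hC (ψ.comp χ₀)

end Fermat.Agent.GalRep
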