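import Mathlib
import Fermat.Agent.GalRep.EigenDefs
import Fermat.Agent.S22_Coset
import Fermat.Agent.S22_Cocycle

/-!
# Item 72, piece J3: Hecke operators on the lattice `H¹_par(Γ₀(N), ℤ)`

For coset data `(α, σ, γ')` (as in `S22_Cocycle.lean`: `α x * ι γ = ι (γ' γ x) * α (σ γ x)`)
and a homomorphism `φ : Γ → A` into an abelian group, the Hecke operator is
`(T φ)(γ) = ∑ x, φ (γ' γ x)`.

* `hlHom`, `hlOp`: the abstract operator.
* `heckeHomT`, `heckeHomU`, `heckeHom N ℓ A`: the operators `T_ℓ` (`ℓ ∤ N`), `U_ℓ` (`ℓ ∣ N`) on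
  `Hom(Γ₀(N), A)`, with S22's coset data.
* `heckeHom_isParabolicHom`: they preserve parabolic homomorphisms (`A` torsion-free).
* `heckePar N ℓ R A`: the `R`-linear operator on `parabolicHoms R (Gamma0 N) A`.
* `heckeLat N ℓ : HLat N →ₗ[ℤ] HLat N`.
-/

set_option autoImplicit false

open Fermat.Agent.S22lib CongruenceSubgroup ModularCurve.Period Matrix.SpecialLinearGroup ModularForm
open P2MW.S_ModularForm_heckeT_slash_eq_self_of_mem_Gamma0.ModularForm.HeckeSlashInvariance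
open scoped MatrixGroups

namespace Fermat.Agent.GalRep

noncomputable section

section Abstract

variable {G : Type*} [Group G] {Γ : Type*} [Group Γ] {ι : Γ →* G}
  {X : Type*} [Fintype X] {α : X → G} {σ : Γ → Equiv.Perm X} {γ' : Γ → X → Γ}
  {A : Type*} [AddCommGroup A]

/-- Hecke operator on homomorphisms `Γ → A` given by coset data. -/
def hlHom (hι : Function.Injective ι)
    (hrel : ∀ (γ : Γ) (x : X), α x * ι γ = ι (γ' γ x) * α (σ γ x))
    (hσ : ∀ (γ δ : Γ) (x : X), σ (γ * δ) x = σ δ (σ γ x))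
    (φ : Additive Γ →+ A) : Additive Γ →+ A :=
  AddMonoidHom.mk' (fun γ => ∑ x, φ (Additive.ofMul (γ' (Additive.toMul γ) x))) (by
    intro γ δ
    show ∑ x, φ (Additive.ofMul (γ' (Additive.toMul γ * Additive.toMul δ) x)) = _
    rw [← Equiv.sum_comp (σ (Additive.toMul γ))
      (fun x => φ (Additive.ofMul (γ' (Additive.toMul δ) x))), ← Finset.sum_add_distrib]
    refine Finset.sum_congr rfl fun x _ => ?_
    rw [γ'_mul hι hrel hσ, ofMul_mul, map_add])

theorem hlHom_apply (hι : Function.Injective ι)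
    (hrel : ∀ (γ : Γ) (x : X), α x * ι γ = ι (γ' γ x) * α (σ γ x))
    (hσ : ∀ (γ δ : Γ) (x : X), σ (γ * δ) x = σ δ (σ γ x))
    (φ : Additive Γ →+ A) (γ : Γ) :
    hlHom hι hrel hσ φ (Additive.ofMul γ) = ∑ x, φ (Additive.ofMul (γ' γ x)) := rfl

/-- the abstract Hecke operator as an additive map. -/
def hlOp (hι : Function.Injective ι)
    (hrel : ∀ (γ : Γ) (x : X), α x * ι γ = ι (γ' γ x) * α (σ γ x))
    (hσ : ∀ (γ δ : Γ) (x : X), σ (γ * δ) x = σ δ (σ γ x)) (A : Type*) [AddCommGroup A] :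
    (Additive Γ →+ A) →+ (Additive Γ →+ A) where
  toFun := hlHom hι hrel hσ
  map_zero' := by
    refine AddMonoidHom.ext fun γ => ?_
    obtain ⟨γ, rfl⟩ := Additive.ofMul.surjective γ
    rw [hlHom_apply]
    simp
  map_add' φ ψ := by
    refine AddMonoidHom.ext fun γ => ?_
    obtain ⟨γ, rfl⟩ := Additive.ofMul.surjective γ
    rw [AddMonoidHom.add_apply, hlHom_apply, hlHom_apply, hlHom_apply, ← Finset.sum_add_distrib]
    rfl

theorem hlOp_apply (hι : Function.Injective ι)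
    (hrel : ∀ (γ : Γ) (x : X), α x * ι γ = ι (γ' γ x) * α (σ γ x))
    (hσ : ∀ (γ δ : Γ) (x : X), σ (γ * δ) x = σ δ (σ γ x))
    (φ : Additive Γ →+ A) (γ : Γ) :
    hlOp hι hrel hσ A φ (Additive.ofMul γ) = ∑ x, φ (Additive.ofMul (γ' γ x)) := rfl

/-- composition with an additive map commutes with the Hecke operator. -/
theorem hlOp_comp (hι : Function.Injective ι)
    (hrel : ∀ (γ : Γ) (x : X), α x * ι γ = ι (γ' γ x) * α (σ γ x))
    (hσ : ∀ (γ δ : Γ) (x : X), σ (γ * δ) x = σ δ (σ γ x))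
    {B : Type*} [AddCommGroup B] (f : A →+ B) (φ : Additive Γ →+ A) :
    hlOp hι hrel hσ B (f.comp φ) = f.comp (hlOp hι hrel hσ A φ) := by
  refine AddMonoidHom.ext fun γ => ?_
  obtain ⟨γ, rfl⟩ := Additive.ofMul.surjective γ
  rw [hlOp_apply, AddMonoidHom.comp_apply, hlOp_apply, map_sum]
  rfl

omit [Fintype X] in
theorem hl_sigma_pow (hσ : ∀ (γ δ : Γ) (x : X), σ (γ * δ) x = σ δ (σ γ x)) (γ : Γ) (m : ℕ) :
    σ (γ ^ m) = σ γ ^ m := by
  have h1 : σ 1 = 1 := by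
    have h : σ 1 * σ 1 = σ 1 := by
      ext x
      rw [Equiv.Perm.mul_apply, ← hσ, mul_one]
    exact mul_eq_left.mp h
  induction m with
  | zero => rw [pow_zero, pow_zero, h1]
  | succ k ih =>
    ext x
    rw [pow_succ, hσ, ih, pow_succ', Equiv.Perm.mul_apply]

/-- the Hecke operator kills `γ` as soon as `φ` kills all `γ' (γ ^ m) x` with `x` fixed by
`σ (γ ^ m)`. -/
theorem hlOp_apply_eq_zero [IsAddTorsionFree A] (hι : Function.Injective ι)
    (hrel : ∀ (γ : Γ) (x : X), α x * ι γ = ι (γ' γ x) * α (σ γ x))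
    (hσ : ∀ (γ δ : Γ) (x : X), σ (γ * δ) x = σ δ (σ γ x))
    (φ : Additive Γ →+ A) (γ : Γ)
    (hφ : ∀ (m : ℕ) (x : X), σ (γ ^ m) x = x → φ (Additive.ofMul (γ' (γ ^ m) x)) = 0) :
    hlOp hι hrel hσ A φ (Additive.ofMul γ) = 0 := by
  classical
  set m := orderOf (σ γ) with hm
  have hmpos : 0 < m := orderOf_pos (σ γ)
  have hσm : σ (γ ^ m) = 1 := by rw [hl_sigma_pow hσ, hm, pow_orderOf_eq_one]
  have h1 : hlOp hι hrel hσ A φ (Additive.ofMul (γ ^ m)) = 0 := by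
    rw [hlOp_apply]
    refine Finset.sum_eq_zero fun x _ => hφ m x ?_
    rw [hσm, Equiv.Perm.one_apply]
  rw [ofMul_pow, map_nsmul] at h1
  have h2 : m • hlOp hι hrel hσ A φ (Additive.ofMul γ) = m • (0 : A) := by rw [h1, smul_zero]
  exact nsmul_right_injective hmpos.ne' h2

end Abstract

section Trace

/-- powers of a parabolic element of `SL(2,ℤ)` are parabolic. -/
theorem hl_trace_pow_sq (g : SL(2, ℤ))
    (h : ((g : Matrix (Fin 2) (Fin 2) ℤ)).trace ^ 2 = 4) (m : ℕ) :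
    (((g ^ m : SL(2, ℤ)) : Matrix (Fin 2) (Fin 2) ℤ)).trace ^ 2 = 4 := by
  set M : Matrix (Fin 2) (Fin 2) ℤ := (g : Matrix (Fin 2) (Fin 2) ℤ) with hM
  have hdet : M 0 0 * M 1 1 - M 0 1 * M 1 0 = 1 := by
    have := g.det_coe
    rwa [Matrix.det_fin_two] at this
  have htr : M.trace = M 0 0 + M 1 1 := Matrix.trace_fin_two M
  have hCH : M * M = M.trace • M - 1 := by
    rw [htr]
    ext i j
    fin_cases i <;> fin_cases j <;>
      simp only [Matrix.mul_apply, Fin.sum_univ_two, Matrix.sub_apply, Matrix.smul_apply,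
        Matrix.one_apply, smul_eq_mul, Fin.zero_eta, Fin.mk_one, Fin.isValue, if_true,
        zero_ne_one, one_ne_zero, if_false, sub_zero] <;>
      first | ring1 | linear_combination -hdet
  have hrec : ∀ k : ℕ, (M ^ (k + 2)).trace = M.trace * (M ^ (k + 1)).trace - (M ^ k).trace := by
    intro k
    have : M ^ (k + 2) = M.trace • M ^ (k + 1) - M ^ k := by
      rw [pow_add, pow_two, hCH, mul_sub, mul_one, mul_smul_comm, ← pow_succ]
    rw [this, Matrix.trace_sub, Matrix.trace_smul, smul_eq_mul]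
  have key : ∀ k : ℕ, (M ^ k).trace ^ 2 = 4 ∧ (M ^ (k + 1)).trace ^ 2 = 4 ∧
      (M ^ (k + 1)).trace * M.trace = 2 * (M ^ k).trace ∧
      (M ^ k).trace * M.trace = 2 * (M ^ (k + 1)).trace := by
    intro k
    induction k with
    | zero =>
      have e0 : (M ^ 0).trace = 2 := by rw [pow_zero, Matrix.trace_one]; simp
      have e1 : (M ^ (0 + 1)).trace = M.trace := by rw [zero_add, pow_one]
      rw [e0, e1]
      refine ⟨by norm_num, h, ?_, ?_⟩
      · linear_combination h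
      · ring
    | succ k ih =>
      obtain ⟨h0, h1, h2, h3⟩ := ih
      have e := hrec k
      rw [show k + 1 + 1 = k + 2 from rfl, e]
      refine ⟨h1, ?_, ?_, ?_⟩
      · linear_combination (M ^ (k + 1)).trace ^ 2 * h + 4 * h1 - 2 * (M ^ k).trace * h2 - 3 * h0
      · linear_combination (M ^ (k + 1)).trace * h - h3
      · linear_combination (-1 : ℤ) * h2
  rw [Matrix.SpecialLinearGroup.coe_pow]
  exact (key m).1

theorem hl_trace_mapGL (g : SL(2, ℤ)) :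
    ((mapGL ℝ g : GL (Fin 2) ℝ) : Matrix (Fin 2) (Fin 2) ℝ).trace
      = (((g : Matrix (Fin 2) (Fin 2) ℤ)).trace : ℝ) := by
  rw [Matrix.trace_fin_two, Matrix.trace_fin_two]
  simp

/-- conjugate elements (in `GL₂(ℝ)`) of `SL(2,ℤ)` have the same trace. -/
theorem hl_trace_eq_of_conj (g g' : SL(2, ℤ)) (a : GL (Fin 2) ℝ)
    (h : a * mapGL ℝ g = mapGL ℝ g' * a) :
    ((g' : Matrix (Fin 2) (Fin 2) ℤ)).trace = ((g : Matrix (Fin 2) (Fin 2) ℤ)).trace := by
  have h1 : (mapGL ℝ g' : GL (Fin 2) ℝ) = a * mapGL ℝ g * a⁻¹ := by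
    rw [h, mul_inv_cancel_right]
  have h2 := hl_trace_mapGL g'
  rw [h1, Units.val_mul, Units.val_mul, Matrix.trace_mul_cycle, ← Units.val_mul,
    inv_mul_cancel, Units.val_one, one_mul, hl_trace_mapGL] at h2
  exact_mod_cast h2.symm

end Trace

section Concrete

variable (N : ℕ)

/-- the abstract Hecke operator for `Γ₀(N) ⊆ GL₂(ℝ)` preserves parabolic homomorphisms. -/
theorem hlOp_isParabolicHom {X : Type*} [Fintype X] {α : X → GL (Fin 2) ℝ}
    {σ : Gamma0 N → Equiv.Perm X} {γ' : Gamma0 N → X → Gamma0 N}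
    (hrel : ∀ (γ : Gamma0 N) (x : X), α x * gamma0Hom N γ = gamma0Hom N (γ' γ x) * α (σ γ x))
    (hσ : ∀ (γ δ : Gamma0 N) (x : X), σ (γ * δ) x = σ δ (σ γ x))
    {A : Type*} [AddCommGroup A] [IsAddTorsionFree A]
    {φ : Additive (Gamma0 N) →+ A} (hφ : IsParabolicHom (Gamma0 N) φ) :
    IsParabolicHom (Gamma0 N) (hlOp (gamma0Hom_injective N) hrel hσ A φ) := by
  intro γ hγ
  refine hlOp_apply_eq_zero (gamma0Hom_injective N) hrel hσ φ γ fun m x hx => hφ _ ?_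
  have h := hrel (γ ^ m) x
  rw [hx, gamma0Hom_apply, gamma0Hom_apply] at h
  rw [hl_trace_eq_of_conj _ _ _ h, Subgroup.coe_pow]
  exact hl_trace_pow_sq _ hγ m

/-- `T_p` on `Hom(Γ₀(N), A)`, `p ∤ N`. -/
def heckeHomT {p : ℕ} [Fact p.Prime] (hpN : ¬ p ∣ N) (A : Type*) [AddCommGroup A] :
    (Additive (Gamma0 N) →+ A) →+ (Additive (Gamma0 N) →+ A) :=
  hlOp (ι := gamma0Hom N) (α := heckeRep p) (σ := sigmaT) (γ' := gammaT hpN)
    (gamma0Hom_injective N) (relT hpN) sigmaT_mul A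

/-- `U_p` on `Hom(Γ₀(N), A)`, `p ∣ N`. -/
def heckeHomU {p : ℕ} [NeZero p] (hpN : p ∣ N) (A : Type*) [AddCommGroup A] :
    (Additive (Gamma0 N) →+ A) →+ (Additive (Gamma0 N) →+ A) :=
  hlOp (ι := gamma0Hom N) (α := fun x : ZMod p => heckeMatrix p x.val) (σ := sigmaU hpN)
    (γ' := gammaU hpN) (gamma0Hom_injective N) (relU hpN) (sigmaU_mul hpN) A

/-- the Hecke operator at the prime `ℓ` on `Hom(Γ₀(N), A)`: `T_ℓ` if `ℓ ∤ N`, `U_ℓ` if `ℓ ∣ N`. -/
def heckeHom (ℓ : Nat.Primes) (A : Type*) [AddCommGroup A] :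
    (Additive (Gamma0 N) →+ A) →+ (Additive (Gamma0 N) →+ A) :=
  if h : (ℓ : ℕ) ∣ N then
    haveI : NeZero (ℓ : ℕ) := ⟨ℓ.2.ne_zero⟩
    heckeHomU N h A
  else
    haveI : Fact (ℓ : ℕ).Prime := ⟨ℓ.2⟩
    heckeHomT N h A

variable {N}

theorem heckeHomT_apply {p : ℕ} [Fact p.Prime] (hpN : ¬ p ∣ N) {A : Type*} [AddCommGroup A]
    (φ : Additive (Gamma0 N) →+ A) (γ : Gamma0 N) :
    heckeHomT N hpN A φ (Additive.ofMul γ) = ∑ x, φ (Additive.ofMul (gammaT hpN γ x)) := rfl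

theorem heckeHomU_apply {p : ℕ} [NeZero p] (hpN : p ∣ N) {A : Type*} [AddCommGroup A]
    (φ : Additive (Gamma0 N) →+ A) (γ : Gamma0 N) :
    heckeHomU N hpN A φ (Additive.ofMul γ) = ∑ x, φ (Additive.ofMul (gammaU hpN γ x)) := rfl

theorem heckeHom_of_dvd {ℓ : Nat.Primes} (h : (ℓ : ℕ) ∣ N) (A : Type*) [AddCommGroup A] :
    heckeHom N ℓ A = (haveI : NeZero (ℓ : ℕ) := ⟨ℓ.2.ne_zero⟩; heckeHomU N h A) :=
  dif_pos h

theorem heckeHom_of_not_dvd {ℓ : Nat.Primes} (h : ¬ (ℓ : ℕ) ∣ N) (A : Type*) [AddCommGroup A] :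
    heckeHom N ℓ A = (haveI : Fact (ℓ : ℕ).Prime := ⟨ℓ.2⟩; heckeHomT N h A) :=
  dif_neg h

/-- composition with an additive map commutes with the Hecke operators. -/
theorem heckeHom_comp (ℓ : Nat.Primes) {A B : Type*} [AddCommGroup A] [AddCommGroup B]
    (f : A →+ B) (φ : Additive (Gamma0 N) →+ A) :
    heckeHom N ℓ B (f.comp φ) = f.comp (heckeHom N ℓ A φ) := by
  by_cases h : (ℓ : ℕ) ∣ N
  · have : NeZero (ℓ : ℕ) := ⟨ℓ.2.ne_zero⟩
    rw [heckeHom_of_dvd h, heckeHom_of_dvd h]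
    exact hlOp_comp (gamma0Hom_injective N) (relU h) (sigmaU_mul h) f φ
  · have : Fact (ℓ : ℕ).Prime := ⟨ℓ.2⟩
    rw [heckeHom_of_not_dvd h, heckeHom_of_not_dvd h]
    exact hlOp_comp (gamma0Hom_injective N) (relT h) sigmaT_mul f φ

/-- the Hecke operators preserve parabolic homomorphisms. -/
theorem heckeHom_isParabolicHom (ℓ : Nat.Primes) {A : Type*} [AddCommGroup A]
    [IsAddTorsionFree A] {φ : Additive (Gamma0 N) →+ A} (hφ : IsParabolicHom (Gamma0 N) φ) :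
    IsParabolicHom (Gamma0 N) (heckeHom N ℓ A φ) := by
  by_cases h : (ℓ : ℕ) ∣ N
  · have : NeZero (ℓ : ℕ) := ⟨ℓ.2.ne_zero⟩
    rw [heckeHom_of_dvd h]
    exact hlOp_isParabolicHom N (relU h) (sigmaU_mul h) hφ
  · have : Fact (ℓ : ℕ).Prime := ⟨ℓ.2⟩
    rw [heckeHom_of_not_dvd h]
    exact hlOp_isParabolicHom N (relT h) sigmaT_mul hφ

variable (N)

/-- the Hecke operator at `ℓ` as an `R`-linear endomorphism of `parabolicHoms R (Gamma0 N) A`. -/
def heckePar (ℓ : Nat.Primes) (R : Type*) [Semiring R] (A : Type*) [AddCommGroup A] [Module R A]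
    [IsAddTorsionFree A] :
    parabolicHoms R (Gamma0 N) A →ₗ[R] parabolicHoms R (Gamma0 N) A where
  toFun φ := ⟨heckeHom N ℓ A φ.1, heckeHom_isParabolicHom ℓ φ.2⟩
  map_add' φ ψ := Subtype.ext (map_add (heckeHom N ℓ A) φ.1 ψ.1)
  map_smul' c φ := by
    refine Subtype.ext ?_
    show heckeHom N ℓ A (c • φ.1) = c • heckeHom N ℓ A φ.1
    exact heckeHom_comp ℓ (DistribSMul.toAddMonoidHom A c) φ.1

theorem heckePar_coe (ℓ : Nat.Primes) (R : Type*) [Semiring R] (A : Type*) [AddCommGroup A]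
    [Module R A] [IsAddTorsionFree A] (φ : parabolicHoms R (Gamma0 N) A) :
    ((heckePar N ℓ R A φ : parabolicHoms R (Gamma0 N) A) : Additive (Gamma0 N) →+ A)
      = heckeHom N ℓ A φ.1 := rfl

/-- **the Hecke operators on the lattice** `H¹_par(Γ₀(N), ℤ)`. -/
def heckeLat (N : ℕ) [NeZero N] (ℓ : Nat.Primes) : HLat N →ₗ[ℤ] HLat N :=
  heckePar N ℓ ℤ ℤ

theorem heckeLat_coe (N : ℕ) [NeZero N] (ℓ : Nat.Primes) (φ : HLat N) :
    ((heckeLat N ℓ φ : HLat N) : Additive (Gamma0 N) →+ ℤ) = heckeHom N ℓ ℤ φ.1 := rfl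

end Concrete

end

end Fermat.Agent.GalRep
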