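import Mathlib
import Fermat.Agent.GalRep.HeckeLat

/-!
# Item 72, piece J3 (a): `ℂ ⊗ H¹_par(Γ₀(N), ℤ) ≅ H¹_par(Γ₀(N), ℂ)`

* `Module.Finite ℤ (HLat N)`, `Module.Free ℤ (HLat N)`;
* `hlBC N : ℂ ⊗[ℤ] HLat N →ₗ[ℂ] parabolicHoms ℂ (Gamma0 N) ℂ`, bijective and Hecke-equivariant.
-/

set_option autoImplicit false

open Fermat.Agent.S22lib CongruenceSubgroup ModularCurve.Period Matrix.SpecialLinearGroup
open scoped MatrixGroups TensorProduct

namespace Fermat.Agent.GalRep

noncomputable section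

section Generators

variable {Γ : Type*} [Group Γ] {B : Type*} [AddCommGroup B]

/-- a homomorphism with values in a subgroup on generators has values in it. -/
theorem hlbc_mem_of_generators (ψ : Additive Γ →+ B) (P : AddSubgroup B) (S : Set Γ)
    (hS : Subgroup.closure S = ⊤) (h : ∀ s ∈ S, ψ (Additive.ofMul s) ∈ P) (γ : Γ) :
    ψ (Additive.ofMul γ) ∈ P := by
  have hγ : γ ∈ Subgroup.closure S := hS ▸ Subgroup.mem_top γ
  induction hγ using Subgroup.closure_induction with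
  | mem x hx => exact h x hx
  | one => rw [ofMul_one, map_zero]; exact P.zero_mem
  | mul x y _ _ hx hy => rw [ofMul_mul, map_add]; exact P.add_mem hx hy
  | inv x _ hx => rw [ofMul_inv, map_neg]; exact P.neg_mem hx

/-- homomorphisms agreeing on generators are equal. -/
theorem hlbc_ext_of_generators (ψ ψ' : Additive Γ →+ B) (S : Set Γ)
    (hS : Subgroup.closure S = ⊤) (h : ∀ s ∈ S, ψ (Additive.ofMul s) = ψ' (Additive.ofMul s)) :
    ψ = ψ' := by
  refine AddMonoidHom.ext fun γ => ?_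
  obtain ⟨γ, rfl⟩ := Additive.ofMul.surjective γ
  have := hlbc_mem_of_generators (ψ - ψ') ⊥ S hS (fun s hs => by
    rw [AddSubgroup.mem_bot, AddMonoidHom.sub_apply, h s hs, sub_self]) γ
  rw [AddSubgroup.mem_bot, AddMonoidHom.sub_apply, sub_eq_zero] at this
  exact this

/-- a rational-valued homomorphism on a finitely generated group has an integral multiple. -/
theorem hlbc_exists_int_multiple [Group.FG Γ] (ψ : Additive Γ →+ ℚ) :
    ∃ (D : ℕ) (φ : Additive Γ →+ ℤ), 0 < D ∧ ∀ γ, ((φ γ : ℤ) : ℚ) = D * ψ γ := by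
  classical
  obtain ⟨S, hS⟩ := Group.fg_def.mp (inferInstance : Group.FG Γ)
  set D : ℕ := ∏ s ∈ S, (ψ (Additive.ofMul s)).den with hD
  have hDpos : 0 < D := Finset.prod_pos fun s _ => Rat.den_pos _
  have hmem : ∀ γ : Γ, (D : ℚ) * ψ (Additive.ofMul γ) ∈ (Int.castAddHom ℚ).range := by
    intro γ
    have h := hlbc_mem_of_generators ((D : ℤ) • ψ) (Int.castAddHom ℚ).range (S : Set Γ) hS
      (fun s hs => by
        have hs' : s ∈ S := hs
        obtain ⟨k, hk⟩ := Finset.dvd_prod_of_mem (fun s => (ψ (Additive.ofMul s)).den) hs'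
        refine ⟨k * (ψ (Additive.ofMul s)).num, ?_⟩
        rw [AddMonoidHom.smul_apply, zsmul_eq_mul, Int.coe_castAddHom]
        push_cast
        rw [hD, hk]
        push_cast
        have := Rat.mul_den_eq_num (ψ (Additive.ofMul s))
        rw [← this]
        ring) γ
    rwa [AddMonoidHom.smul_apply, zsmul_eq_mul, Int.cast_natCast] at h
  have hmem' : ∀ γ : Γ, ∃ n : ℤ, (n : ℚ) = (D : ℚ) * ψ (Additive.ofMul γ) := fun γ => by
    obtain ⟨n, hn⟩ := hmem γ
    exact ⟨n, hn⟩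
  choose n hn using hmem'
  refine ⟨D, AddMonoidHom.mk' (fun γ => n (Additive.toMul γ)) (fun γ δ => ?_), hDpos,
    fun γ => ?_⟩
  · have h1 := hn (Additive.toMul γ * Additive.toMul δ)
    have h2 := hn (Additive.toMul γ)
    have h3 := hn (Additive.toMul δ)
    have : ((n (Additive.toMul γ * Additive.toMul δ) : ℤ) : ℚ)
        = ((n (Additive.toMul γ) + n (Additive.toMul δ) : ℤ) : ℚ) := by
      push_cast
      rw [h1, h2, h3, ofMul_mul, map_add]
      ring
    exact_mod_cast this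
  · exact hn (Additive.toMul γ)

end Generators

section Lattice

variable (N : ℕ) [NeZero N]

instance hlbc_finite : Module.Finite ℤ (HLat N) := by
  classical
  obtain ⟨S, hS⟩ := Group.fg_def.mp (inferInstance : Group.FG (Gamma0 N))
  let ev : HLat N →ₗ[ℤ] ({s // s ∈ S} → ℤ) :=
    { toFun := fun φ s => φ.1 (Additive.ofMul s.1)
      map_add' := fun _ _ => rfl
      map_smul' := fun _ _ => rfl }
  have hinj : Function.Injective ev := by
    intro φ φ' h
    refine Subtype.ext (hlbc_ext_of_generators _ _ (S : Set (Gamma0 N)) hS fun s hs => ?_)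
    exact congrFun h ⟨s, hs⟩
  have : IsNoetherian ℤ ({s // s ∈ S} → ℤ) := isNoetherian_of_isNoetherianRing_of_finite ℤ _
  exact Module.Finite.of_injective ev hinj

omit [NeZero N] in
theorem hlbc_isAddTorsionFree : IsAddTorsionFree (HLat N) := by
  let f : HLat N →+ (Additive (Gamma0 N) → ℤ) :=
    { toFun := fun φ γ => φ.1 γ
      map_zero' := rfl
      map_add' := fun _ _ => rfl }
  refine Function.Injective.isAddTorsionFree f fun φ φ' h => ?_
  exact Subtype.ext (AddMonoidHom.ext fun γ => congrFun h γ)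

instance hlbc_free : Module.Free ℤ (HLat N) :=
  haveI := hlbc_isAddTorsionFree N
  Module.free_of_finite_type_torsion_free'

/-- the natural map `HLat N → parabolicHoms ℂ (Gamma0 N) ℂ`. -/
def hlCast : HLat N →ₗ[ℤ] parabolicHoms ℂ (Gamma0 N) ℂ :=
  AddMonoidHom.toIntLinearMap
    { toFun := fun φ => ⟨(Int.castAddHom ℂ).comp φ.1, fun γ hγ => by
        show ((φ.1 (Additive.ofMul γ) : ℤ) : ℂ) = 0
        rw [φ.2 γ hγ, Int.cast_zero]⟩
      map_zero' := Subtype.ext (AddMonoidHom.ext fun _ => by simp)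
      map_add' := fun φ ψ => Subtype.ext (AddMonoidHom.ext fun _ => by simp) }

omit [NeZero N] in
theorem hlCast_apply (φ : HLat N) (γ : Additive (Gamma0 N)) :
    (hlCast N φ).1 γ = ((φ.1 γ : ℤ) : ℂ) := rfl

/-- **(a)** the base change map `ℂ ⊗ H¹_par(Γ₀(N), ℤ) → H¹_par(Γ₀(N), ℂ)`. -/
def hlBC : ℂ ⊗[ℤ] HLat N →ₗ[ℂ] parabolicHoms ℂ (Gamma0 N) ℂ :=
  LinearMap.liftBaseChange ℂ (hlCast N)

omit [NeZero N] in
theorem hlBC_tmul (z : ℂ) (φ : HLat N) : hlBC N (z ⊗ₜ φ) = z • hlCast N φ := rfl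

omit [NeZero N] in
theorem hlBC_tmul_apply (z : ℂ) (φ : HLat N) (γ : Additive (Gamma0 N)) :
    (hlBC N (z ⊗ₜ φ)).1 γ = z * ((φ.1 γ : ℤ) : ℂ) := by
  rw [hlBC_tmul]
  rfl

/-- Hecke-equivariance of the base change map. -/
theorem hlBC_hecke (ℓ : Nat.Primes) (v : ℂ ⊗[ℤ] HLat N) :
    hlBC N ((heckeLat N ℓ).baseChange ℂ v) = heckePar N ℓ ℂ ℂ (hlBC N v) := by
  induction v using TensorProduct.induction_on with
  | zero => simp
  | add x y hx hy => simp only [map_add, hx, hy]
  | tmul z φ =>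
    rw [LinearMap.baseChange_tmul, hlBC_tmul, hlBC_tmul, map_smul]
    congr 1
    refine Subtype.ext ?_
    rw [heckePar_coe]
    show (Int.castAddHom ℂ).comp (heckeHom N ℓ ℤ φ.1) = heckeHom N ℓ ℂ ((Int.castAddHom ℂ).comp φ.1)
    exact (heckeHom_comp ℓ (Int.castAddHom ℂ) φ.1).symm

theorem hlbc_flat : Module.Flat ℤ ℂ := by
  rw [Module.Flat.flat_iff_torsion_eq_bot_of_isBezout, ← Submodule.isTorsionFree_iff_torsion_eq_bot]
  infer_instance

/-- injectivity of the base change map (flatness of `ℂ` over `ℤ`). -/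
theorem hlBC_injective : Function.Injective (hlBC N) := by
  classical
  obtain ⟨S, hS⟩ := Group.fg_def.mp (inferInstance : Group.FG (Gamma0 N))
  let ev : HLat N →ₗ[ℤ] ({s // s ∈ S} → ℤ) :=
    { toFun := fun φ s => φ.1 (Additive.ofMul s.1)
      map_add' := fun _ _ => rfl
      map_smul' := fun _ _ => rfl }
  have hinj : Function.Injective ev := by
    intro φ φ' h
    refine Subtype.ext (hlbc_ext_of_generators _ _ (S : Set (Gamma0 N)) hS fun s hs => ?_)
    exact congrFun h ⟨s, hs⟩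
  have := hlbc_flat
  have h1 : Function.Injective (ev.lTensor ℂ) :=
    Module.Flat.lTensor_preserves_injective_linearMap ev hinj
  have hcomp : ∀ v : ℂ ⊗[ℤ] HLat N,
      TensorProduct.piScalarRightHom ℤ ℤ ℂ {s // s ∈ S} (ev.lTensor ℂ v)
        = fun s => (hlBC N v).1 (Additive.ofMul s.1) := by
    intro v
    induction v using TensorProduct.induction_on with
    | zero =>
      funext s
      simp
    | add x y hx hy =>
      funext s
      rw [map_add, map_add, hx, hy, map_add]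
      rfl
    | tmul z φ =>
      funext s
      rw [LinearMap.lTensor_tmul, TensorProduct.piScalarRightHom_tmul, hlBC_tmul_apply]
      show (φ.1 (Additive.ofMul s.1)) • z = _
      rw [zsmul_eq_mul, mul_comm]
  rw [injective_iff_map_eq_zero]
  intro v hv
  apply h1
  rw [map_zero]
  apply (TensorProduct.piScalarRight ℤ ℤ ℂ {s // s ∈ S}).injective
  rw [map_zero, TensorProduct.piScalarRight_apply, hcomp, hv]
  rfl

/-- surjectivity of the base change map (coordinates in a `ℚ`-basis of `ℂ`). -/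
theorem hlBC_surjective : Function.Surjective (hlBC N) := by
  classical
  intro ψ
  obtain ⟨S, hS⟩ := Group.fg_def.mp (inferInstance : Group.FG (Gamma0 N))
  let b := Module.Basis.ofVectorSpace ℚ ℂ
  -- the coordinate homomorphisms
  let ψc : Module.Basis.ofVectorSpaceIndex ℚ ℂ → (Additive (Gamma0 N) →+ ℚ) := fun β =>
    ((b.coord β : ℂ →ₗ[ℚ] ℚ).toAddMonoidHom).comp ψ.1
  have hψc : ∀ β γ, ψc β γ = b.repr (ψ.1 γ) β := fun β γ => rfl
  choose D φ hDpos hφ using fun β => hlbc_exists_int_multiple (ψc β)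
  have hpar : ∀ β, φ β ∈ parabolicHoms ℤ (Gamma0 N) ℤ := by
    intro β γ hγ
    have h := hφ β (Additive.ofMul γ)
    rw [hψc, ψ.2 γ hγ, map_zero, Finsupp.zero_apply, mul_zero] at h
    exact_mod_cast h
  -- the finite set of relevant indices
  set F : Finset (Module.Basis.ofVectorSpaceIndex ℚ ℂ) :=
    S.biUnion fun s => (b.repr (ψ.1 (Additive.ofMul s))).support with hF
  have hvan : ∀ β, β ∉ F → ∀ γ : Gamma0 N, b.repr (ψ.1 (Additive.ofMul γ)) β = 0 := by
    intro β hβ γ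
    have h := hlbc_mem_of_generators (ψc β) ⊥ (S : Set (Gamma0 N)) hS (fun s hs => by
      rw [AddSubgroup.mem_bot, hψc]
      by_contra hne
      exact hβ (Finset.mem_biUnion.mpr ⟨s, hs, Finsupp.mem_support_iff.mpr hne⟩)) γ
    rwa [AddSubgroup.mem_bot, hψc] at h
  refine ⟨∑ β ∈ F, (b β * ((D β : ℂ))⁻¹) ⊗ₜ[ℤ] (⟨φ β, hpar β⟩ : HLat N), ?_⟩
  refine Subtype.ext (AddMonoidHom.ext fun γ => ?_)
  obtain ⟨γ, rfl⟩ := Additive.ofMul.surjective γ
  rw [map_sum]
  have hsum : ((∑ β ∈ F, hlBC N ((b β * ((D β : ℂ))⁻¹) ⊗ₜ[ℤ] (⟨φ β, hpar β⟩ : HLat N)) :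
      parabolicHoms ℂ (Gamma0 N) ℂ) : Additive (Gamma0 N) →+ ℂ) (Additive.ofMul γ)
      = ∑ β ∈ F, (b β * ((D β : ℂ))⁻¹) * ((φ β (Additive.ofMul γ) : ℤ) : ℂ) := by
    rw [Submodule.coe_sum, AddMonoidHom.finsetSum_apply]
    exact Finset.sum_congr rfl fun β _ => hlBC_tmul_apply N _ _ _
  rw [hsum]
  have hrepr := b.linearCombination_repr (ψ.1 (Additive.ofMul γ))
  rw [Finsupp.linearCombination_apply, Finsupp.sum_of_support_subset _ (s := F) (fun β hβ => by
    by_contra hne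
    exact (Finsupp.mem_support_iff.mp hβ) (hvan β hne γ)) (fun i a => a • b i)
    (fun β _ => zero_smul ℚ _)] at hrepr
  rw [← hrepr]
  refine Finset.sum_congr rfl fun β _ => ?_
  have h := hφ β (Additive.ofMul γ)
  rw [hψc] at h
  have h' : ((φ β (Additive.ofMul γ) : ℤ) : ℂ)
      = (D β : ℂ) * ((b.repr (ψ.1 (Additive.ofMul γ)) β : ℚ) : ℂ) := by
    have := congrArg (fun q : ℚ => (q : ℂ)) h
    simpa using this
  have hD : ((D β : ℕ) : ℂ) ≠ 0 := Nat.cast_ne_zero.mpr (hDpos β).ne'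
  rw [h', Rat.smul_def]
  field_simp

theorem hlBC_bijective : Function.Bijective (hlBC N) :=
  ⟨hlBC_injective N, hlBC_surjective N⟩

/-- the base change isomorphism. -/
def hlBCEquiv : (ℂ ⊗[ℤ] HLat N) ≃ₗ[ℂ] parabolicHoms ℂ (Gamma0 N) ℂ :=
  LinearEquiv.ofBijective (hlBC N) (hlBC_bijective N)

theorem hlBCEquiv_apply (v : ℂ ⊗[ℤ] HLat N) : hlBCEquiv N v = hlBC N v := rfl

end Lattice

end

end Fermat.Agent.GalRep
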