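import Mathlib
import Fermat.Agent.GalRep.HeckeLat
import Fermat.Agent.S22_Eichler
import Fermat.Agent.S21_Linear
import Fermat.Agent.S21_Inj
import Fermat.Prelude.Def_CuspForm_HeckeEvalForms

/-!
# Item 72, piece J3 (b1): the period map is Hecke-equivariant

`periodMap N (T_ℓ f) = heckeHom N ℓ ℂ (periodMap N f)` for every prime `ℓ`
(`T_ℓ` meaning `U_ℓ` when `ℓ ∣ N`), from S22's description of the Eichler integral of `T_ℓ f`
and S21's formula for the period map.
-/

set_option autoImplicit false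

open Fermat.Agent.S22lib Fermat.Agent.S21lib CongruenceSubgroup ModularCurve ModularCurve.Period
  Matrix.SpecialLinearGroup ModularForm UpperHalfPlane Filter Topology
open P2MW.S_ModularForm_heckeT_slash_eq_self_of_mem_Gamma0.ModularForm.HeckeSlashInvariance
open scoped MatrixGroups ModularForm Manifold Real

namespace Fermat.Agent.GalRep

noncomputable section

variable {N : ℕ} [NeZero N]

/-- S22's Eichler integral in weight 2 is `2πi` times any S21-primitive. -/
theorem hp_eichler_eq (f : CuspForm (Gamma0 N) 2) {F : ℍ → ℂ}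
    (hF : HasEquivariantPrimitive N f F) :
    eichler (m := 0) f = fun z => (2 * π * Complex.I) * F z := by
  symm
  have hd : ∀ τ : ℍ, HasDerivAt ((fun z => (2 * π * Complex.I) * F z) ∘ ofComplex)
      ((2 * π * Complex.I) * f τ) ↑τ := fun τ => (hF.1 τ).const_mul _
  refine eichler_unique (m := 0) f (mdiff_of_hasDerivAt hd) ?_ ?_
  · have := hF.2.1.const_mul (2 * π * Complex.I)
    rw [mul_zero] at this
    exact this
  · funext τ
    show Derivative.normalizedDerivOfComplex _ τ = f τ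
    rw [Derivative.normalizedDerivOfComplex, (hd τ).deriv]
    field_simp

omit [NeZero N] in
theorem hp_smul_eq (γ : Gamma0 N) (z : ℍ) : gamma0Hom N γ • z = (γ : SL(2, ℤ)) • z := rfl

omit [NeZero N] in
/-- the period of `∑ x, F ∘ α x`. -/
theorem hp_period_sum {X : Type*} [Fintype X] (α : X → GL (Fin 2) ℝ)
    (σ : Gamma0 N → Equiv.Perm X) (γ' : Gamma0 N → X → Gamma0 N)
    (hrel : ∀ (γ : Gamma0 N) (x : X), α x * gamma0Hom N γ = gamma0Hom N (γ' γ x) * α (σ γ x))
    {F : ℍ → ℂ} (hF : IsEquivariantPrimitive (Gamma0 N) F) (γ : Gamma0 N) (z : ℍ) :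
    ∑ x, F (α x • ((γ : SL(2, ℤ)) • z)) - ∑ x, F (α x • z) = ∑ x, hF.period (γ' γ x) := by
  have h1 : ∀ x, F (α x • ((γ : SL(2, ℤ)) • z)) = hF.period (γ' γ x) + F (α (σ γ x) • z) := by
    intro x
    rw [← hp_smul_eq, ← mul_smul, hrel, mul_smul, hp_smul_eq, ← hF.sub_eq_period (γ' γ x)]
    ring
  rw [Finset.sum_congr rfl fun x _ => h1 x, Finset.sum_add_distrib,
    Equiv.sum_comp (σ γ) (fun x => F (α x • z))]
  ring

/-- general Hecke compatibility of the period map. -/
theorem hp_periodMap_hecke_aux {X : Type*} [Fintype X] (α : X → GL (Fin 2) ℝ)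
    (σ : Gamma0 N → Equiv.Perm X) (γ' : Gamma0 N → X → Gamma0 N)
    (hα : ∀ x, 0 < (α x).det.val)
    (hrel : ∀ (γ : Gamma0 N) (x : X), α x * gamma0Hom N γ = gamma0Hom N (γ' γ x) * α (σ γ x))
    (hσ : ∀ (γ δ : Gamma0 N) (x : X), σ (γ * δ) x = σ δ (σ γ x))
    (f g : CuspForm (Gamma0 N) 2)
    (hg : eichler (m := 0) g = heckeM α (starAct (((0 : ℕ) : ℤ) + 2)) (eichler (m := 0) f)) :
    periodMap N g = hlOp (gamma0Hom_injective N) hrel hσ ℂ (periodMap N f) := by
  obtain ⟨F, hF⟩ := hasEquivariantPrimitive N f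
  obtain ⟨F₁, hF₁⟩ := hasEquivariantPrimitive N g
  have hc : (2 * π * Complex.I : ℂ) ≠ 0 := by simp [Real.pi_ne_zero]
  have key : ∀ z : ℍ, F₁ z = ∑ x, F (α x • z) := by
    intro z
    have h := congrFun hg z
    rw [hp_eichler_eq g hF₁, hp_eichler_eq f hF, heckeM, Finset.sum_apply] at h
    simp only [starAct_apply_of_det_pos _ (hα _)] at h
    have h' : (2 * π * Complex.I) * F₁ z = (2 * π * Complex.I) * ∑ x, F (α x • z) := by
      rw [h, Finset.mul_sum]
      refine Finset.sum_congr rfl fun x _ => ?_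
      simp
    exact mul_left_cancel₀ hc h'
  refine AddMonoidHom.ext fun γ => ?_
  obtain ⟨γ, rfl⟩ := Additive.ofMul.surjective γ
  rw [periodMap_apply N g hF₁, key, key, hlOp_apply, hp_period_sum α σ γ' hrel hF.2.2.1]
  refine Finset.sum_congr rfl fun x _ => ?_
  rw [periodMap_apply N f hF]
  rfl

theorem periodMap_heckeT {p : ℕ} [Fact p.Prime] (hp : p.Prime) (hpN : ¬ p ∣ N)
    (f : CuspForm (Gamma0 N) 2) :
    periodMap N (CuspForm.heckeTLin 2 hp hpN f) = heckeHomT N hpN ℂ (periodMap N f) :=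
  hp_periodMap_hecke_aux (heckeRep p) sigmaT (gammaT hpN)
    (fun x => (isIntMat_heckeRep hp.ne_zero x).1) (relT hpN) sigmaT_mul f _
    (eichler_heckeT (m := 0) hp hpN f)

theorem periodMap_heckeU {p : ℕ} [NeZero p] (hpN : p ∣ N) (f : CuspForm (Gamma0 N) 2) :
    periodMap N (CuspForm.heckeULin 2 hpN f) = heckeHomU N hpN ℂ (periodMap N f) :=
  hp_periodMap_hecke_aux (fun x : ZMod p => heckeMatrix p x.val) (sigmaU hpN) (gammaU hpN)
    (fun _ => (isIntMat_heckeMatrix (NeZero.ne p) _).1) (relU hpN) (sigmaU_mul hpN) f _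
    (eichler_heckeU (m := 0) hpN f)

/-- **(b1)** the period map is Hecke-equivariant. -/
theorem periodMap_hecke (N : ℕ) [NeZero N] (ℓ : Nat.Primes) (f : CuspForm (Gamma0 N) 2) :
    periodMap N ((CuspForm.heckeFormsGen N 2 ℓ :
        Module.End ℂ (CuspForm (Gamma0 N) 2)) f)
      = heckeHom N ℓ ℂ (periodMap N f) := by
  by_cases h : (ℓ : ℕ) ∣ N
  · have : NeZero (ℓ : ℕ) := ⟨ℓ.2.ne_zero⟩
    rw [CuspForm.heckeFormsGen_of_dvd h, CuspForm.heckeAlgebra.coe_U, heckeHom_of_dvd h]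
    exact periodMap_heckeU h f
  · have : Fact (ℓ : ℕ).Prime := ⟨ℓ.2⟩
    rw [CuspForm.heckeFormsGen_of_not_dvd h, CuspForm.heckeAlgebra.coe_T, heckeHom_of_not_dvd h]
    exact periodMap_heckeT ℓ.2 h f

end

end Fermat.Agent.GalRep
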