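import Mathlib
import Fermat.Agent.GalRep.HeckeLatBC
import Fermat.Agent.GalRep.HeckePeriod
import Fermat.Agent.S21
import Fermat.Agent.S21_Final

/-!
# Item 72, piece J3 (e), part 1: the eigenspaces of the Hecke operators in `ℂ ⊗ H¹_par(Γ₀(N), ℤ)`

Given that the Hecke operators on `Hom(Γ₀(N), ℂ)` commute with the involution `charInvolution`
(piece (b2)), the simultaneous eigenspace of the `heckeLat N ℓ` in `ℂ ⊗ HLat N` with
eigenvalues `c` is isomorphic to `E × E`, where `E ⊆ S₂(Γ₀(N))` is the simultaneous eigenspace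
of the Hecke operators on cusp forms with the same eigenvalues.
-/

set_option autoImplicit false

open Fermat.Agent.S22lib Fermat.Agent.S21lib CongruenceSubgroup ModularCurve ModularCurve.Period
  Matrix.SpecialLinearGroup
open scoped MatrixGroups TensorProduct

namespace Fermat.Agent.GalRep

noncomputable section

variable (N : ℕ) [NeZero N]

/-- the hypothesis (b2): the Hecke operators commute with the involution. -/
def HeckeInvolStatement : Prop :=
  ∀ (ℓ : Nat.Primes) (ψ : Additive (Gamma0 N) →+ ℂ),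
    heckeHom N ℓ ℂ (charInvolution N ℂ ℂ ψ) = charInvolution N ℂ ℂ (heckeHom N ℓ ℂ ψ)

/-- the simultaneous eigenspace of the Hecke operators (at all primes) on `S₂(Γ₀(N))`. -/
def emEig (c : Nat.Primes → ℂ) : Submodule ℂ (CuspForm (Gamma0 N) 2) :=
  ⨅ ℓ, LinearMap.ker ((CuspForm.heckeFormsGen N 2 ℓ : Module.End ℂ (CuspForm (Gamma0 N) 2))
    - c ℓ • (1 : Module.End ℂ (CuspForm (Gamma0 N) 2)))

theorem mem_emEig_iff (c : Nat.Primes → ℂ) (f : CuspForm (Gamma0 N) 2) :
    f ∈ emEig N c ↔ ∀ ℓ, (CuspForm.heckeFormsGen N 2 ℓ :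
      Module.End ℂ (CuspForm (Gamma0 N) 2)) f = c ℓ • f := by
  simp only [emEig, Submodule.mem_iInf, LinearMap.mem_ker, LinearMap.sub_apply,
    LinearMap.smul_apply, Module.End.one_apply, sub_eq_zero]

/-- Eichler–Shimura as a linear map onto `parabolicHoms`. -/
def emES : (CuspForm (Gamma0 N) 2 × CuspForm (Gamma0 N) 2) →ₗ[ℂ]
    parabolicHoms ℂ (Gamma0 N) ℂ :=
  (periodHomPair N).codRestrict _ fun x => by
    rw [← (Fermat.Agent.S21.result N).2]
    exact LinearMap.mem_range_self _ x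

theorem emES_coe (x : CuspForm (Gamma0 N) 2 × CuspForm (Gamma0 N) 2) :
    ((emES N x : parabolicHoms ℂ (Gamma0 N) ℂ) : Additive (Gamma0 N) →+ ℂ)
      = periodHomPair N x := rfl

theorem emES_injective : Function.Injective (emES N) := fun _ _ h =>
  (Fermat.Agent.S21.result N).1 (congrArg Subtype.val h)

theorem emES_surjective : Function.Surjective (emES N) := by
  intro ψ
  have h : (ψ : Additive (Gamma0 N) →+ ℂ) ∈ LinearMap.range (periodHomPair N) := by
    rw [(Fermat.Agent.S21.result N).2]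
    exact ψ.2
  obtain ⟨x, hx⟩ := h
  exact ⟨x, Subtype.ext hx⟩

/-- Hecke-equivariance of Eichler–Shimura. -/
theorem emES_hecke (hinv : HeckeInvolStatement N) (ℓ : Nat.Primes)
    (f g : CuspForm (Gamma0 N) 2) :
    heckePar N ℓ ℂ ℂ (emES N (f, g))
      = emES N ((CuspForm.heckeFormsGen N 2 ℓ : Module.End ℂ (CuspForm (Gamma0 N) 2)) f,
          (CuspForm.heckeFormsGen N 2 ℓ : Module.End ℂ (CuspForm (Gamma0 N) 2)) g) := by
  refine Subtype.ext ?_
  rw [heckePar_coe, emES_coe, emES_coe, periodHomPair_apply, periodHomPair_apply, map_add,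
    map_add, map_sub, hinv, hinv, periodMap_hecke, periodMap_hecke]

/-- the map `E × E → ℂ ⊗ HLat N`. -/
def emPsi (c : Nat.Primes → ℂ) : (emEig N c × emEig N c) →ₗ[ℂ] (ℂ ⊗[ℤ] HLat N) :=
  ((hlBCEquiv N).symm.toLinearMap ∘ₗ emES N) ∘ₗ
    ((emEig N c).subtype.prodMap (emEig N c).subtype)

theorem hlBC_emPsi (c : Nat.Primes → ℂ) (x : emEig N c × emEig N c) :
    hlBC N (emPsi N c x) = emES N ((x.1 : CuspForm (Gamma0 N) 2), (x.2 : CuspForm (Gamma0 N) 2)) :=
  (hlBCEquiv N).apply_symm_apply _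

theorem emPsi_injective (c : Nat.Primes → ℂ) : Function.Injective (emPsi N c) := by
  intro x y h
  have h1 := congrArg (hlBC N) h
  rw [hlBC_emPsi, hlBC_emPsi] at h1
  have h2 := emES_injective N h1
  exact Prod.ext (Subtype.ext (congrArg Prod.fst h2)) (Subtype.ext (congrArg Prod.snd h2))

theorem range_emPsi (hinv : HeckeInvolStatement N) (c : Nat.Primes → ℂ) :
    LinearMap.range (emPsi N c) = eigenSub ℂ (heckeLat N) c := by
  apply le_antisymm
  · rintro _ ⟨x, rfl⟩
    rw [mem_eigenSub_iff]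
    intro ℓ
    apply hlBC_injective N
    rw [hlBC_hecke, map_smul, hlBC_emPsi, emES_hecke N hinv,
      (mem_emEig_iff N c _).mp x.1.2 ℓ, (mem_emEig_iff N c _).mp x.2.2 ℓ, ← Prod.smul_mk,
      map_smul]
  · intro v hv
    rw [mem_eigenSub_iff] at hv
    obtain ⟨⟨f, g⟩, hfg⟩ := emES_surjective N (hlBC N v)
    have key : ∀ ℓ, ((CuspForm.heckeFormsGen N 2 ℓ : Module.End ℂ (CuspForm (Gamma0 N) 2)) f,
        (CuspForm.heckeFormsGen N 2 ℓ : Module.End ℂ (CuspForm (Gamma0 N) 2)) g)
        = (c ℓ • f, c ℓ • g) := by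
      intro ℓ
      apply emES_injective N
      rw [← emES_hecke N hinv, hfg, ← hlBC_hecke, hv ℓ, map_smul, ← hfg, ← Prod.smul_mk,
        map_smul]
    have hf : f ∈ emEig N c := (mem_emEig_iff N c f).mpr fun ℓ => congrArg Prod.fst (key ℓ)
    have hg : g ∈ emEig N c := (mem_emEig_iff N c g).mpr fun ℓ => congrArg Prod.snd (key ℓ)
    refine ⟨(⟨f, hf⟩, ⟨g, hg⟩), ?_⟩
    apply hlBC_injective N
    rw [hlBC_emPsi, hfg]

/-- **multiplicity two over `ℂ`**, given (b2) and the dimension of the eigenspace of forms. -/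
theorem finrank_eigenSub_complex_of (hinv : HeckeInvolStatement N) (c : Nat.Primes → ℂ)
    (hone : Module.finrank ℂ (emEig N c) = 1) :
    Module.finrank ℂ (eigenSub ℂ (heckeLat N) c) = 2 := by
  have : Module.Finite ℂ (emEig N c) := Module.finite_of_finrank_pos (by rw [hone]; exact one_pos)
  rw [← range_emPsi N hinv c, LinearMap.finrank_range_of_inj (emPsi_injective N c),
    Module.finrank_prod, hone]

end

end Fermat.Agent.GalRep
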