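/-
Item 72, piece J3 part (c), algebra: tools for the existence of eigenvectors with a prescribed
character.

* `eo_exists_eigen_ker_le` : the Deligne–Serre trick (a common eigenvector whose character has
  kernel inside a given prime ideal);
* `eo_ker_eq_of_le`        : characters with values in `ℂ` of a ring integral over `ℤ` with
  comparable kernels have the same kernel;
* `eo_exists_aut`          : two such characters with the same kernel differ by an automorphism
  of `ℂ`.
(helper8)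
-/
import Mathlib
import Fermat.Agent.S49_DeligneSerre
import Fermat.Agent.S23_Descent

set_option autoImplicit false

namespace Fermat.Agent.GalRep

open Module

/-- The Deligne–Serre trick: for a commutative ring `R` acting faithfully on a finite-dimensional
complex vector space and a prime ideal `𝔭` of `R` there is a common eigenvector whose character
has kernel contained in `𝔭`. -/
theorem eo_exists_eigen_ker_le {V : Type*} [AddCommGroup V] [Module ℂ V] [FiniteDimensional ℂ V]
    {R : Type*} [CommRing R] (ρ : R →+* Module.End ℂ V) (hρ : Function.Injective ρ)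
    (𝔭 : Ideal R) [h𝔭 : 𝔭.IsPrime] :
    ∃ (g : V) (χ : R →+* ℂ), g ≠ 0 ∧ (∀ r, ρ r g = χ r • g) ∧ RingHom.ker χ ≤ 𝔭 := by
  classical
  have h1 : (1 : R) ∉ 𝔭 := fun h => h𝔭.ne_top ((Ideal.eq_top_iff_one 𝔭).2 h)
  let P : ℕ → Prop := fun n => ∃ s : R, s ∉ 𝔭 ∧ finrank ℂ (LinearMap.range (ρ s)) = n
  have hP : ∃ n, P n := ⟨_, 1, h1, rfl⟩
  obtain ⟨s₀, hs₀, hrk⟩ := Nat.find_spec hP
  have hmin : ∀ s, s ∉ 𝔭 → Nat.find hP ≤ finrank ℂ (LinearMap.range (ρ s)) :=
    fun s hs => Nat.find_min' hP ⟨s, hs, rfl⟩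
  let W : Submodule ℂ V := LinearMap.range (ρ s₀)
  have hcommρ : ∀ a b : R, ∀ v : V, ρ a (ρ b v) = ρ b (ρ a v) := by
    intro a b v
    rw [← Module.End.mul_apply, ← Module.End.mul_apply, ← map_mul, ← map_mul, mul_comm]
  have hWstab : ∀ r, ∀ w ∈ W, ρ r w ∈ W := by
    rintro r w ⟨v, rfl⟩
    exact ⟨ρ r v, hcommρ _ _ _⟩
  have hWne : W ≠ ⊥ := by
    intro h
    have hs0 : ρ s₀ = 0 := by
      apply LinearMap.ext
      intro v
      have hf0 : ρ s₀ v ∈ W := ⟨v, rfl⟩
      rw [h, Submodule.mem_bot] at hf0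
      simpa using hf0
    have : s₀ = 0 := hρ (by rw [hs0, map_zero])
    exact hs₀ (this ▸ 𝔭.zero_mem)
  have hinj : ∀ s, s ∉ 𝔭 → ∀ w ∈ W, ρ s w = 0 → w = 0 := by
    intro s hs w hw hsw
    have hss : s * s₀ ∉ 𝔭 := fun h => (h𝔭.mem_or_mem h).elim hs hs₀
    have hle : LinearMap.range (ρ (s * s₀)) ≤ W := by
      rintro _ ⟨v, rfl⟩
      rw [map_mul, Module.End.mul_apply]
      exact hWstab s _ ⟨v, rfl⟩
    have heq : LinearMap.range (ρ (s * s₀)) = W := by
      apply Submodule.eq_of_le_of_finrank_le hle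
      have := hmin _ hss
      rw [← hrk] at this
      exact this
    have hsurj : Function.Surjective ((ρ s).restrict (hWstab s)) := by
      rintro ⟨y, hy⟩
      have hy' : y ∈ LinearMap.range (ρ (s * s₀)) := by rw [heq]; exact hy
      obtain ⟨v, hv⟩ := hy'
      refine ⟨⟨ρ s₀ v, ⟨v, rfl⟩⟩, ?_⟩
      apply Subtype.ext
      show ρ s (ρ s₀ v) = y
      rw [← hv, map_mul, Module.End.mul_apply]
    have hinj' : Function.Injective ((ρ s).restrict (hWstab s)) :=
      LinearMap.injective_iff_surjective.2 hsurj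
    have h0 : (ρ s).restrict (hWstab s) ⟨w, hw⟩ = (ρ s).restrict (hWstab s) 0 := by
      apply Subtype.ext
      rw [map_zero]
      exact hsw
    have := hinj' h0
    exact congrArg Subtype.val this
  obtain ⟨g, χ₀, hgW, hg0, hg⟩ := Fermat.Agent.S49lib.exists_common_eigenvector_in
    (fun r : R => ρ r)
    (fun a b => by
      show ρ a * ρ b = ρ b * ρ a
      rw [← map_mul, ← map_mul, mul_comm]) W hWne hWstab
  have hsinj : Function.Injective (fun c : ℂ => c • g) := smul_left_injective ℂ hg0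
  let χ₁ : R →+* ℂ :=
    { toFun := χ₀
      map_one' := by
        apply hsinj
        show χ₀ 1 • g = (1 : ℂ) • g
        rw [← hg, map_one, Module.End.one_apply, one_smul]
      map_mul' := by
        intro a b
        apply hsinj
        show χ₀ (a * b) • g = (χ₀ a * χ₀ b) • g
        rw [← hg, map_mul, Module.End.mul_apply, hg b, map_smul, hg a, smul_smul, mul_comm]
      map_zero' := by
        apply hsinj
        show χ₀ 0 • g = (0 : ℂ) • g
        rw [← hg, map_zero, LinearMap.zero_apply, zero_smul]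
      map_add' := by
        intro a b
        apply hsinj
        show χ₀ (a + b) • g = (χ₀ a + χ₀ b) • g
        rw [← hg, map_add, LinearMap.add_apply, hg a, hg b, add_smul] }
  refine ⟨g, χ₁, hg0, fun r => hg r, ?_⟩
  intro r hr
  by_contra hrm
  have h0 : χ₀ r = 0 := hr
  apply hg0
  apply hinj r hrm g hgW
  rw [hg, h0, zero_smul]

/-- Two characters with values in `ℂ` of a ring integral over `ℤ`, one kernel contained in the
other: the kernels are equal. -/
theorem eo_ker_eq_of_le {R : Type*} [CommRing R] [Algebra.IsIntegral ℤ R] (χ lam : R →+* ℂ)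
    (h : RingHom.ker χ ≤ RingHom.ker lam) : RingHom.ker χ = RingHom.ker lam := by
  apply le_antisymm h
  intro r hr
  rw [RingHom.mem_ker] at hr ⊢
  by_contra hz
  have hint : IsIntegral ℤ (χ r) := (Algebra.IsIntegral.isIntegral (R := ℤ) r).map χ.toIntAlgHom
  have hc0 : (minpoly ℤ (χ r)).coeff 0 ≠ 0 := by
    have hq : (minpoly ℚ (χ r)).coeff 0 ≠ 0 :=
      minpoly.coeff_zero_ne_zero hint.tower_top hz
    rw [minpoly.isIntegrallyClosed_eq_field_fractions' ℚ hint, Polynomial.coeff_map] at hq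
    intro h0
    rw [h0, map_zero] at hq
    exact hq rfl
  have h1 : χ (Polynomial.aeval r (minpoly ℤ (χ r))) = 0 := by
    have := Polynomial.aeval_algHom_apply χ.toIntAlgHom r (minpoly ℤ (χ r))
    have h2 : χ.toIntAlgHom (Polynomial.aeval r (minpoly ℤ (χ r))) = 0 := by
      rw [← this]
      exact minpoly.aeval ℤ (χ r)
    exact h2
  have h3 : lam (Polynomial.aeval r (minpoly ℤ (χ r))) = 0 := h (RingHom.mem_ker.2 h1)
  have h4 : lam (Polynomial.aeval r (minpoly ℤ (χ r))) =
      Polynomial.aeval (lam r) (minpoly ℤ (χ r)) :=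
    (Polynomial.aeval_algHom_apply lam.toIntAlgHom r (minpoly ℤ (χ r))).symm
  rw [h4, hr, ← Polynomial.coeff_zero_eq_aeval_zero'] at h3
  have : ((minpoly ℤ (χ r)).coeff 0 : ℂ) = 0 := by simpa using h3
  exact hc0 (by exact_mod_cast this)

/-- Two ring homs with the same kernel from a commutative ring into an algebraically closed
field `Ω`, algebraic over both images, differ by an automorphism of `Ω`. -/
theorem eo_exists_equiv_of_ker_eq {R Ω : Type*} [CommRing R] [Field Ω]
    [IsAlgClosed Ω] (f₁ f₂ : R →+* Ω) (h : RingHom.ker f₁ = RingHom.ker f₂)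
    [ha₁ : Algebra.IsAlgebraic f₁.range Ω] [ha₂ : Algebra.IsAlgebraic f₂.range Ω] :
    ∃ τ : Ω ≃+* Ω, ∀ a, τ (f₁ a) = f₂ a := by
  have ac₁ : IsAlgClosure f₁.range Ω := ⟨inferInstance, ha₁⟩
  have ac₂ : IsAlgClosure f₂.range Ω := ⟨inferInstance, ha₂⟩
  let hSR : f₁.range ≃+* f₂.range :=
    (RingHom.quotientKerEquivRange f₁).symm.trans
      ((Ideal.quotEquivOfEq h).trans (RingHom.quotientKerEquivRange f₂))
  have hSR_apply : ∀ a : R, hSR ⟨f₁ a, ⟨a, rfl⟩⟩ = ⟨f₂ a, ⟨a, rfl⟩⟩ := by
    intro a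
    have e1 : (RingHom.quotientKerEquivRange f₁).symm ⟨f₁ a, ⟨a, rfl⟩⟩ =
        Ideal.Quotient.mk _ a := by
      rw [RingEquiv.symm_apply_eq]
      rfl
    show (RingHom.quotientKerEquivRange f₂) ((Ideal.quotEquivOfEq h)
      ((RingHom.quotientKerEquivRange f₁).symm ⟨f₁ a, ⟨a, rfl⟩⟩)) = _
    rw [e1, Ideal.quotEquivOfEq_mk]
    rfl
  refine ⟨IsAlgClosure.equivOfEquiv Ω Ω hSR, fun a => ?_⟩
  have := IsAlgClosure.equivOfEquiv_algebraMap Ω Ω hSR ⟨f₁ a, ⟨a, rfl⟩⟩
  rw [hSR_apply] at this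
  exact this

/-- Two characters with values in `ℂ` and the same kernel of a ring integral over `ℤ` differ by
an automorphism of `ℂ`. -/
theorem eo_exists_aut {R : Type*} [CommRing R] [Algebra.IsIntegral ℤ R] (χ lam : R →+* ℂ)
    (h : RingHom.ker χ = RingHom.ker lam) : ∃ σ : ℂ ≃+* ℂ, ∀ r, σ (χ r) = lam r := by
  classical
  have hmem : ∀ (f : R →+* ℂ) (r : R), f r ∈ algebraicClosure ℚ ℂ := by
    intro f r
    rw [mem_algebraicClosure_iff]
    have h1 : IsIntegral ℤ (f r) := (Algebra.IsIntegral.isIntegral (R := ℤ) r).map f.toIntAlgHom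
    exact h1.tower_top.isAlgebraic
  let f₁ : R →+* algebraicClosure ℚ ℂ := χ.codRestrict (algebraicClosure ℚ ℂ) (hmem χ)
  let f₂ : R →+* algebraicClosure ℚ ℂ := lam.codRestrict (algebraicClosure ℚ ℂ) (hmem lam)
  have hcoe₁ : ∀ r, ((f₁ r : algebraicClosure ℚ ℂ) : ℂ) = χ r := fun r => rfl
  have hcoe₂ : ∀ r, ((f₂ r : algebraicClosure ℚ ℂ) : ℂ) = lam r := fun r => rfl
  have hker : RingHom.ker f₁ = RingHom.ker f₂ := by
    ext r
    have e1 : r ∈ RingHom.ker f₁ ↔ r ∈ RingHom.ker χ := by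
      rw [RingHom.mem_ker, RingHom.mem_ker]
      constructor
      · intro h0
        rw [← hcoe₁, h0]
        rfl
      · intro h0
        apply Subtype.ext
        rw [hcoe₁, h0]
        rfl
    have e2 : r ∈ RingHom.ker f₂ ↔ r ∈ RingHom.ker lam := by
      rw [RingHom.mem_ker, RingHom.mem_ker]
      constructor
      · intro h0
        rw [← hcoe₂, h0]
        rfl
      · intro h0
        apply Subtype.ext
        rw [hcoe₂, h0]
        rfl
    rw [e1, e2, h]
  have hcl : IsAlgClosure ℚ ↥(algebraicClosure ℚ ℂ) := by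
    exact @algebraicClosure.isAlgClosure ℚ ℂ _ _ _ _
  have hacl : IsAlgClosed ↥(algebraicClosure ℚ ℂ) := hcl.isAlgClosed
  have halgZ : Algebra.IsAlgebraic ℤ ↥(algebraicClosure ℚ ℂ) := by
    have : Algebra.IsAlgebraic ℚ ↥(algebraicClosure ℚ ℂ) := hcl.isAlgebraic
    exact (IsFractionRing.comap_isAlgebraic_iff (A := ℤ) (K := ℚ)).2 this
  have hinjZ : ∀ S : Subring ↥(algebraicClosure ℚ ℂ), Function.Injective (algebraMap ℤ S) := by
    intro S a b hab
    have := congrArg (fun x : S => ((x : algebraicClosure ℚ ℂ) : ℂ)) hab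
    simpa using this
  have ha₁ : Algebra.IsAlgebraic f₁.range ↥(algebraicClosure ℚ ℂ) :=
    Algebra.IsAlgebraic.extendScalars (hinjZ _)
  have ha₂ : Algebra.IsAlgebraic f₂.range ↥(algebraicClosure ℚ ℂ) :=
    Algebra.IsAlgebraic.extendScalars (hinjZ _)
  obtain ⟨τ, hτ⟩ := eo_exists_equiv_of_ker_eq f₁ f₂ hker
  obtain ⟨ι, v, hv⟩ := exists_isTranscendenceBasis' (algebraicClosure ℚ ℂ) ℂ
  obtain ⟨σ, hσ⟩ := Fermat.Agent.S23lib.descent_exists_ringEquiv_of_mvPolynomial_ringEquiv
    (A := algebraicClosure ℚ ℂ) (K := ℂ) v hv (MvPolynomial.mapEquiv ι τ)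
  refine ⟨σ, fun r => ?_⟩
  have h2 := hσ (MvPolynomial.C (f₁ r))
  simp only [MvPolynomial.aeval_C, MvPolynomial.mapEquiv_apply, MvPolynomial.map_C,
    RingHom.coe_coe] at h2
  rw [hτ] at h2
  exact h2

end Fermat.Agent.GalRep
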