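/-
Item 72, piece J3 part (c): multiplicity one for the full Hecke algebra on `S₂(Γ₀(N))`.

* `eigenForms N lam` : the eigenspace of a character `lam : heckeAlgebra N 2 ∅ →+* ℂ`;
* `eo_mem_eigenForms_of_gen` : membership can be checked on the generators `T_ℓ`, `U_q`;
* `eo_qCoeff_one_ne_zero`    : a nonzero element of `eigenForms N lam` has `a₁ ≠ 0`;
* `eo_exists_ne_zero`        : every character occurs (Deligne–Serre trick + `Aut(ℂ)`-conjugation
                               of cusp forms from the S23 library);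
* `finrank_eigenForms`       : `finrank ℂ (eigenForms N lam) = 1`.
(helper8)
-/
import Mathlib
import Fermat.Agent.GalRep.EigenChar
import Fermat.Agent.GalRep.EigenOneAlg
import Fermat.Agent.S23_Conj
import Fermat.Agent.S23_Final
import Fermat.Agent.S49_Modular
import Fermat.Prelude.Def_CuspForm_HeckeEvalForms

set_option autoImplicit false

open CongruenceSubgroup ModularFormClass UpperHalfPlane

namespace Fermat.Agent.GalRep

open Fermat.Agent.S49norm

variable (N : ℕ) [NeZero N]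

/-- the eigenspace of a character of the full Hecke algebra in `S₂(Γ₀(N))` -/
def eigenForms (lam : CuspForm.heckeAlgebra N 2 (∅ : Set ℕ) →+* ℂ) :
    Submodule ℂ (CuspForm (Gamma0 N) 2) where
  carrier := {f | ∀ t : CuspForm.heckeAlgebra N 2 (∅ : Set ℕ),
    (t : Module.End ℂ (CuspForm (Gamma0 N) 2)) f = lam t • f}
  add_mem' := by
    intro a b ha hb t
    rw [map_add, ha t, hb t, smul_add]
  zero_mem' := by
    intro t
    rw [map_zero, smul_zero]
  smul_mem' := by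
    intro c f hf t
    rw [map_smul, hf t, smul_comm]

theorem mem_eigenForms_iff (lam : CuspForm.heckeAlgebra N 2 (∅ : Set ℕ) →+* ℂ)
    (f : CuspForm (Gamma0 N) 2) :
    f ∈ eigenForms N lam ↔ ∀ t : CuspForm.heckeAlgebra N 2 (∅ : Set ℕ),
      (t : Module.End ℂ (CuspForm (Gamma0 N) 2)) f = lam t • f := Iff.rfl

/-- it suffices to check the eigen-equations on the generators `T_ℓ`, `U_q` -/
theorem eo_mem_eigenForms_of_gen (lam : CuspForm.heckeAlgebra N 2 (∅ : Set ℕ) →+* ℂ)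
    (f : CuspForm (Gamma0 N) 2)
    (hT : ∀ (ℓ : ℕ) (hℓ : ℓ.Prime) (hℓN : ¬ ℓ ∣ N), CuspForm.heckeTLin 2 hℓ hℓN f =
      lam (CuspForm.heckeAlgebra.T hℓ hℓN (Set.notMem_empty _)) • f)
    (hU : ∀ (q : ℕ) (hq : q.Prime) (hqN : q ∣ N), CuspForm.heckeULin 2 hqN f =
      lam (CuspForm.heckeAlgebra.U hq hqN (Set.notMem_empty _)) • f) :
    f ∈ eigenForms N lam := by
  have key : ∀ (t : Module.End ℂ (CuspForm (Gamma0 N) 2))
      (ht : t ∈ Algebra.adjoin ℤ (CuspForm.heckeGenerators N 2 (∅ : Set ℕ))),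
      t f = lam ⟨t, ht⟩ • f := by
    intro t ht
    induction ht using Algebra.adjoin_induction with
    | mem x hx =>
      rcases hx with ⟨ℓ, hℓ, hℓN, -, rfl⟩ | ⟨q, hqN, hq, -, rfl⟩
      · exact hT ℓ hℓ hℓN
      · exact hU q hq hqN
    | algebraMap r =>
      have e1 : (⟨algebraMap ℤ (Module.End ℂ (CuspForm (Gamma0 N) 2)) r,
          Subalgebra.algebraMap_mem _ r⟩ : CuspForm.heckeAlgebra N 2 (∅ : Set ℕ)) =
          ((r : ℤ) : CuspForm.heckeAlgebra N 2 (∅ : Set ℕ)) := by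
        apply Subtype.ext
        simp
      rw [e1, map_intCast, Algebra.algebraMap_eq_smul_one, LinearMap.smul_apply,
        Module.End.one_apply]
      exact (Int.cast_smul_eq_zsmul ℂ r f).symm
    | add x y hx hy ihx ihy =>
      have e1 : (⟨x + y, Subalgebra.add_mem _ hx hy⟩ : CuspForm.heckeAlgebra N 2 (∅ : Set ℕ)) =
          ⟨x, hx⟩ + ⟨y, hy⟩ := rfl
      rw [e1, map_add, LinearMap.add_apply, ihx, ihy, add_smul]
    | mul x y hx hy ihx ihy =>
      have e1 : (⟨x * y, Subalgebra.mul_mem _ hx hy⟩ : CuspForm.heckeAlgebra N 2 (∅ : Set ℕ)) =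
          ⟨x, hx⟩ * ⟨y, hy⟩ := rfl
      rw [e1, map_mul, Module.End.mul_apply, ihy, map_smul, ihx, smul_smul, mul_comm]
  intro t
  exact key t.1 t.2

/-- the function on `ℕ` of eigenvalues at the primes -/
noncomputable def eoLam (lam : CuspForm.heckeAlgebra N 2 (∅ : Set ℕ) →+* ℂ) (ℓ : ℕ) : ℂ :=
  if h : ℓ.Prime then lam (CuspForm.heckeFormsGen N 2 ⟨ℓ, h⟩) else 0

lemma eo_heckeT_eq (lam : CuspForm.heckeAlgebra N 2 (∅ : Set ℕ) →+* ℂ)
    {f : CuspForm (Gamma0 N) 2} (hf : f ∈ eigenForms N lam)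
    (ℓ : ℕ) (hℓ : ℓ.Prime) (hℓN : ¬ ℓ ∣ N) :
    CuspForm.heckeTLin 2 hℓ hℓN f = eoLam N lam ℓ • f := by
  have h1 := hf (CuspForm.heckeAlgebra.T hℓ hℓN (Set.notMem_empty _))
  rw [CuspForm.heckeAlgebra.coe_T] at h1
  rw [h1, eoLam, dif_pos hℓ]
  congr 2
  exact (CuspForm.heckeFormsGen_of_not_dvd (N := N) (k := 2) (ℓ := ⟨ℓ, hℓ⟩) hℓN).symm

lemma eo_heckeU_eq (lam : CuspForm.heckeAlgebra N 2 (∅ : Set ℕ) →+* ℂ)
    {f : CuspForm (Gamma0 N) 2} (hf : f ∈ eigenForms N lam)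
    (q : ℕ) (hq : q.Prime) (hqN : q ∣ N) :
    CuspForm.heckeULin 2 hqN f = eoLam N lam q • f := by
  have h1 := hf (CuspForm.heckeAlgebra.U hq hqN (Set.notMem_empty _))
  rw [CuspForm.heckeAlgebra.coe_U] at h1
  rw [h1, eoLam, dif_pos hq]
  congr 2
  exact (CuspForm.heckeFormsGen_of_dvd (N := N) (k := 2) (q := ⟨q, hq⟩) hqN).symm

/-- a nonzero eigenform has nonzero first coefficient -/
theorem eo_qCoeff_one_ne_zero (lam : CuspForm.heckeAlgebra N 2 (∅ : Set ℕ) →+* ℂ)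
    {f : CuspForm (Gamma0 N) 2} (hf : f ∈ eigenForms N lam) (hf0 : f ≠ 0) :
    qCoeff (⇑f) 1 ≠ 0 :=
  qCoeff_one_ne_zero_of_eigenvector f hf0 (eoLam N lam)
    (fun ℓ hℓ hℓN => eo_heckeT_eq N lam hf ℓ hℓ hℓN)
    (fun q hq hqN => eo_heckeU_eq N lam hf q hq hqN)


/-- coefficientwise conjugation by an automorphism of `ℂ` carries the `χ`-eigenspace into the
`σ ∘ χ`-eigenspace -/
theorem eo_conj_mem (lam χ : CuspForm.heckeAlgebra N 2 (∅ : Set ℕ) →+* ℂ) (σ : ℂ ≃+* ℂ)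
    (hσ : ∀ t, σ (χ t) = lam t) (g g' : CuspForm (Gamma0 N) 2) (hg : g ∈ eigenForms N χ)
    (hg' : ∀ n, qCoeff (⇑g') n = σ (qCoeff (⇑g) n)) : g' ∈ eigenForms N lam := by
  have hΓ := one_mem_strictPeriods_Gamma0' N
  apply eo_mem_eigenForms_of_gen
  · intro ℓ hℓ hℓN
    apply ec_cuspForm_ext
    intro n
    have h1 := hg (CuspForm.heckeAlgebra.T hℓ hℓN (Set.notMem_empty _))
    rw [CuspForm.heckeAlgebra.coe_T] at h1
    have h2 := congrArg (fun f : CuspForm (Gamma0 N) 2 => qCoeff (⇑f) n) h1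
    simp only [CuspForm.coe_heckeTLin_apply, qCoeff_smul_cuspForm] at h2
    rw [ModularFormClass.qCoeff_heckeT g hΓ hℓ.ne_zero n, ModularForm.coeffHeckeT_apply] at h2
    rw [qCoeff_smul_cuspForm, CuspForm.coe_heckeTLin_apply,
      ModularFormClass.qCoeff_heckeT g' hΓ hℓ.ne_zero n, ModularForm.coeffHeckeT_apply,
      hg', hg', hg', ← hσ, ← map_mul, ← h2, map_add]
    congr 1
    split_ifs
    · rw [map_mul, map_zpow₀, map_natCast]
    · rw [map_zero]
  · intro q hq hqN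
    apply ec_cuspForm_ext
    intro n
    have h1 := hg (CuspForm.heckeAlgebra.U hq hqN (Set.notMem_empty _))
    rw [CuspForm.heckeAlgebra.coe_U] at h1
    have h2 := congrArg (fun f : CuspForm (Gamma0 N) 2 => qCoeff (⇑f) n) h1
    simp only [CuspForm.coe_heckeULin_apply, qCoeff_smul_cuspForm] at h2
    rw [ModularFormClass.qCoeff_heckeU g hΓ hq.ne_zero n, ModularForm.coeffHeckeU_apply] at h2
    rw [qCoeff_smul_cuspForm, CuspForm.coe_heckeULin_apply,
      ModularFormClass.qCoeff_heckeU g' hΓ hq.ne_zero n, ModularForm.coeffHeckeU_apply,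
      hg', hg', ← hσ, ← map_mul, ← h2]

/-- every character of the full Hecke algebra occurs in `S₂(Γ₀(N))` -/
theorem eo_exists_ne_zero (lam : CuspForm.heckeAlgebra N 2 (∅ : Set ℕ) →+* ℂ) :
    ∃ f ∈ eigenForms N lam, f ≠ 0 := by
  have hfd : FiniteDimensional ℂ (CuspForm (Gamma0 N) 2) :=
    Fermat.Agent.S23lib.finiteDimensional_cuspForm N 2
  have hfin : Module.Finite ℤ (CuspForm.heckeAlgebra N 2 (∅ : Set ℕ)) :=
    Fermat.Agent.S22.result N 2 ∅
  have hint : Algebra.IsIntegral ℤ (CuspForm.heckeAlgebra N 2 (∅ : Set ℕ)) :=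
    Algebra.IsIntegral.of_finite ℤ _
  have hprime : (RingHom.ker lam).IsPrime := RingHom.ker_isPrime lam
  obtain ⟨g, χ, hg0, hg, hker⟩ := eo_exists_eigen_ker_le
    (CuspForm.heckeAlgebra N 2 (∅ : Set ℕ)).val.toRingHom Subtype.val_injective (RingHom.ker lam)
  have hker' := eo_ker_eq_of_le χ lam hker
  obtain ⟨σ, hσ⟩ := eo_exists_aut χ lam hker'
  obtain ⟨g', hg'⟩ := Fermat.Agent.S23lib.exists_conj N 2 σ g
  have hgmem : g ∈ eigenForms N χ := fun t => hg t
  refine ⟨g', eo_conj_mem N lam χ σ hσ g g' hgmem (fun n => hg' n), ?_⟩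
  intro h0
  apply hg0
  apply cuspForm_eq_zero_of_qCoeff
  intro n
  have h1 : σ (qCoeff (⇑g) n) = 0 := by
    have := hg' n
    rw [h0] at this
    have h2 : qCoeff (⇑(0 : CuspForm (Gamma0 N) 2)) n = 0 := by
      have := qCoeff_smul_cuspForm (N := N) 0 (0 : CuspForm (Gamma0 N) 2) n
      simpa using this
    exact this.symm.trans h2
  exact (map_eq_zero_iff σ σ.injective).1 h1

/-- **(c)** multiplicity one: the eigenspace of every character of the full Hecke algebra in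
`S₂(Γ₀(N))` is one-dimensional. -/
theorem finrank_eigenForms (lam : CuspForm.heckeAlgebra N 2 (∅ : Set ℕ) →+* ℂ) :
    Module.finrank ℂ ↥(eigenForms N lam) = 1 := by
  obtain ⟨f, hf, hf0⟩ := eo_exists_ne_zero N lam
  have ha := eo_qCoeff_one_ne_zero N lam hf hf0
  rw [finrank_eq_one_iff']
  refine ⟨⟨f, hf⟩, fun h => hf0 (congrArg Subtype.val h), ?_⟩
  rintro ⟨w, hw⟩
  refine ⟨qCoeff (⇑w) 1 / qCoeff (⇑f) 1, ?_⟩
  apply Subtype.ext
  show (qCoeff (⇑w) 1 / qCoeff (⇑f) 1) • f = w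
  by_contra hne
  have hd : w - (qCoeff (⇑w) 1 / qCoeff (⇑f) 1) • f ∈ eigenForms N lam :=
    Submodule.sub_mem _ hw (Submodule.smul_mem _ _ hf)
  have hd0 : w - (qCoeff (⇑w) 1 / qCoeff (⇑f) 1) • f ≠ 0 := by
    intro h
    exact hne (sub_eq_zero.1 h).symm
  apply eo_qCoeff_one_ne_zero N lam hd hd0
  have e1 : w - (qCoeff (⇑w) 1 / qCoeff (⇑f) 1) • f =
      (1 : ℂ) • w + (-(qCoeff (⇑w) 1 / qCoeff (⇑f) 1)) • f := by
    module
  have e2 : ∀ (a b : ℂ) (u v : CuspForm (Gamma0 N) 2),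
      qCoeff (⇑(a • u + b • v)) 1 = a * qCoeff (⇑u) 1 + b * qCoeff (⇑v) 1 := by
    intro a b u v
    have := (Fermat.Agent.S49lib.qCoeffLin N 2 1).map_add (a • u) (b • v)
    simp only [Fermat.Agent.S49lib.qCoeffLin_apply, map_smul, smul_eq_mul] at this
    exact this
  rw [e1, e2]
  field_simp
  ring

end Fermat.Agent.GalRep
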