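import Mathlib
import Fermat.Prelude.Def_ModularCurve_PeriodHomPair
import Fermat.Agent.GalRep.HeckeLat

/-!
# Item 72, piece J3 (b2): the Hecke operators on `Hom(Γ₀(N), A)` commute with the involution
`ψ ↦ ψ ∘ (γ ↦ ε γ ε⁻¹)`, `ε = diag(1, -1)` (helper16).

* `hlOp_comp_hom`: the abstract statement for coset data.
* `heckeHom_comp_jConj`: `heckeHom N ℓ A (ψ ∘ jConj) = (heckeHom N ℓ A ψ) ∘ jConj`.
* `heckeHom_charInvolution`: the form asked for in the blueprint.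
-/

set_option autoImplicit false

open Fermat.Agent.S22lib CongruenceSubgroup ModularCurve.Period Matrix.SpecialLinearGroup ModularForm
open P2MW.S_ModularForm_heckeT_slash_eq_self_of_mem_Gamma0.ModularForm.HeckeSlashInvariance
open scoped MatrixGroups

namespace Fermat.Agent.GalRep

noncomputable section

section Abstract

variable {G : Type*} [Group G] {Γ : Type*} [Group Γ] {ι : Γ →* G}
  {X : Type*} [Fintype X] {α : X → G} {σ : Γ → Equiv.Perm X} {γ' : Γ → X → Γ}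
  {A : Type*} [AddCommGroup A]

omit [Fintype X] in
/-- the two relations between the coset data and its conjugate by `ε`. -/
theorem hi_conj_rel (hι : Function.Injective ι)
    (hrel : ∀ (γ : Γ) (x : X), α x * ι γ = ι (γ' γ x) * α (σ γ x))
    (θ : Γ →* Γ) (ε : G) (hθ : ∀ γ, ι (θ γ) = ε * ι γ * ε⁻¹)
    (τ : Equiv.Perm X) (δ : X → Γ) (hδ : ∀ x, ε * α x * ε⁻¹ = ι (δ x) * α (τ x))
    (huniq : ∀ (a b : Γ) (y z : X), ι a * α y = ι b * α z → y = z) (γ : Γ) (x : X) :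
    σ (θ γ) (τ x) = τ (σ γ x) ∧ δ x * γ' (θ γ) (τ x) = θ (γ' γ x) * δ (σ γ x) := by
  have h1 : ι (δ x * γ' (θ γ) (τ x)) * α (σ (θ γ) (τ x))
      = ι (θ (γ' γ x) * δ (σ γ x)) * α (τ (σ γ x)) := by
    calc ι (δ x * γ' (θ γ) (τ x)) * α (σ (θ γ) (τ x))
        = ι (δ x) * (ι (γ' (θ γ) (τ x)) * α (σ (θ γ) (τ x))) := by rw [map_mul, mul_assoc]
      _ = ι (δ x) * (α (τ x) * ι (θ γ)) := by rw [hrel]
      _ = (ι (δ x) * α (τ x)) * ι (θ γ) := by rw [mul_assoc]
      _ = (ε * α x * ε⁻¹) * (ε * ι γ * ε⁻¹) := by rw [hδ, hθ]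
      _ = ε * (α x * ι γ) * ε⁻¹ := by group
      _ = ε * (ι (γ' γ x) * α (σ γ x)) * ε⁻¹ := by rw [hrel]
      _ = (ε * ι (γ' γ x) * ε⁻¹) * (ε * α (σ γ x) * ε⁻¹) := by group
      _ = ι (θ (γ' γ x)) * (ι (δ (σ γ x)) * α (τ (σ γ x))) := by rw [hθ, hδ]
      _ = ι (θ (γ' γ x) * δ (σ γ x)) * α (τ (σ γ x)) := by rw [map_mul, mul_assoc]
  have h2 : σ (θ γ) (τ x) = τ (σ γ x) := huniq _ _ _ _ h1
  refine ⟨h2, hι ?_⟩
  rw [h2] at h1
  exact mul_right_cancel h1

/-- **abstract form**: the Hecke operator commutes with composition with `θ`. -/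
theorem hlOp_comp_hom (hι : Function.Injective ι)
    (hrel : ∀ (γ : Γ) (x : X), α x * ι γ = ι (γ' γ x) * α (σ γ x))
    (hσ : ∀ (γ δ : Γ) (x : X), σ (γ * δ) x = σ δ (σ γ x))
    (θ : Γ →* Γ) (ε : G) (hθ : ∀ γ, ι (θ γ) = ε * ι γ * ε⁻¹)
    (τ : Equiv.Perm X) (δ : X → Γ) (hδ : ∀ x, ε * α x * ε⁻¹ = ι (δ x) * α (τ x))
    (huniq : ∀ (a b : Γ) (y z : X), ι a * α y = ι b * α z → y = z)
    (φ : Additive Γ →+ A) :
    hlOp hι hrel hσ A (φ.comp (MonoidHom.toAdditive θ))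
      = (hlOp hι hrel hσ A φ).comp (MonoidHom.toAdditive θ) := by
  refine AddMonoidHom.ext fun γ => ?_
  obtain ⟨γ, rfl⟩ := Additive.ofMul.surjective γ
  rw [hlOp_apply, AddMonoidHom.comp_apply]
  show _ = hlOp hι hrel hσ A φ (Additive.ofMul (θ γ))
  rw [hlOp_apply]
  have key : ∀ x, φ (Additive.ofMul (θ (γ' γ x)))
      = φ (Additive.ofMul (δ x)) + φ (Additive.ofMul (γ' (θ γ) (τ x)))
        - φ (Additive.ofMul (δ (σ γ x))) := by
    intro x
    have h := (hi_conj_rel hι hrel θ ε hθ τ δ hδ huniq γ x).2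
    have h' := congrArg (fun g => φ (Additive.ofMul g)) h
    simp only [ofMul_mul, map_add] at h'
    rw [h']
    abel
  calc ∑ x, (φ.comp (MonoidHom.toAdditive θ)) (Additive.ofMul (γ' γ x))
      = ∑ x, φ (Additive.ofMul (θ (γ' γ x))) := rfl
    _ = ∑ x, (φ (Additive.ofMul (δ x)) + φ (Additive.ofMul (γ' (θ γ) (τ x)))
        - φ (Additive.ofMul (δ (σ γ x)))) := Finset.sum_congr rfl fun x _ => key x
    _ = ∑ x, φ (Additive.ofMul (δ x)) + ∑ x, φ (Additive.ofMul (γ' (θ γ) (τ x)))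
        - ∑ x, φ (Additive.ofMul (δ (σ γ x))) := by
      rw [Finset.sum_sub_distrib, Finset.sum_add_distrib]
    _ = ∑ x, φ (Additive.ofMul (γ' (θ γ) x)) := by
      rw [Equiv.sum_comp (σ γ) (fun x => φ (Additive.ofMul (δ x))),
        Equiv.sum_comp τ (fun x => φ (Additive.ofMul (γ' (θ γ) x)))]
      abel

end Abstract

section Concrete

/-- `ε = diag(1, -1)`. -/
def hiEps : GL (Fin 2) ℝ :=
  Matrix.GeneralLinearGroup.mkOfDetNeZero !![1, 0; 0, -1] (by
    rw [Matrix.det_fin_two_of]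
    norm_num)

theorem hiEps_val : ((hiEps : GL (Fin 2) ℝ) : Matrix (Fin 2) (Fin 2) ℝ) = !![1, 0; 0, -1] := rfl

/-- conjugation by `ε` is `jConj`. -/
theorem hi_theta (N : ℕ) (γ : Gamma0 N) :
    gamma0Hom N (jConjGamma0 N γ) = hiEps * gamma0Hom N γ * hiEps⁻¹ := by
  rw [eq_mul_inv_iff_mul_eq]
  apply Units.ext
  rw [Units.val_mul, Units.val_mul, hiEps_val, gamma0Hom_apply, gamma0Hom_apply]
  ext i j
  fin_cases i <;> fin_cases j <;>
    simp [Matrix.mul_apply, Fin.sum_univ_two, jConjMat]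

/-- the translation `[[1, -1], [0, 1]]` in `SL(2, ℤ)`. -/
def hiTransSL : SL(2, ℤ) :=
  ⟨!![1, -1; 0, 1], by rw [Matrix.det_fin_two_of]; norm_num⟩

theorem hiTransSL_val : ((hiTransSL : SL(2, ℤ)) : Matrix (Fin 2) (Fin 2) ℤ) = !![1, -1; 0, 1] :=
  rfl

/-- the translation `[[1, -1], [0, 1]]` in `Γ₀(N)`. -/
def hiTrans (N : ℕ) : Gamma0 N :=
  ⟨hiTransSL, by
    rw [Gamma0_mem, hiTransSL_val]
    simp⟩

theorem hiTrans_val (N : ℕ) :
    (((hiTrans N : Gamma0 N) : SL(2, ℤ)) : Matrix (Fin 2) (Fin 2) ℤ) = !![1, -1; 0, 1] := rfl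

/-- `δ_j` for `j : ZMod p`. -/
def hiDelta (N : ℕ) {p : ℕ} (j : ZMod p) : Gamma0 N :=
  if j = 0 then 1 else hiTrans N

/-- the key matrix identity `ε α_j = δ_j α_{-j} ε`. -/
theorem hi_heckeMatrix (N : ℕ) {p : ℕ} [NeZero p] (j : ZMod p) :
    hiEps * heckeMatrix p j.val * hiEps⁻¹
      = gamma0Hom N (hiDelta N j) * heckeMatrix p (-j).val := by
  have hp : p ≠ 0 := NeZero.ne p
  rw [mul_inv_eq_iff_eq_mul]
  apply Units.ext
  rw [Units.val_mul, Units.val_mul, Units.val_mul, hiEps_val, gamma0Hom_apply,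
    val_heckeMatrix hp, val_heckeMatrix hp]
  by_cases hj : j = 0
  · subst hj
    rw [hiDelta, if_pos rfl, neg_zero, ZMod.val_zero]
    ext i k
    fin_cases i <;> fin_cases k <;>
      simp [Matrix.mul_apply, Fin.sum_univ_two]
  · rw [hiDelta, if_neg hj]
    have hval : (((-j).val : ℕ) : ℝ) = (p : ℝ) - (j.val : ℝ) := by
      rw [ZMod.neg_val, if_neg hj, Nat.cast_sub (ZMod.val_lt j).le]
    rw [hval]
    ext i k
    fin_cases i <;> fin_cases k <;>
      simp [Matrix.mul_apply, Fin.sum_univ_two, hiTrans_val]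

/-- uniqueness of the coset representative, affine part. -/
theorem hi_uniq_heckeMatrix {p : ℕ} [NeZero p] (g : SL(2, ℤ)) (y z : ZMod p)
    (h : heckeMatrix p y.val = mapGL ℝ g * heckeMatrix p z.val) : y = z := by
  have hp : p ≠ 0 := NeZero.ne p
  have h' := congrArg (fun M : GL (Fin 2) ℝ => (M : Matrix (Fin 2) (Fin 2) ℝ)) h
  simp only [Units.val_mul, val_heckeMatrix hp] at h'
  have h00 := congrFun (congrFun h' 0) 0
  have h01 := congrFun (congrFun h' 0) 1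
  simp [Matrix.mul_apply, Fin.sum_univ_two, -ZMod.natCast_val] at h00 h01
  have h01' : (y.val : ℤ) = z.val + g 0 1 * p := by
    have : ((y.val : ℤ) : ℝ) = ((z.val + g 0 1 * p : ℤ) : ℝ) := by
      push_cast
      rw [h01, ← h00, one_mul]
    exact_mod_cast this
  have := congrArg (Int.cast : ℤ → ZMod p) h01'
  push_cast at this
  rwa [ZMod.natCast_zmod_val, ZMod.natCast_zmod_val, ZMod.natCast_self, mul_zero, add_zero]
    at this

/-- uniqueness of the coset representative: `α_j ≠ g α_∞`. -/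
theorem hi_heckeMatrix_ne {p : ℕ} (hp : p.Prime) (g : SL(2, ℤ)) (y : ℕ)
    (h : heckeMatrix p y = mapGL ℝ g * heckeDiagMatrix p) : False := by
  have hp0 : p ≠ 0 := hp.ne_zero
  have h' := congrArg (fun M : GL (Fin 2) ℝ => (M : Matrix (Fin 2) (Fin 2) ℝ)) h
  simp only [Units.val_mul, val_heckeMatrix hp0, val_heckeDiagMatrix hp0] at h'
  have h00 := congrFun (congrFun h' 0) 0
  simp [Matrix.mul_apply, Fin.sum_univ_two] at h00
  have h1 : (1 : ℤ) = g 0 0 * p := by exact_mod_cast h00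
  have h2 : (p : ℤ) ∣ 1 := ⟨g 0 0, h1.trans (mul_comm _ _)⟩
  have h3 : p ∣ 1 := by exact_mod_cast h2
  exact hp.one_lt.ne' (Nat.dvd_one.mp h3)

/-- uniqueness of the coset representative: `α_∞ ≠ g α_j`. -/
theorem hi_heckeDiagMatrix_ne {p : ℕ} (hp : p.Prime) (g : SL(2, ℤ)) (z : ℕ)
    (h : heckeDiagMatrix p = mapGL ℝ g * heckeMatrix p z) : False := by
  have hp0 : p ≠ 0 := hp.ne_zero
  have h' := congrArg (fun M : GL (Fin 2) ℝ => (M : Matrix (Fin 2) (Fin 2) ℝ)) h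
  simp only [Units.val_mul, val_heckeMatrix hp0, val_heckeDiagMatrix hp0] at h'
  have h00 := congrFun (congrFun h' 0) 0
  have h10 := congrFun (congrFun h' 1) 0
  simp [Matrix.mul_apply, Fin.sum_univ_two] at h00 h10
  have h1 : (p : ℤ) = g 0 0 := by exact_mod_cast h00
  have h2 : g 1 0 = 0 := by exact_mod_cast h10.symm
  have hdet := det_eq g
  rw [h2, mul_zero, sub_zero, ← h1] at hdet
  have h3 : (p : ℤ) ∣ 1 := ⟨g 1 1, hdet.symm⟩
  have h4 : p ∣ 1 := by exact_mod_cast h3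
  exact hp.one_lt.ne' (Nat.dvd_one.mp h4)

variable {N : ℕ}

/-- `ι a * α = ι b * β` means `α = ι (a⁻¹ b) * β`. -/
theorem hi_move (a b : Gamma0 N) {u v : GL (Fin 2) ℝ}
    (h : gamma0Hom N a * u = gamma0Hom N b * v) :
    u = mapGL ℝ (((a⁻¹ * b : Gamma0 N) : Gamma0 N) : SL(2, ℤ)) * v := by
  rw [← gamma0Hom_apply, map_mul, map_inv, mul_assoc, ← h, inv_mul_cancel_left]

/-- `U_p` commutes with the involution. -/
theorem heckeHomU_comp_jConj {p : ℕ} [NeZero p] (hpN : p ∣ N) (A : Type*) [AddCommGroup A]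
    (ψ : Additive (Gamma0 N) →+ A) :
    heckeHomU N hpN A (ψ.comp (MonoidHom.toAdditive (jConjGamma0 N)))
      = (heckeHomU N hpN A ψ).comp (MonoidHom.toAdditive (jConjGamma0 N)) :=
  hlOp_comp_hom (gamma0Hom_injective N) (relU hpN) (sigmaU_mul hpN) (jConjGamma0 N) hiEps
    (hi_theta N) (Equiv.neg (ZMod p)) (hiDelta N) (fun x => hi_heckeMatrix N x)
    (fun a b y z h => hi_uniq_heckeMatrix _ y z (hi_move a b h)) ψ

/-- the permutation `j ↦ -j`, `∞ ↦ ∞` of `ℙ¹(𝔽_p)`. -/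
def hiTau (p : ℕ) : Equiv.Perm (OnePoint (ZMod p)) where
  toFun x := x.elim OnePoint.infty (fun j => ((-j : ZMod p) : OnePoint (ZMod p)))
  invFun x := x.elim OnePoint.infty (fun j => ((-j : ZMod p) : OnePoint (ZMod p)))
  left_inv x := by
    induction x using OnePoint.rec with
    | infty => rfl
    | coe j => show (((- -j : ZMod p)) : OnePoint (ZMod p)) = j; rw [neg_neg]
  right_inv x := by
    induction x using OnePoint.rec with
    | infty => rfl
    | coe j => show (((- -j : ZMod p)) : OnePoint (ZMod p)) = j; rw [neg_neg]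

theorem hiTau_infty (p : ℕ) : hiTau p OnePoint.infty = OnePoint.infty := rfl

theorem hiTau_coe (p : ℕ) (j : ZMod p) : hiTau p (j : OnePoint (ZMod p)) = ((-j : ZMod p)) := rfl

/-- `δ_x` for `x ∈ ℙ¹(𝔽_p)`. -/
def hiDeltaT (N : ℕ) {p : ℕ} (x : OnePoint (ZMod p)) : Gamma0 N :=
  x.elim 1 (hiDelta N)

theorem hi_heckeRep (N : ℕ) {p : ℕ} [NeZero p] (x : OnePoint (ZMod p)) :
    hiEps * heckeRep p x * hiEps⁻¹ = gamma0Hom N (hiDeltaT N x) * heckeRep p (hiTau p x) := by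
  induction x using OnePoint.rec with
  | infty =>
    have hp : p ≠ 0 := NeZero.ne p
    show hiEps * heckeDiagMatrix p * hiEps⁻¹ = gamma0Hom N 1 * heckeDiagMatrix p
    rw [map_one, one_mul, mul_inv_eq_iff_eq_mul]
    apply Units.ext
    rw [Units.val_mul, Units.val_mul, hiEps_val, val_heckeDiagMatrix hp]
    ext i k
    fin_cases i <;> fin_cases k <;>
      simp [Matrix.mul_apply, Fin.sum_univ_two]
  | coe j => exact hi_heckeMatrix N j

theorem hi_uniq_heckeRep {p : ℕ} [Fact p.Prime] (g : SL(2, ℤ)) (y z : OnePoint (ZMod p))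
    (h : heckeRep p y = mapGL ℝ g * heckeRep p z) : y = z := by
  have hp : p.Prime := Fact.out
  induction y using OnePoint.rec with
  | infty =>
    induction z using OnePoint.rec with
    | infty => rfl
    | coe z => exact (hi_heckeDiagMatrix_ne hp g _ h).elim
  | coe y =>
    induction z using OnePoint.rec with
    | infty => exact (hi_heckeMatrix_ne hp g _ h).elim
    | coe z =>
      have : y = z := hi_uniq_heckeMatrix g y z h
      rw [this]

/-- `T_p` commutes with the involution. -/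
theorem heckeHomT_comp_jConj {p : ℕ} [Fact p.Prime] (hpN : ¬ p ∣ N) (A : Type*) [AddCommGroup A]
    (ψ : Additive (Gamma0 N) →+ A) :
    heckeHomT N hpN A (ψ.comp (MonoidHom.toAdditive (jConjGamma0 N)))
      = (heckeHomT N hpN A ψ).comp (MonoidHom.toAdditive (jConjGamma0 N)) :=
  hlOp_comp_hom (gamma0Hom_injective N) (relT hpN) sigmaT_mul (jConjGamma0 N) hiEps
    (hi_theta N) (hiTau p) (hiDeltaT N) (fun x => hi_heckeRep N x)
    (fun a b y z h => hi_uniq_heckeRep _ y z (hi_move a b h)) ψ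

/-- the Hecke operators commute with the involution `ψ ↦ ψ ∘ jConj`. -/
theorem heckeHom_comp_jConj (ℓ : Nat.Primes) (A : Type*) [AddCommGroup A]
    (ψ : Additive (Gamma0 N) →+ A) :
    heckeHom N ℓ A (ψ.comp (MonoidHom.toAdditive (jConjGamma0 N)))
      = (heckeHom N ℓ A ψ).comp (MonoidHom.toAdditive (jConjGamma0 N)) := by
  by_cases h : (ℓ : ℕ) ∣ N
  · have : NeZero (ℓ : ℕ) := ⟨ℓ.2.ne_zero⟩
    rw [heckeHom_of_dvd h]
    exact heckeHomU_comp_jConj h A ψ
  · have : Fact (ℓ : ℕ).Prime := ⟨ℓ.2⟩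
    rw [heckeHom_of_not_dvd h]
    exact heckeHomT_comp_jConj h A ψ

/-- **72/J3 (b2)**: `heckeHom` commutes with `charInvolution`. -/
theorem heckeHom_charInvolution (N : ℕ) [NeZero N] (ℓ : Nat.Primes)
    (ψ : Additive (Gamma0 N) →+ ℂ) :
    heckeHom N ℓ ℂ (ModularCurve.Period.charInvolution N ℂ ℂ ψ)
      = ModularCurve.Period.charInvolution N ℂ ℂ (heckeHom N ℓ ℂ ψ) :=
  heckeHom_comp_jConj ℓ ℂ ψ

end Concrete

end

end Fermat.Agent.GalRep
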