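import Mathlib
import Fermat.Agent.GalRep.EigenMultAux
import Fermat.Agent.GalRep.HeckeInvol
import Fermat.Agent.GalRep.EigenOne
import Fermat.Agent.GalRep.EigenDescent
import Fermat.Agent.S22

/-!
# Item 72, piece J3: ES-H multiplicity two

`finrank_eigenSub_heckeLat`: for every character `χ` of the full Hecke algebra of weight 2 and
level `N` with values in a field `K` of characteristic zero, the simultaneous eigenspace of the
Hecke operators `heckeLat N ℓ` in `K ⊗ H¹_par(Γ₀(N), ℤ)` with eigenvalues `χ (T_ℓ)` has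
dimension 2.

Assembly of: (a) `HeckeLatBC`, (b1) `HeckePeriod`, (b2) `HeckeInvol` (helper16),
(c) `EigenOne` (helper8), (d) `EigenDescent` (helper8), (e1) `EigenMultAux`, S21, S22.
-/

set_option autoImplicit false

open CongruenceSubgroup ModularCurve ModularCurve.Period
open scoped MatrixGroups TensorProduct

namespace Fermat.Agent.GalRep

variable (N : ℕ) [NeZero N]

/-- (b2) in the form used by `EigenMultAux`. -/
theorem heckeInvolStatement : HeckeInvolStatement N :=
  fun ℓ ψ => heckeHom_charInvolution N ℓ ψ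

/-- the eigenspace for the generators is the eigenspace for the character. -/
theorem emEig_eq_eigenForms (lam : CuspForm.heckeAlgebra N 2 (∅ : Set ℕ) →+* ℂ) :
    emEig N (fun ℓ => lam (CuspForm.heckeEvalForms N 2 (ModularCurve.heckeGen ℓ)))
      = eigenForms N lam := by
  ext f
  rw [mem_emEig_iff]
  constructor
  · intro h
    refine eo_mem_eigenForms_of_gen N lam f (fun ℓ hℓ hℓN => ?_) (fun q hq hqN => ?_)
    · have := h ⟨ℓ, hℓ⟩
      rw [CuspForm.heckeEvalForms_heckeGen_of_not_dvd (N := N) (k := 2) (ℓ := ⟨ℓ, hℓ⟩) hℓN,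
        CuspForm.heckeFormsGen_of_not_dvd (N := N) (k := 2) (ℓ := ⟨ℓ, hℓ⟩) hℓN] at this
      exact this
    · have := h ⟨q, hq⟩
      rw [CuspForm.heckeEvalForms_heckeGen_of_dvd (N := N) (k := 2) (q := ⟨q, hq⟩) hqN,
        CuspForm.heckeFormsGen_of_dvd (N := N) (k := 2) (q := ⟨q, hq⟩) hqN] at this
      exact this
  · intro h ℓ
    rw [CuspForm.heckeEvalForms_heckeGen]
    exact h _

/-- multiplicity two over `ℂ`. -/
theorem finrank_eigenSub_heckeLat_complex
    (lam : CuspForm.heckeAlgebra N 2 (∅ : Set ℕ) →+* ℂ) :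
    Module.finrank ℂ (eigenSub ℂ (heckeLat N)
      (fun ℓ => lam (CuspForm.heckeEvalForms N 2 (ModularCurve.heckeGen ℓ)))) = 2 := by
  refine finrank_eigenSub_complex_of N (heckeInvolStatement N) _ ?_
  rw [emEig_eq_eigenForms]
  exact finrank_eigenForms N lam

/-- **72/J3 (ES-H multiplicity)**. -/
theorem finrank_eigenSub_heckeLat (N : ℕ) [NeZero N] (K : Type) [Field K] [CharZero K]
    (χ : CuspForm.heckeAlgebra N 2 (∅ : Set ℕ) →+* K) :
    Module.finrank K (eigenSub K (heckeLat N)
      (fun ℓ => χ (CuspForm.heckeEvalForms N 2 (ModularCurve.heckeGen ℓ)))) = 2 := by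
  have : Module.Finite ℤ (CuspForm.heckeAlgebra N 2 (∅ : Set ℕ)) :=
    Fermat.Agent.S22.result N 2 ∅
  exact finrank_eigenSub_of_complex (heckeLat N)
    (fun ℓ => CuspForm.heckeEvalForms N 2 (ModularCurve.heckeGen ℓ)) 2
    (fun lam => finrank_eigenSub_heckeLat_complex N lam) χ

end Fermat.Agent.GalRep
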