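import Mathlib
import Fermat.Agent.GalRep.EigenMult

/-!
# Item 72/76: a Hecke-equivariant embedding `S₂(Γ₀(N)) ↪ ℂ ⊗ H¹_par(Γ₀(N), ℤ)`

`exists_faithEmb_heckeLat`: the statement `FaithEmb` of `S31lib/Defs.lean` for the lattice
`Λ = HLat N` with the operators `heckeLat N`.  Also the version for all primes
(`exists_faithEmb_heckeLat_all`, with `U_q` at the primes dividing the level).
-/

set_option autoImplicit false

open CongruenceSubgroup ModularCurve ModularCurve.Period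
open scoped MatrixGroups TensorProduct

namespace Fermat.Agent.GalRep

noncomputable section

variable (N : ℕ) [NeZero N]

/-- the embedding `f ↦ (1 + ι) (periodMap f)` of `S₂(Γ₀(N))` in `ℂ ⊗ HLat N`. -/
def faithEmbLat : CuspForm (Gamma0 N) 2 →ₗ[ℂ] (ℂ ⊗[ℤ] HLat N) :=
  ((hlBCEquiv N).symm.toLinearMap ∘ₗ emES N) ∘ₗ
    LinearMap.inl ℂ (CuspForm (Gamma0 N) 2) (CuspForm (Gamma0 N) 2)

theorem hlBC_faithEmbLat (g : CuspForm (Gamma0 N) 2) :
    hlBC N (faithEmbLat N g) = emES N (g, 0) :=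
  (hlBCEquiv N).apply_symm_apply _

theorem faithEmbLat_injective : Function.Injective (faithEmbLat N) := by
  intro x y h
  have h1 := congrArg (hlBC N) h
  rw [hlBC_faithEmbLat, hlBC_faithEmbLat] at h1
  exact congrArg Prod.fst (emES_injective N h1)

/-- Hecke-equivariance at all primes (`U_q` at the primes dividing `N`). -/
theorem faithEmbLat_hecke (ℓ : Nat.Primes) (g : CuspForm (Gamma0 N) 2) :
    faithEmbLat N ((CuspForm.heckeFormsGen N 2 ℓ : Module.End ℂ (CuspForm (Gamma0 N) 2)) g)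
      = (heckeLat N ℓ).baseChange ℂ (faithEmbLat N g) := by
  apply hlBC_injective N
  rw [hlBC_hecke, hlBC_faithEmbLat, hlBC_faithEmbLat, emES_hecke N (heckeInvolStatement N),
    map_zero]

theorem exists_faithEmb_heckeLat_all :
    ∃ f : CuspForm (Gamma0 N) 2 →ₗ[ℂ] (ℂ ⊗[ℤ] HLat N), Function.Injective f ∧
      ∀ (ℓ : Nat.Primes) (g : CuspForm (Gamma0 N) 2),
        f ((CuspForm.heckeFormsGen N 2 ℓ : Module.End ℂ (CuspForm (Gamma0 N) 2)) g)
          = (heckeLat N ℓ).baseChange ℂ (f g) :=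
  ⟨faithEmbLat N, faithEmbLat_injective N, faithEmbLat_hecke N⟩

/-- `FaithEmb` (S31lib) for `Λ = HLat N`, `T = heckeLat N`. -/
theorem exists_faithEmb_heckeLat :
    ∃ f : CuspForm (Gamma0 N) 2 →ₗ[ℂ] (ℂ ⊗[ℤ] HLat N), Function.Injective f ∧
      ∀ (ℓ : ℕ) (hℓ : ℓ.Prime) (hℓN : ¬ ℓ ∣ N) (g : CuspForm (Gamma0 N) 2),
        f (CuspForm.heckeTLin 2 hℓ hℓN g) = (heckeLat N ⟨ℓ, hℓ⟩).baseChange ℂ (f g) := by
  refine ⟨faithEmbLat N, faithEmbLat_injective N, fun ℓ hℓ hℓN g => ?_⟩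
  rw [← faithEmbLat_hecke N ⟨ℓ, hℓ⟩ g,
    CuspForm.heckeFormsGen_of_not_dvd (N := N) (k := 2) (ℓ := ⟨ℓ, hℓ⟩) hℓN,
    CuspForm.heckeAlgebra.coe_T]

end

end Fermat.Agent.GalRep
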