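import Mathlib
import Fermat.Agent.GalRep.HeckeInvol

/-!
# Item 72 / 69 (Layer E): the transposed Hecke operators on `Hom(Γ₀(N), A)`

Under the Kummer isomorphism the Hecke operator `α_* ∘ β^*` on `J₀(N)[n]` becomes the operator of
the double coset `Γ₀(N) · diag(ℓ,1) · Γ₀(N)` on characters of `Γ₀(N)`.  The operators
`heckeHom N ℓ` of `HeckeLat.lean` belong to the double coset of `diag(1,ℓ)`; the two are
conjugate under the Fricke involution `γ ↦ W γ W⁻¹`, `W = [[0,-1],[N,0]]`.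

* `hlOp_comp_hom₂`: the abstract comparison of the operators of two systems of coset data.
* `frickeGamma0 N : Gamma0 N →* Gamma0 N`, `frickeHom N A`: the Fricke involution.
* `heckeHomTr N ℓ A := frickeHom ∘ heckeHom N ℓ A ∘ frickeHom`: the transposed operator.
* `hlOp_eq_heckeHomTr`: for ANY coset data `(Y, β, σ, γ')` whose representatives `β y` are of the
  form `diag(ℓ,1) · δ`, complete and irredundant, `hlOp = heckeHomTr N ℓ A`.
-/

set_option autoImplicit false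

open Fermat.Agent.S22lib CongruenceSubgroup ModularCurve.Period Matrix.SpecialLinearGroup ModularForm
open P2MW.S_ModularForm_heckeT_slash_eq_self_of_mem_Gamma0.ModularForm.HeckeSlashInvariance
open scoped MatrixGroups

namespace Fermat.Agent.GalRep

noncomputable section

section Abstract

variable {G : Type*} [Group G] {Γ : Type*} [Group Γ] {ι : Γ →* G}
  {X : Type*} [Fintype X] {α : X → G} {σ : Γ → Equiv.Perm X} {γ' : Γ → X → Γ}
  {Y : Type*} [Fintype Y] {β : Y → G} {σ₂ : Γ → Equiv.Perm Y} {γ₂ : Γ → Y → Γ}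
  {A : Type*} [AddCommGroup A]

omit [Fintype X] [Fintype Y] in
/-- the relations between two systems of coset data, the second conjugate to the first by `ε`. -/
theorem hlt_conj_rel (hι : Function.Injective ι)
    (hrel : ∀ (γ : Γ) (x : X), α x * ι γ = ι (γ' γ x) * α (σ γ x))
    (hrel₂ : ∀ (γ : Γ) (y : Y), β y * ι γ = ι (γ₂ γ y) * β (σ₂ γ y))
    (θ : Γ →* Γ) (ε : G) (hθ : ∀ γ, ι (θ γ) = ε * ι γ * ε⁻¹)
    (τ : X → Y) (δ : X → Γ) (hδ : ∀ x, ε * α x * ε⁻¹ = ι (δ x) * β (τ x))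
    (huniq : ∀ (a b : Γ) (y z : Y), ι a * β y = ι b * β z → y = z) (γ : Γ) (x : X) :
    σ₂ (θ γ) (τ x) = τ (σ γ x) ∧ δ x * γ₂ (θ γ) (τ x) = θ (γ' γ x) * δ (σ γ x) := by
  have h1 : ι (δ x * γ₂ (θ γ) (τ x)) * β (σ₂ (θ γ) (τ x))
      = ι (θ (γ' γ x) * δ (σ γ x)) * β (τ (σ γ x)) := by
    calc ι (δ x * γ₂ (θ γ) (τ x)) * β (σ₂ (θ γ) (τ x))
        = ι (δ x) * (ι (γ₂ (θ γ) (τ x)) * β (σ₂ (θ γ) (τ x))) := by rw [map_mul, mul_assoc]
      _ = ι (δ x) * (β (τ x) * ι (θ γ)) := by rw [hrel₂]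
      _ = (ι (δ x) * β (τ x)) * ι (θ γ) := by rw [mul_assoc]
      _ = (ε * α x * ε⁻¹) * (ε * ι γ * ε⁻¹) := by rw [hδ, hθ]
      _ = ε * (α x * ι γ) * ε⁻¹ := by group
      _ = ε * (ι (γ' γ x) * α (σ γ x)) * ε⁻¹ := by rw [hrel]
      _ = (ε * ι (γ' γ x) * ε⁻¹) * (ε * α (σ γ x) * ε⁻¹) := by group
      _ = ι (θ (γ' γ x)) * (ι (δ (σ γ x)) * β (τ (σ γ x))) := by rw [hθ, hδ]
      _ = ι (θ (γ' γ x) * δ (σ γ x)) * β (τ (σ γ x)) := by rw [map_mul, mul_assoc]
  have h2 : σ₂ (θ γ) (τ x) = τ (σ γ x) := huniq _ _ _ _ h1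
  refine ⟨h2, hι ?_⟩
  rw [h2] at h1
  exact mul_right_cancel h1

/-- **abstract comparison**: if the representatives `β` are, up to `Γ` and a bijection, the
conjugates by `ε` of the representatives `α`, the two Hecke operators are intertwined by `θ`. -/
theorem hlOp_comp_hom₂ (hι : Function.Injective ι)
    (hrel : ∀ (γ : Γ) (x : X), α x * ι γ = ι (γ' γ x) * α (σ γ x))
    (hσ : ∀ (γ δ : Γ) (x : X), σ (γ * δ) x = σ δ (σ γ x))
    (hrel₂ : ∀ (γ : Γ) (y : Y), β y * ι γ = ι (γ₂ γ y) * β (σ₂ γ y))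
    (hσ₂ : ∀ (γ δ : Γ) (y : Y), σ₂ (γ * δ) y = σ₂ δ (σ₂ γ y))
    (θ : Γ →* Γ) (ε : G) (hθ : ∀ γ, ι (θ γ) = ε * ι γ * ε⁻¹)
    (τ : X ≃ Y) (δ : X → Γ) (hδ : ∀ x, ε * α x * ε⁻¹ = ι (δ x) * β (τ x))
    (huniq : ∀ (a b : Γ) (y z : Y), ι a * β y = ι b * β z → y = z)
    (φ : Additive Γ →+ A) :
    hlOp hι hrel hσ A (φ.comp (MonoidHom.toAdditive θ))
      = (hlOp hι hrel₂ hσ₂ A φ).comp (MonoidHom.toAdditive θ) := by
  refine AddMonoidHom.ext fun γ => ?_
  obtain ⟨γ, rfl⟩ := Additive.ofMul.surjective γ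
  rw [hlOp_apply, AddMonoidHom.comp_apply]
  show _ = hlOp hι hrel₂ hσ₂ A φ (Additive.ofMul (θ γ))
  rw [hlOp_apply]
  have key : ∀ x, φ (Additive.ofMul (θ (γ' γ x)))
      = φ (Additive.ofMul (δ x)) + φ (Additive.ofMul (γ₂ (θ γ) (τ x)))
        - φ (Additive.ofMul (δ (σ γ x))) := by
    intro x
    have h := (hlt_conj_rel hι hrel hrel₂ θ ε hθ τ δ hδ huniq γ x).2
    have h' := congrArg (fun g => φ (Additive.ofMul g)) h
    simp only [ofMul_mul, map_add] at h'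
    rw [h']
    abel
  calc ∑ x, (φ.comp (MonoidHom.toAdditive θ)) (Additive.ofMul (γ' γ x))
      = ∑ x, φ (Additive.ofMul (θ (γ' γ x))) := rfl
    _ = ∑ x, (φ (Additive.ofMul (δ x)) + φ (Additive.ofMul (γ₂ (θ γ) (τ x)))
        - φ (Additive.ofMul (δ (σ γ x)))) := Finset.sum_congr rfl fun x _ => key x
    _ = ∑ x, φ (Additive.ofMul (δ x)) + ∑ x, φ (Additive.ofMul (γ₂ (θ γ) (τ x)))
        - ∑ x, φ (Additive.ofMul (δ (σ γ x))) := by
      rw [Finset.sum_sub_distrib, Finset.sum_add_distrib]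
    _ = ∑ y, φ (Additive.ofMul (γ₂ (θ γ) y)) := by
      rw [Equiv.sum_comp (σ γ) (fun x => φ (Additive.ofMul (δ x))),
        Equiv.sum_comp τ (fun y => φ (Additive.ofMul (γ₂ (θ γ) y)))]
      abel

omit [Fintype Y] in
/-- the anti-homomorphism property of `σ` follows from the relation and uniqueness. -/
theorem hlt_sigma_mul (hrel₂ : ∀ (γ : Γ) (y : Y), β y * ι γ = ι (γ₂ γ y) * β (σ₂ γ y))
    (huniq : ∀ (a b : Γ) (y z : Y), ι a * β y = ι b * β z → y = z) (γ δ : Γ) (y : Y) :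
    σ₂ (γ * δ) y = σ₂ δ (σ₂ γ y) := by
  refine huniq (γ₂ (γ * δ) y) (γ₂ γ y * γ₂ δ (σ₂ γ y)) _ _ ?_
  calc ι (γ₂ (γ * δ) y) * β (σ₂ (γ * δ) y) = β y * ι (γ * δ) := (hrel₂ _ _).symm
    _ = (β y * ι γ) * ι δ := by rw [map_mul, mul_assoc]
    _ = ι (γ₂ γ y) * (β (σ₂ γ y) * ι δ) := by rw [hrel₂, mul_assoc]
    _ = ι (γ₂ γ y * γ₂ δ (σ₂ γ y)) * β (σ₂ δ (σ₂ γ y)) := by rw [hrel₂, map_mul, mul_assoc]

omit [Fintype X] [Fintype Y] in
/-- construction of the bijection between two systems of representatives of conjugate double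
cosets. `D` is the base element of the second double coset. -/
theorem hlt_exists_equiv (hrel : ∀ (γ : Γ) (x : X), α x * ι γ = ι (γ' γ x) * α (σ γ x))
    (θ : Γ →* Γ) (ε : G) (hθ : ∀ γ, ι (θ γ) = ε * ι γ * ε⁻¹) (hθθ : ∀ γ, θ (θ γ) = γ)
    (D : G) (x₀ : X) (hx₀ : ε * α x₀ * ε⁻¹ = D)
    (hα : ∀ x, ∃ a d : Γ, ε * α x * ε⁻¹ = ι a * D * ι d)
    (hβ : ∀ y, ∃ d : Γ, β y = D * ι d)
    (hcompl : ∀ d : Γ, ∃ y, ∃ d' : Γ, D * ι d = ι d' * β y)
    (huniqα : ∀ (a b : Γ) (y z : X), ι a * α y = ι b * α z → y = z)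
    (huniq : ∀ (a b : Γ) (y z : Y), ι a * β y = ι b * β z → y = z) :
    ∃ (τ : X ≃ Y) (δ : X → Γ), ∀ x, ε * α x * ε⁻¹ = ι (δ x) * β (τ x) := by
  have hex : ∀ x, ∃ y, ∃ δ : Γ, ε * α x * ε⁻¹ = ι δ * β y := by
    intro x
    obtain ⟨a, d, h⟩ := hα x
    obtain ⟨y, d', h'⟩ := hcompl d
    exact ⟨y, a * d', by rw [h, mul_assoc, h', map_mul, mul_assoc]⟩
  choose τ δ hδ using hex
  have hθ' : ∀ g : Γ, ε⁻¹ * ι g * ε = ι (θ g) := by
    intro g
    have := hθ (θ g)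
    rw [hθθ] at this
    rw [this]
    group
  have hinj : Function.Injective τ := by
    intro x x' hxx
    have h1 := hδ x
    have h2 := hδ x'
    rw [hxx] at h1
    refine huniqα (θ (δ x)⁻¹) (θ (δ x')⁻¹) x x' ?_
    have e1 : α x = ε⁻¹ * (ι (δ x) * β (τ x')) * ε := by rw [← h1]; group
    have e2 : α x' = ε⁻¹ * (ι (δ x') * β (τ x')) * ε := by rw [← h2]; group
    rw [← hθ', ← hθ', e1, e2, map_inv, map_inv]
    group
  have hsurj : Function.Surjective τ := by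
    intro y
    obtain ⟨d, hd⟩ := hβ y
    refine ⟨σ (θ d) x₀, ?_⟩
    refine (huniq 1 (θ (γ' (θ d) x₀) * δ (σ (θ d) x₀)) y _ ?_).symm
    have e1 : ι d = ε * ι (θ d) * ε⁻¹ := by rw [← hθ, hθθ]
    calc ι 1 * β y = D * ι d := by rw [map_one, one_mul, hd]
      _ = (ε * α x₀ * ε⁻¹) * (ε * ι (θ d) * ε⁻¹) := by rw [hx₀, ← e1]
      _ = ε * (α x₀ * ι (θ d)) * ε⁻¹ := by group
      _ = ε * (ι (γ' (θ d) x₀) * α (σ (θ d) x₀)) * ε⁻¹ := by rw [hrel]
      _ = (ε * ι (γ' (θ d) x₀) * ε⁻¹) * (ε * α (σ (θ d) x₀) * ε⁻¹) := by group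
      _ = ι (θ (γ' (θ d) x₀)) * (ι (δ (σ (θ d) x₀)) * β (τ (σ (θ d) x₀))) := by rw [← hθ, hδ]
      _ = ι (θ (γ' (θ d) x₀) * δ (σ (θ d) x₀)) * β (τ (σ (θ d) x₀)) := by
        rw [map_mul, mul_assoc]
  exact ⟨Equiv.ofBijective τ ⟨hinj, hsurj⟩, δ, hδ⟩

end Abstract

section Fricke

variable (N : ℕ) [NeZero N]

/-- the Fricke matrix `W = [[0,-1],[N,0]]`. -/
def hltW : GL (Fin 2) ℝ :=
  Matrix.GeneralLinearGroup.mkOfDetNeZero !![0, -1; (N : ℝ), 0] (by
    rw [Matrix.det_fin_two_of]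
    have : (N : ℝ) ≠ 0 := Nat.cast_ne_zero.mpr (NeZero.ne N)
    simpa using this)

theorem hltW_val : ((hltW N : GL (Fin 2) ℝ) : Matrix (Fin 2) (Fin 2) ℝ) = !![0, -1; (N : ℝ), 0] :=
  rfl

/-- `W γ W⁻¹ = [[d, -c/N], [-N b, a]]` in `SL(2,ℤ)`. -/
def frickeSL (γ : Gamma0 N) : SL(2, ℤ) :=
  ⟨!![(γ : SL(2, ℤ)) 1 1, -((γ : SL(2, ℤ)) 1 0 / N); -(N * (γ : SL(2, ℤ)) 0 1),
      (γ : SL(2, ℤ)) 0 0], by
    rw [Matrix.det_fin_two_of]
    have hdet := det_eq (γ : SL(2, ℤ))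
    have hc : ((γ : SL(2, ℤ)) 1 0 / N) * N = (γ : SL(2, ℤ)) 1 0 :=
      Int.ediv_mul_cancel (gamma0_dvd γ)
    linear_combination hdet - (γ : SL(2, ℤ)) 0 1 * hc⟩

omit [NeZero N] in
theorem frickeSL_10 (γ : Gamma0 N) : frickeSL N γ 1 0 = -(N * (γ : SL(2, ℤ)) 0 1) := rfl

/-- `γ ↦ W γ W⁻¹ = [[d, -c/N], [-N b, a]]` on `Γ₀(N)`. -/
def frickeFun (γ : Gamma0 N) : Gamma0 N :=
  ⟨frickeSL N γ, Gamma0_mem.mpr (by rw [frickeSL_10]; push_cast; simp)⟩

omit [NeZero N] in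
theorem frickeFun_00 (γ : Gamma0 N) :
    ((frickeFun N γ : Gamma0 N) : SL(2, ℤ)) 0 0 = (γ : SL(2, ℤ)) 1 1 := rfl

omit [NeZero N] in
theorem frickeFun_01 (γ : Gamma0 N) :
    ((frickeFun N γ : Gamma0 N) : SL(2, ℤ)) 0 1 = -((γ : SL(2, ℤ)) 1 0 / N) := rfl

omit [NeZero N] in
theorem frickeFun_10 (γ : Gamma0 N) :
    ((frickeFun N γ : Gamma0 N) : SL(2, ℤ)) 1 0 = -(N * (γ : SL(2, ℤ)) 0 1) := rfl

omit [NeZero N] in
theorem frickeFun_11 (γ : Gamma0 N) :
    ((frickeFun N γ : Gamma0 N) : SL(2, ℤ)) 1 1 = (γ : SL(2, ℤ)) 0 0 := rfl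

theorem frickeFun_rel (γ : Gamma0 N) :
    gamma0Hom N (frickeFun N γ) = hltW N * gamma0Hom N γ * (hltW N)⁻¹ := by
  rw [eq_mul_inv_iff_mul_eq]
  apply Units.ext
  rw [Units.val_mul, Units.val_mul, hltW_val, gamma0Hom_apply, gamma0Hom_apply]
  have hc : (((γ : SL(2, ℤ)) 1 0 / N : ℤ) : ℝ) * (N : ℝ) = (((γ : SL(2, ℤ)) 1 0 : ℤ) : ℝ) := by
    have := Int.ediv_mul_cancel (gamma0_dvd γ)
    exact_mod_cast this
  ext i j
  fin_cases i <;> fin_cases j <;>
    simp only [Matrix.mul_apply, Fin.sum_univ_two, mapGL_apply, frickeFun_00, frickeFun_01,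
      frickeFun_10, frickeFun_11, Matrix.of_apply, Matrix.cons_val', Matrix.cons_val_zero,
      Matrix.cons_val_one, Matrix.cons_val_fin_one, Fin.zero_eta, Fin.mk_one, Fin.isValue] <;>
    push_cast <;> linarith

/-- the Fricke involution of `Γ₀(N)`. -/
def frickeGamma0 : Gamma0 N →* Gamma0 N where
  toFun := frickeFun N
  map_one' := by
    apply gamma0Hom_injective N
    rw [frickeFun_rel, map_one, mul_one, mul_inv_cancel]
  map_mul' γ δ := by
    apply gamma0Hom_injective N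
    rw [map_mul, frickeFun_rel, frickeFun_rel, frickeFun_rel, map_mul]
    group

theorem frickeGamma0_apply (γ : Gamma0 N) : frickeGamma0 N γ = frickeFun N γ := rfl

theorem frickeGamma0_rel (γ : Gamma0 N) :
    gamma0Hom N (frickeGamma0 N γ) = hltW N * gamma0Hom N γ * (hltW N)⁻¹ :=
  frickeFun_rel N γ

theorem frickeGamma0_frickeGamma0 (γ : Gamma0 N) : frickeGamma0 N (frickeGamma0 N γ) = γ := by
  apply Subtype.ext
  apply Subtype.ext
  have hc : ((γ : SL(2, ℤ)) 1 0 / N) * N = (γ : SL(2, ℤ)) 1 0 :=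
    Int.ediv_mul_cancel (gamma0_dvd γ)
  have hN : (N : ℤ) ≠ 0 := Nat.cast_ne_zero.mpr (NeZero.ne N)
  rw [frickeGamma0_apply, frickeGamma0_apply]
  ext i j
  fin_cases i <;> fin_cases j
  · show ((frickeFun N (frickeFun N γ) : Gamma0 N) : SL(2, ℤ)) 0 0 = (γ : SL(2, ℤ)) 0 0
    rw [frickeFun_00, frickeFun_11]
  · show ((frickeFun N (frickeFun N γ) : Gamma0 N) : SL(2, ℤ)) 0 1 = (γ : SL(2, ℤ)) 0 1
    rw [frickeFun_01, frickeFun_10, Int.neg_ediv_of_dvd (dvd_mul_right _ _),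
      Int.mul_ediv_cancel_left _ hN, neg_neg]
  · show ((frickeFun N (frickeFun N γ) : Gamma0 N) : SL(2, ℤ)) 1 0 = (γ : SL(2, ℤ)) 1 0
    rw [frickeFun_10, frickeFun_01]
    linear_combination hc
  · show ((frickeFun N (frickeFun N γ) : Gamma0 N) : SL(2, ℤ)) 1 1 = (γ : SL(2, ℤ)) 1 1
    rw [frickeFun_11, frickeFun_00]

theorem frickeGamma0_trace (γ : Gamma0 N) :
    (((frickeGamma0 N γ : Gamma0 N) : SL(2, ℤ)) : Matrix (Fin 2) (Fin 2) ℤ).trace
      = (((γ : Gamma0 N) : SL(2, ℤ)) : Matrix (Fin 2) (Fin 2) ℤ).trace := by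
  rw [Matrix.trace_fin_two, Matrix.trace_fin_two, frickeGamma0_apply]
  show ((frickeFun N γ : Gamma0 N) : SL(2, ℤ)) 0 0 + ((frickeFun N γ : Gamma0 N) : SL(2, ℤ)) 1 1
    = _
  rw [frickeFun_00, frickeFun_11, add_comm]

/-- conjugation by `W⁻¹` is again the Fricke involution. -/
theorem frickeGamma0_rel' (γ : Gamma0 N) :
    (hltW N)⁻¹ * gamma0Hom N γ * hltW N = gamma0Hom N (frickeGamma0 N γ) := by
  have := frickeGamma0_rel N (frickeGamma0 N γ)
  rw [frickeGamma0_frickeGamma0] at this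
  rw [this]
  group

/-- an element of `Γ₀(N)` from its entries. -/
def hltMk (a b c d : ℤ) (hdet : a * d - b * c = 1) (hc : (N : ℤ) ∣ c) : Gamma0 N :=
  ⟨⟨!![a, b; c, d], by rw [Matrix.det_fin_two_of]; exact hdet⟩,
    Gamma0_mem.mpr (by
      show ((c : ℤ) : ZMod N) = 0
      exact (ZMod.intCast_zmod_eq_zero_iff_dvd _ _).mpr hc)⟩

omit [NeZero N] in
theorem hltMk_00 (a b c d : ℤ) (hdet : a * d - b * c = 1) (hc : (N : ℤ) ∣ c) :
    ((hltMk N a b c d hdet hc : Gamma0 N) : SL(2, ℤ)) 0 0 = a := rfl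

omit [NeZero N] in
theorem hltMk_01 (a b c d : ℤ) (hdet : a * d - b * c = 1) (hc : (N : ℤ) ∣ c) :
    ((hltMk N a b c d hdet hc : Gamma0 N) : SL(2, ℤ)) 0 1 = b := rfl

omit [NeZero N] in
theorem hltMk_10 (a b c d : ℤ) (hdet : a * d - b * c = 1) (hc : (N : ℤ) ∣ c) :
    ((hltMk N a b c d hdet hc : Gamma0 N) : SL(2, ℤ)) 1 0 = c := rfl

omit [NeZero N] in
theorem hltMk_11 (a b c d : ℤ) (hdet : a * d - b * c = 1) (hc : (N : ℤ) ∣ c) :
    ((hltMk N a b c d hdet hc : Gamma0 N) : SL(2, ℤ)) 1 1 = d := rfl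

/-- the element `[[1, 0], [-N j, 1]]` of `Γ₀(N)`. -/
def hltLow (j : ℤ) : Gamma0 N :=
  hltMk N 1 0 (-(N * j)) 1 (by ring) (Dvd.dvd.neg_right (dvd_mul_right _ _))

/-- `W α_j W⁻¹ = diag(p,1) · [[1,0],[-N j,1]]`. -/
theorem hlt_conj_heckeMatrix {p : ℕ} (hp : p ≠ 0) (j : ℕ) :
    hltW N * heckeMatrix p j * (hltW N)⁻¹ = heckeDiagMatrix p * gamma0Hom N (hltLow N j) := by
  rw [mul_inv_eq_iff_eq_mul]
  apply Units.ext
  rw [Units.val_mul, Units.val_mul, Units.val_mul, hltW_val, gamma0Hom_apply,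
    val_heckeMatrix hp, val_heckeDiagMatrix hp]
  ext i k
  fin_cases i <;> fin_cases k <;>
    simp only [Matrix.mul_apply, Fin.sum_univ_two, mapGL_apply, hltLow, hltMk_00, hltMk_01,
      hltMk_10, hltMk_11, Matrix.of_apply, Matrix.cons_val', Matrix.cons_val_zero,
      Matrix.cons_val_one, Matrix.cons_val_fin_one, Fin.zero_eta, Fin.mk_one, Fin.isValue] <;>
    push_cast <;> ring

/-- `W diag(p,1) W⁻¹ = diag(1,p)`. -/
theorem hlt_conj_heckeDiagMatrix {p : ℕ} (hp : p ≠ 0) :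
    hltW N * heckeDiagMatrix p * (hltW N)⁻¹ = heckeMatrix p 0 := by
  rw [mul_inv_eq_iff_eq_mul]
  apply Units.ext
  rw [Units.val_mul, Units.val_mul, hltW_val, val_heckeMatrix hp, val_heckeDiagMatrix hp]
  ext i k
  fin_cases i <;> fin_cases k <;>
    simp only [Matrix.mul_apply, Fin.sum_univ_two, Matrix.of_apply, Matrix.cons_val',
      Matrix.cons_val_zero, Matrix.cons_val_one, Matrix.cons_val_fin_one, Fin.zero_eta,
      Fin.mk_one, Fin.isValue] <;>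
    push_cast <;> ring

/-- `W diag(1,p) W⁻¹ = diag(p,1)`. -/
theorem hlt_conj_heckeMatrix_zero {p : ℕ} (hp : p ≠ 0) :
    hltW N * heckeMatrix p 0 * (hltW N)⁻¹ = heckeDiagMatrix p := by
  rw [mul_inv_eq_iff_eq_mul]
  apply Units.ext
  rw [Units.val_mul, Units.val_mul, hltW_val, val_heckeMatrix hp, val_heckeDiagMatrix hp]
  ext i k
  fin_cases i <;> fin_cases k <;>
    simp only [Matrix.mul_apply, Fin.sum_univ_two, Matrix.of_apply, Matrix.cons_val',
      Matrix.cons_val_zero, Matrix.cons_val_one, Matrix.cons_val_fin_one, Fin.zero_eta,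
      Fin.mk_one, Fin.isValue] <;>
    push_cast <;> ring

omit [NeZero N] in
/-- for `p` prime to `N`: `diag(1,p) ∈ Γ₀(N) diag(p,1) Γ₀(N)`. -/
theorem hlt_heckeMatrix_zero_mem {p : ℕ} (hp : p ≠ 0) (hpN : Nat.Coprime p N) :
    ∃ a d : Gamma0 N, heckeMatrix p 0 = gamma0Hom N a * heckeDiagMatrix p * gamma0Hom N d := by
  have hcop : IsCoprime (p : ℤ) (N : ℤ) := Nat.isCoprime_iff_coprime.mpr hpN
  obtain ⟨u, v, huv⟩ := hcop
  refine ⟨hltMk N u (-v) N p (by linear_combination huv) dvd_rfl,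
    hltMk N 1 v (-(N : ℤ)) (u * p) (by linear_combination huv) (Dvd.dvd.neg_right dvd_rfl), ?_⟩
  apply Units.ext
  rw [Units.val_mul, Units.val_mul, gamma0Hom_apply, gamma0Hom_apply, val_heckeMatrix hp,
    val_heckeDiagMatrix hp]
  have huv' : (u : ℝ) * p + v * N = 1 := by exact_mod_cast huv
  ext i k
  fin_cases i <;> fin_cases k <;>
    simp only [Matrix.mul_apply, Fin.sum_univ_two, mapGL_apply, hltMk_00, hltMk_01,
      hltMk_10, hltMk_11, Matrix.of_apply, Matrix.cons_val', Matrix.cons_val_zero,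
      Matrix.cons_val_one, Matrix.cons_val_fin_one, Fin.zero_eta, Fin.mk_one, Fin.isValue] <;>
    push_cast
  · linear_combination -huv'
  · ring
  · ring
  · linear_combination (-(p : ℝ)) * huv'

end Fricke

section Transpose

variable (N : ℕ) [NeZero N]

/-- composition with the Fricke involution. -/
def frickeHom (A : Type*) [AddCommGroup A] :
    (Additive (Gamma0 N) →+ A) →+ (Additive (Gamma0 N) →+ A) where
  toFun φ := φ.comp (MonoidHom.toAdditive (frickeGamma0 N))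
  map_zero' := rfl
  map_add' _ _ := rfl

theorem frickeHom_apply {A : Type*} [AddCommGroup A] (φ : Additive (Gamma0 N) →+ A)
    (γ : Gamma0 N) :
    frickeHom N A φ (Additive.ofMul γ) = φ (Additive.ofMul (frickeGamma0 N γ)) := rfl

theorem frickeHom_eq_comp {A : Type*} [AddCommGroup A] (φ : Additive (Gamma0 N) →+ A) :
    frickeHom N A φ = φ.comp (MonoidHom.toAdditive (frickeGamma0 N)) := rfl

theorem frickeHom_frickeHom {A : Type*} [AddCommGroup A] (φ : Additive (Gamma0 N) →+ A) :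
    frickeHom N A (frickeHom N A φ) = φ := by
  refine AddMonoidHom.ext fun γ => ?_
  obtain ⟨γ, rfl⟩ := Additive.ofMul.surjective γ
  rw [frickeHom_apply, frickeHom_apply, frickeGamma0_frickeGamma0]

theorem frickeHom_comp {A B : Type*} [AddCommGroup A] [AddCommGroup B] (f : A →+ B)
    (φ : Additive (Gamma0 N) →+ A) :
    frickeHom N B (f.comp φ) = f.comp (frickeHom N A φ) := rfl

/-- **the transposed Hecke operator** at `ℓ` on `Hom(Γ₀(N), A)`: the operator of the double coset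
`Γ₀(N) diag(ℓ,1) Γ₀(N)`, defined as the Fricke conjugate of `heckeHom N ℓ A`. -/
def heckeHomTr (ℓ : Nat.Primes) (A : Type*) [AddCommGroup A] :
    (Additive (Gamma0 N) →+ A) →+ (Additive (Gamma0 N) →+ A) :=
  (frickeHom N A).comp ((heckeHom N ℓ A).comp (frickeHom N A))

theorem heckeHomTr_apply (ℓ : Nat.Primes) {A : Type*} [AddCommGroup A]
    (φ : Additive (Gamma0 N) →+ A) :
    heckeHomTr N ℓ A φ = frickeHom N A (heckeHom N ℓ A (frickeHom N A φ)) := rfl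

/-- composition with an additive map commutes with the transposed Hecke operators. -/
theorem heckeHomTr_comp (ℓ : Nat.Primes) {A B : Type*} [AddCommGroup A] [AddCommGroup B]
    (f : A →+ B) (φ : Additive (Gamma0 N) →+ A) :
    heckeHomTr N ℓ B (f.comp φ) = f.comp (heckeHomTr N ℓ A φ) := by
  rw [heckeHomTr_apply, heckeHomTr_apply, frickeHom_comp, heckeHom_comp, frickeHom_comp]

variable {N}

/-- **independence of the representatives**: the operator `hlOp` of ANY coset data whose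
representatives are of the form `diag(ℓ,1) · δ` (`δ ∈ Γ₀(N)`), complete and irredundant, is the
transposed Hecke operator `heckeHomTr N ℓ`. -/
theorem hlOp_eq_heckeHomTr (ℓ : Nat.Primes) {Y : Type*} [Fintype Y] (β : Y → GL (Fin 2) ℝ)
    (σ₂ : Gamma0 N → Equiv.Perm Y) (γ₂ : Gamma0 N → Y → Gamma0 N)
    (hrel₂ : ∀ (γ : Gamma0 N) (y : Y),
      β y * gamma0Hom N γ = gamma0Hom N (γ₂ γ y) * β (σ₂ γ y))
    (hσ₂ : ∀ (γ δ : Gamma0 N) (y : Y), σ₂ (γ * δ) y = σ₂ δ (σ₂ γ y))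
    (hβ : ∀ y, ∃ d : Gamma0 N, β y = heckeDiagMatrix ℓ * gamma0Hom N d)
    (hcompl : ∀ d : Gamma0 N, ∃ y, ∃ d' : Gamma0 N,
      heckeDiagMatrix ℓ * gamma0Hom N d = gamma0Hom N d' * β y)
    (huniq : ∀ (a b : Gamma0 N) (y z : Y),
      gamma0Hom N a * β y = gamma0Hom N b * β z → y = z)
    (A : Type*) [AddCommGroup A] :
    hlOp (gamma0Hom_injective N) hrel₂ hσ₂ A = heckeHomTr N ℓ A := by
  have hℓ0 : (ℓ : ℕ) ≠ 0 := ℓ.2.ne_zero
  refine AddMonoidHom.ext fun φ => ?_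
  rw [heckeHomTr_apply]
  by_cases h : (ℓ : ℕ) ∣ N
  · have : NeZero (ℓ : ℕ) := ⟨hℓ0⟩
    obtain ⟨τ, δ, hδ⟩ := hlt_exists_equiv (ι := gamma0Hom N)
      (α := fun x : ZMod (ℓ : ℕ) => heckeMatrix ℓ x.val) (relU h)
      (frickeGamma0 N) (hltW N) (frickeGamma0_rel N) (frickeGamma0_frickeGamma0 N)
      (heckeDiagMatrix ℓ) (0 : ZMod (ℓ : ℕ))
      (by rw [ZMod.val_zero]; exact hlt_conj_heckeMatrix_zero N hℓ0)
      (fun x => ⟨1, hltLow N x.val, by
        rw [map_one, one_mul]; exact hlt_conj_heckeMatrix N hℓ0 x.val⟩)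
      hβ hcompl (fun a b y z hh => hi_uniq_heckeMatrix _ y z (hi_move a b hh)) huniq
    have key := hlOp_comp_hom₂ (gamma0Hom_injective N) (relU h) (sigmaU_mul h) hrel₂ hσ₂
      (frickeGamma0 N) (hltW N) (frickeGamma0_rel N) τ δ hδ huniq φ
    rw [heckeHom_of_dvd h]
    symm
    show frickeHom N A (hlOp (gamma0Hom_injective N) (relU h) (sigmaU_mul h) A
      (φ.comp (MonoidHom.toAdditive (frickeGamma0 N)))) = _
    rw [key, ← frickeHom_eq_comp, frickeHom_frickeHom]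
  · have : Fact (ℓ : ℕ).Prime := ⟨ℓ.2⟩
    have hcop : Nat.Coprime (ℓ : ℕ) N := (Nat.Prime.coprime_iff_not_dvd ℓ.2).mpr h
    obtain ⟨τ, δ, hδ⟩ := hlt_exists_equiv (ι := gamma0Hom N)
      (α := heckeRep (ℓ : ℕ)) (relT h)
      (frickeGamma0 N) (hltW N) (frickeGamma0_rel N) (frickeGamma0_frickeGamma0 N)
      (heckeDiagMatrix ℓ) (((0 : ZMod (ℓ : ℕ)) : OnePoint (ZMod (ℓ : ℕ))))
      (by rw [heckeRep_coe, ZMod.val_zero]; exact hlt_conj_heckeMatrix_zero N hℓ0)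
      (fun x => by
        induction x using OnePoint.rec with
        | infty =>
          obtain ⟨a, d, had⟩ := hlt_heckeMatrix_zero_mem N hℓ0 hcop
          exact ⟨a, d, by rw [heckeRep_infty, hlt_conj_heckeDiagMatrix N hℓ0, had]⟩
        | coe j =>
          exact ⟨1, hltLow N j.val, by
            rw [map_one, one_mul, heckeRep_coe]; exact hlt_conj_heckeMatrix N hℓ0 j.val⟩)
      hβ hcompl (fun a b y z hh => hi_uniq_heckeRep _ y z (hi_move a b hh)) huniq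
    have key := hlOp_comp_hom₂ (gamma0Hom_injective N) (relT h) sigmaT_mul hrel₂ hσ₂
      (frickeGamma0 N) (hltW N) (frickeGamma0_rel N) τ δ hδ huniq φ
    rw [heckeHom_of_not_dvd h]
    symm
    show frickeHom N A (hlOp (gamma0Hom_injective N) (relT h) sigmaT_mul A
      (φ.comp (MonoidHom.toAdditive (frickeGamma0 N)))) = _
    rw [key, ← frickeHom_eq_comp, frickeHom_frickeHom]

variable (N)

/-- the Fricke involution preserves parabolic homomorphisms. -/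
theorem frickeHom_isParabolicHom {A : Type*} [AddCommGroup A]
    {φ : Additive (Gamma0 N) →+ A} (hφ : IsParabolicHom (Gamma0 N) φ) :
    IsParabolicHom (Gamma0 N) (frickeHom N A φ) := by
  intro γ hγ
  rw [frickeHom_apply]
  exact hφ _ (by rw [frickeGamma0_trace]; exact hγ)

/-- the transposed Hecke operators preserve parabolic homomorphisms. -/
theorem heckeHomTr_isParabolicHom (ℓ : Nat.Primes) {A : Type*} [AddCommGroup A]
    [IsAddTorsionFree A] {φ : Additive (Gamma0 N) →+ A} (hφ : IsParabolicHom (Gamma0 N) φ) :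
    IsParabolicHom (Gamma0 N) (heckeHomTr N ℓ A φ) := by
  rw [heckeHomTr_apply]
  exact frickeHom_isParabolicHom N (heckeHom_isParabolicHom ℓ (frickeHom_isParabolicHom N hφ))

/-- the Fricke involution as an `R`-linear automorphism of `parabolicHoms R (Gamma0 N) A`. -/
def frickePar (R : Type*) [Semiring R] (A : Type*) [AddCommGroup A] [Module R A] :
    parabolicHoms R (Gamma0 N) A ≃ₗ[R] parabolicHoms R (Gamma0 N) A where
  toFun φ := ⟨frickeHom N A φ.1, frickeHom_isParabolicHom N φ.2⟩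
  invFun φ := ⟨frickeHom N A φ.1, frickeHom_isParabolicHom N φ.2⟩
  left_inv φ := Subtype.ext (frickeHom_frickeHom N φ.1)
  right_inv φ := Subtype.ext (frickeHom_frickeHom N φ.1)
  map_add' _ _ := rfl
  map_smul' _ _ := rfl

theorem frickePar_coe (R : Type*) [Semiring R] (A : Type*) [AddCommGroup A] [Module R A]
    (φ : parabolicHoms R (Gamma0 N) A) :
    ((frickePar N R A φ : parabolicHoms R (Gamma0 N) A) : Additive (Gamma0 N) →+ A)
      = frickeHom N A φ.1 := rfl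

theorem frickePar_frickePar (R : Type*) [Semiring R] (A : Type*) [AddCommGroup A] [Module R A]
    (φ : parabolicHoms R (Gamma0 N) A) : frickePar N R A (frickePar N R A φ) = φ :=
  Subtype.ext (frickeHom_frickeHom N φ.1)

theorem frickePar_symm (R : Type*) [Semiring R] (A : Type*) [AddCommGroup A] [Module R A] :
    (frickePar N R A).symm = frickePar N R A := rfl

/-- the transposed Hecke operator at `ℓ` as an `R`-linear endomorphism of
`parabolicHoms R (Gamma0 N) A`. -/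
def heckeParT (ℓ : Nat.Primes) (R : Type*) [Semiring R] (A : Type*) [AddCommGroup A] [Module R A]
    [IsAddTorsionFree A] :
    parabolicHoms R (Gamma0 N) A →ₗ[R] parabolicHoms R (Gamma0 N) A :=
  (frickePar N R A).toLinearMap ∘ₗ heckePar N ℓ R A ∘ₗ (frickePar N R A).toLinearMap

theorem heckeParT_coe (ℓ : Nat.Primes) (R : Type*) [Semiring R] (A : Type*) [AddCommGroup A]
    [Module R A] [IsAddTorsionFree A] (φ : parabolicHoms R (Gamma0 N) A) :
    ((heckeParT N ℓ R A φ : parabolicHoms R (Gamma0 N) A) : Additive (Gamma0 N) →+ A)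
      = heckeHomTr N ℓ A φ.1 := rfl

/-- the Fricke involution of the lattice `H¹_par(Γ₀(N), ℤ)`. -/
def frickeLat : HLat N ≃ₗ[ℤ] HLat N := frickePar N ℤ ℤ

theorem frickeLat_coe (φ : HLat N) :
    ((frickeLat N φ : HLat N) : Additive (Gamma0 N) →+ ℤ) = frickeHom N ℤ φ.1 := rfl

theorem frickeLat_frickeLat (φ : HLat N) : frickeLat N (frickeLat N φ) = φ :=
  frickePar_frickePar N ℤ ℤ φ

theorem frickeLat_symm : (frickeLat N).symm = frickeLat N := rfl

/-- **the transposed Hecke operators on the lattice** `H¹_par(Γ₀(N), ℤ)`: the operators of the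
double cosets `Γ₀(N) diag(ℓ,1) Γ₀(N)`. -/
def heckeLatT (ℓ : Nat.Primes) : HLat N →ₗ[ℤ] HLat N := heckeParT N ℓ ℤ ℤ

theorem heckeLatT_coe (ℓ : Nat.Primes) (φ : HLat N) :
    ((heckeLatT N ℓ φ : HLat N) : Additive (Gamma0 N) →+ ℤ) = heckeHomTr N ℓ ℤ φ.1 := rfl

theorem heckeLatT_eq (ℓ : Nat.Primes) :
    heckeLatT N ℓ
      = (frickeLat N).toLinearMap ∘ₗ heckeLat N ℓ ∘ₗ (frickeLat N).toLinearMap := rfl

theorem heckeLatT_apply (ℓ : Nat.Primes) (φ : HLat N) :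
    heckeLatT N ℓ φ = frickeLat N (heckeLat N ℓ (frickeLat N φ)) := rfl

/-- the Fricke involution intertwines `heckeLat` and `heckeLatT`. -/
theorem frickeLat_heckeLat (ℓ : Nat.Primes) (φ : HLat N) :
    frickeLat N (heckeLat N ℓ φ) = heckeLatT N ℓ (frickeLat N φ) := by
  rw [heckeLatT_apply, frickeLat_frickeLat]

theorem frickeLat_heckeLatT (ℓ : Nat.Primes) (φ : HLat N) :
    frickeLat N (heckeLatT N ℓ φ) = heckeLat N ℓ (frickeLat N φ) := by
  rw [heckeLatT_apply, frickeLat_frickeLat]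

end Transpose

end

end Fermat.Agent.GalRep
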