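import Mathlib
import Fermat.Agent.GalRep.HeckeLatT
import Fermat.Agent.GalRep.FaithEmbLat

/-!
# Item 72 / 69 (Layer E): multiplicity two and the faithful embedding for the TRANSPOSED operators

The operators `heckeLatT N ℓ` (double coset of `diag(ℓ,1)`) are the conjugates of `heckeLat N ℓ`
under the Fricke involution `frickeLat N` of `HLat N`; so everything proved for `heckeLat`
transfers:

* `finrank_eigenSub_heckeLatT`: the eigenspaces of `heckeLatT` in `K ⊗ HLat N` have dimension 2;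
* `exists_faithEmb_heckeLatT(_all)`: a Hecke-equivariant embedding `S₂(Γ₀(N)) ↪ ℂ ⊗ HLat N`
  for the operators `heckeLatT`.
-/

set_option autoImplicit false

open CongruenceSubgroup ModularCurve ModularCurve.Period
open scoped MatrixGroups TensorProduct

namespace Fermat.Agent.GalRep

noncomputable section

variable (N : ℕ) [NeZero N]

theorem frickeLat_comp_frickeLat :
    (frickeLat N).toLinearMap ∘ₗ (frickeLat N).toLinearMap = LinearMap.id :=
  LinearMap.ext fun φ => frickeLat_frickeLat N φ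

/-- the base change of the Fricke involution to `A ⊗ HLat N`. -/
def frickeBC (A : Type) [CommRing A] : (A ⊗[ℤ] HLat N) ≃ₗ[A] (A ⊗[ℤ] HLat N) :=
  LinearEquiv.ofLinearMap ((frickeLat N).toLinearMap.baseChange A)
    ((frickeLat N).toLinearMap.baseChange A)
    (by rw [← LinearMap.baseChange_comp, frickeLat_comp_frickeLat, LinearMap.baseChange_id])
    (by rw [← LinearMap.baseChange_comp, frickeLat_comp_frickeLat, LinearMap.baseChange_id])

theorem frickeBC_apply (A : Type) [CommRing A] (v : A ⊗[ℤ] HLat N) :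
    frickeBC N A v = (frickeLat N).toLinearMap.baseChange A v := rfl

theorem frickeBC_tmul (A : Type) [CommRing A] (a : A) (φ : HLat N) :
    frickeBC N A (a ⊗ₜ[ℤ] φ) = a ⊗ₜ[ℤ] frickeLat N φ := rfl

theorem frickeBC_frickeBC (A : Type) [CommRing A] (v : A ⊗[ℤ] HLat N) :
    frickeBC N A (frickeBC N A v) = v :=
  (frickeBC N A).left_inv v

theorem frickeBC_symm (A : Type) [CommRing A] : (frickeBC N A).symm = frickeBC N A := rfl

/-- `heckeLatT = W ∘ heckeLat ∘ W` after base change. -/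
theorem heckeLatT_baseChange (A : Type) [CommRing A] (ℓ : Nat.Primes) (v : A ⊗[ℤ] HLat N) :
    (heckeLatT N ℓ).baseChange A v
      = frickeBC N A ((heckeLat N ℓ).baseChange A (frickeBC N A v)) := by
  rw [heckeLatT_eq, LinearMap.baseChange_comp, LinearMap.baseChange_comp]
  rfl

theorem frickeBC_heckeLat_baseChange (A : Type) [CommRing A] (ℓ : Nat.Primes)
    (v : A ⊗[ℤ] HLat N) :
    frickeBC N A ((heckeLat N ℓ).baseChange A v)
      = (heckeLatT N ℓ).baseChange A (frickeBC N A v) := by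
  rw [heckeLatT_baseChange, frickeBC_frickeBC]

theorem frickeBC_heckeLatT_baseChange (A : Type) [CommRing A] (ℓ : Nat.Primes)
    (v : A ⊗[ℤ] HLat N) :
    frickeBC N A ((heckeLatT N ℓ).baseChange A v)
      = (heckeLat N ℓ).baseChange A (frickeBC N A v) := by
  rw [heckeLatT_baseChange, frickeBC_frickeBC]

/-- the eigenspaces of the transposed operators are the Fricke images of those of `heckeLat`. -/
theorem mem_eigenSub_heckeLatT_iff (A : Type) [CommRing A] (c : Nat.Primes → A)
    (v : A ⊗[ℤ] HLat N) :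
    v ∈ eigenSub A (heckeLatT N) c ↔ frickeBC N A v ∈ eigenSub A (heckeLat N) c := by
  rw [mem_eigenSub_iff, mem_eigenSub_iff]
  refine forall_congr' fun ℓ => ?_
  rw [← frickeBC_heckeLatT_baseChange, ← map_smul]
  exact ((frickeBC N A).injective.eq_iff).symm

theorem eigenSub_heckeLatT_eq_comap (A : Type) [CommRing A] (c : Nat.Primes → A) :
    eigenSub A (heckeLatT N) c
      = (eigenSub A (heckeLat N) c).comap (frickeBC N A).toLinearMap := by
  ext v
  rw [Submodule.mem_comap]
  exact mem_eigenSub_heckeLatT_iff N A c v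

theorem eigenSub_heckeLatT_eq_map (A : Type) [CommRing A] (c : Nat.Primes → A) :
    eigenSub A (heckeLatT N) c
      = (eigenSub A (heckeLat N) c).map (frickeBC N A).toLinearMap := by
  rw [eigenSub_heckeLatT_eq_comap]
  exact (Submodule.map_equiv_eq_comap_symm (frickeBC N A) _).symm

/-- the Fricke involution identifies the eigenspaces of `heckeLat` and of `heckeLatT`. -/
def eigenSubFrickeEquiv (A : Type) [CommRing A] (c : Nat.Primes → A) :
    eigenSub A (heckeLat N) c ≃ₗ[A] eigenSub A (heckeLatT N) c :=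
  ((frickeBC N A).submoduleMap (eigenSub A (heckeLat N) c)).trans
    (LinearEquiv.ofEq _ _ (eigenSub_heckeLatT_eq_map N A c).symm)

theorem finrank_eigenSub_heckeLatT_eq (K : Type) [Field K] (c : Nat.Primes → K) :
    Module.finrank K (eigenSub K (heckeLatT N) c)
      = Module.finrank K (eigenSub K (heckeLat N) c) :=
  (eigenSubFrickeEquiv N K c).finrank_eq.symm

/-- **ES-H multiplicity for the transposed operators** (Layer E, LE-A). -/
theorem finrank_eigenSub_heckeLatT (N : ℕ) [NeZero N] (K : Type) [Field K] [CharZero K]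
    (χ : CuspForm.heckeAlgebra N 2 (∅ : Set ℕ) →+* K) :
    Module.finrank K (eigenSub K (heckeLatT N)
      (fun ℓ => χ (CuspForm.heckeEvalForms N 2 (ModularCurve.heckeGen ℓ)))) = 2 := by
  rw [finrank_eigenSub_heckeLatT_eq]
  exact finrank_eigenSub_heckeLat N K χ

/-- the embedding `S₂(Γ₀(N)) ↪ ℂ ⊗ HLat N` adapted to the transposed operators. -/
def faithEmbLatT : CuspForm (Gamma0 N) 2 →ₗ[ℂ] (ℂ ⊗[ℤ] HLat N) :=
  (frickeBC N ℂ).toLinearMap ∘ₗ faithEmbLat N

theorem faithEmbLatT_apply (g : CuspForm (Gamma0 N) 2) :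
    faithEmbLatT N g = frickeBC N ℂ (faithEmbLat N g) := rfl

theorem faithEmbLatT_injective : Function.Injective (faithEmbLatT N) :=
  (frickeBC N ℂ).injective.comp (faithEmbLat_injective N)

/-- Hecke-equivariance at all primes (`U_q` at the primes dividing `N`). -/
theorem faithEmbLatT_hecke (ℓ : Nat.Primes) (g : CuspForm (Gamma0 N) 2) :
    faithEmbLatT N ((CuspForm.heckeFormsGen N 2 ℓ : Module.End ℂ (CuspForm (Gamma0 N) 2)) g)
      = (heckeLatT N ℓ).baseChange ℂ (faithEmbLatT N g) := by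
  rw [faithEmbLatT_apply, faithEmbLatT_apply, faithEmbLat_hecke, frickeBC_heckeLat_baseChange]

theorem exists_faithEmb_heckeLatT_all :
    ∃ f : CuspForm (Gamma0 N) 2 →ₗ[ℂ] (ℂ ⊗[ℤ] HLat N), Function.Injective f ∧
      ∀ (ℓ : Nat.Primes) (g : CuspForm (Gamma0 N) 2),
        f ((CuspForm.heckeFormsGen N 2 ℓ : Module.End ℂ (CuspForm (Gamma0 N) 2)) g)
          = (heckeLatT N ℓ).baseChange ℂ (f g) :=
  ⟨faithEmbLatT N, faithEmbLatT_injective N, faithEmbLatT_hecke N⟩

/-- `FaithEmb` (S31lib) for `Λ = HLat N`, `T = heckeLatT N`. -/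
theorem exists_faithEmb_heckeLatT :
    ∃ f : CuspForm (Gamma0 N) 2 →ₗ[ℂ] (ℂ ⊗[ℤ] HLat N), Function.Injective f ∧
      ∀ (ℓ : ℕ) (hℓ : ℓ.Prime) (hℓN : ¬ ℓ ∣ N) (g : CuspForm (Gamma0 N) 2),
        f (CuspForm.heckeTLin 2 hℓ hℓN g) = (heckeLatT N ⟨ℓ, hℓ⟩).baseChange ℂ (f g) := by
  refine ⟨faithEmbLatT N, faithEmbLatT_injective N, fun ℓ hℓ hℓN g => ?_⟩
  rw [← faithEmbLatT_hecke N ⟨ℓ, hℓ⟩ g,
    CuspForm.heckeFormsGen_of_not_dvd (N := N) (k := 2) (ℓ := ⟨ℓ, hℓ⟩) hℓN,
    CuspForm.heckeAlgebra.coe_T]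

end

end Fermat.Agent.GalRep
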