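/-
Item 72, piece J0 (helper8): the local clauses `UnramifiedOutside` and `FrobeniusQuadratic`
follow from `SpecializationExists` (pure logic).
-/
import Mathlib
import Fermat.Agent.GalRep.Goals

set_option autoImplicit false
set_option linter.unusedSectionVars false

namespace Fermat.Agent.GalRep

section J0

open ModularCurve

variable {K L : Type*} [Field K] [Field L] [Algebra K L]
variable (N p : ℕ) (J : Type*) [AddCommGroup J] [Module HeckeAlg J]
  [DistribMulAction (L ≃ₐ[K] L) J] [SMulCommClass (L ≃ₐ[K] L) HeckeAlg J]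

omit [SMulCommClass (L ≃ₐ[K] L) HeckeAlg J] in
theorem specLocal_smul_nsmul (σ : L ≃ₐ[K] L) (n : ℕ) (x : J) : σ • (n • x) = n • (σ • x) :=
  map_nsmul (DistribSMul.toAddMonoidHom J σ) n x

theorem unramifiedOutside_of_specializationExists
    (h : SpecializationExists (K := K) (L := L) N p J) :
    UnramifiedOutside (K := K) (L := L) N p J := by
  intro ℓ hℓ hℓN A hA σ hσ x ⟨n, hn⟩
  obtain ⟨J', _, _, sp, F, hsp, -⟩ := h ℓ hℓ hℓN A hA
  have h1 : sp (σ • x - x) = 0 := by
    rw [map_sub, hsp.inertia_comm σ hσ x, sub_self]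
  have h2 : p ^ n • (σ • x - x) = 0 := by
    rw [smul_sub, ← specLocal_smul_nsmul, hn, smul_zero, sub_self]
  exact sub_eq_zero.mp (hsp.injective_torsion _ ⟨n, h2⟩ h1)

theorem frobeniusQuadratic_of_specializationExists
    (h : SpecializationExists (K := K) (L := L) N p J) :
    FrobeniusQuadratic (K := K) (L := L) N p J := by
  intro ℓ hℓ hℓN A hA σ hσ x ⟨n, hn⟩
  obtain ⟨J', _, _, sp, F, hsp, hF⟩ := h ℓ hℓ hℓN A hA
  have h1 : sp (σ • σ • x - heckeGen ⟨ℓ, hℓ⟩ • (σ • x) + ℓ • x) = 0 := by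
    rw [map_add, map_sub, map_nsmul, hsp.hecke_comm, hsp.frobenius_comm σ hσ,
      hsp.frobenius_comm σ hσ]
    exact hF (sp x)
  have h2 : p ^ n • (σ • σ • x - heckeGen ⟨ℓ, hℓ⟩ • (σ • x) + ℓ • x) = 0 := by
    rw [smul_add, smul_sub, ← specLocal_smul_nsmul, ← specLocal_smul_nsmul,
      smul_comm (p ^ n) (heckeGen ⟨ℓ, hℓ⟩) (σ • x), ← specLocal_smul_nsmul,
      smul_comm (p ^ n) ℓ x, hn]
    simp
  exact hsp.injective_torsion _ ⟨n, h2⟩ h1

end J0

end Fermat.Agent.GalRep
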