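import Mathlib
import Fermat.Agent.GalRep.JacInput

/-!
# Item 72, piece J4: torsion points of `J₀(N)` have open stabilisers

A torsion class `x = [D]` with `n • D = div f`: the function `f` has its `q`-coefficients in a
number field `L`, so every `σ` fixing `L` fixes `f`, hence `n • (σ • D) = n • D`, and divisors are
torsion free.
-/

set_option autoImplicit false

namespace Fermat.Agent.GalRep

open ModularCurve AlgebraicCurve IntermediateField

/-- every element of the base-changed function field is fixed by all `σ` fixing a suitable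
number field. -/
theorem exists_field_fixing_coeffMap (F₀ : IntermediateField ℚ (LaurentSeries ℚ))
    {x : LaurentSeries (AlgebraicClosure ℚ)}
    (hx : x ∈ laurentBaseChange (AlgebraicClosure ℚ) F₀) :
    ∃ L : IntermediateField ℚ (AlgebraicClosure ℚ), FiniteDimensional ℚ L ∧
      ∀ σ : GQ, (∀ a ∈ L, σ a = a) →
        coeffMap (σ : AlgebraicClosure ℚ →+* AlgebraicClosure ℚ) x = x := by
  rw [mem_laurentBaseChange_iff] at hx
  induction hx using Subfield.closure_induction with
  | mem y hy =>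
      rcases hy with ⟨a, rfl⟩ | ⟨z, hz, rfl⟩
      · refine ⟨ℚ⟮a⟯, ?_, fun σ hσ => ?_⟩
        · exact IntermediateField.adjoin.finiteDimensional
            ((AlgebraicClosure.isAlgebraic ℚ).isAlgebraic a).isIntegral
        · rw [coeffMap_algebraMap]
          exact congrArg _ (hσ a (IntermediateField.mem_adjoin_simple_self ℚ a))
      · exact ⟨⊥, inferInstance, fun σ _ => coeffMap_coeffEmb σ z⟩
  | one => exact ⟨⊥, inferInstance, fun σ _ => map_one _⟩
  | add x y _ _ hx hy =>
      obtain ⟨L₁, h₁, hL₁⟩ := hx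
      obtain ⟨L₂, h₂, hL₂⟩ := hy
      refine ⟨L₁ ⊔ L₂, IntermediateField.finiteDimensional_sup L₁ L₂, fun σ hσ => ?_⟩
      rw [map_add, hL₁ σ fun a ha => hσ a ((le_sup_left : L₁ ≤ L₁ ⊔ L₂) ha),
        hL₂ σ fun a ha => hσ a ((le_sup_right : L₂ ≤ L₁ ⊔ L₂) ha)]
  | neg x _ hx =>
      obtain ⟨L₁, h₁, hL₁⟩ := hx
      exact ⟨L₁, h₁, fun σ hσ => by rw [map_neg, hL₁ σ hσ]⟩
  | inv x _ hx =>
      obtain ⟨L₁, h₁, hL₁⟩ := hx
      exact ⟨L₁, h₁, fun σ hσ => by rw [map_inv₀, hL₁ σ hσ]⟩
  | mul x y _ _ hx hy =>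
      obtain ⟨L₁, h₁, hL₁⟩ := hx
      obtain ⟨L₂, h₂, hL₂⟩ := hy
      refine ⟨L₁ ⊔ L₂, IntermediateField.finiteDimensional_sup L₁ L₂, fun σ hσ => ?_⟩
      rw [map_mul, hL₁ σ fun a ha => hσ a ((le_sup_left : L₁ ≤ L₁ ⊔ L₂) ha),
        hL₂ σ fun a ha => hσ a ((le_sup_right : L₂ ≤ L₁ ⊔ L₂) ha)]

/-- a semilinear automorphism fixing `f` fixes every divisor `D` with `n • D = div f`, `n > 0`. -/
theorem semilinearAut_smul_divisor_eq_of_fix {K F : Type*} [Field K] [Field F] [Algebra K F]
    (g : SemilinearAut K F) (D : Divisor K F) (n : ℕ) (hn : 0 < n) (f : F)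
    (hf : ∀ v : Place K F, (n • D) v = v.ord f) (hg : g • f = f) : g • D = D := by
  ext w
  rw [SemilinearAut.divisor_smul_apply]
  have h1 : (n : ℤ) * D (g⁻¹ • w) = (n : ℤ) * D w := by
    have e1 := hf (g⁻¹ • w)
    have e2 := hf w
    rw [Finsupp.smul_apply, nsmul_eq_mul] at e1 e2
    have e3 := SemilinearAut.ord_smul g (g⁻¹ • w) f
    rw [smul_inv_smul, hg] at e3
    rw [e1, e2, e3]
  exact mul_left_cancel₀ (by exact_mod_cast hn.ne') h1

/-- **J4**: torsion points of `J₀(N)` have open stabilisers. -/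
theorem exists_field_fixing_torsion : J4Statement := by
  intro N _ n hn x hx
  obtain ⟨D, rfl⟩ := Pic0.mk_surjective x
  have hprin : ((n • D : Divisor.degZero (K := AlgebraicClosure ℚ)
      (F := modularFunctionFieldBar N)) : Divisor (AlgebraicClosure ℚ)
        (modularFunctionFieldBar N)) ∈ Divisor.principal := by
    have h0 : Pic0.mk (n • D) = 0 := hx
    exact (QuotientAddGroup.eq_zero_iff (n • D)).mp h0
  obtain ⟨f, -, hf⟩ := hprin
  obtain ⟨L, hL, hfix⟩ := exists_field_fixing_coeffMap (modularFunctionFieldFull N) f.2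
  refine ⟨L, hL, fun σ hσ => ?_⟩
  have hgf : arithmeticGalois (modularFunctionFieldFull N) σ • f = f :=
    Subtype.ext (hfix σ hσ)
  have hD : arithmeticGalois (modularFunctionFieldFull N) σ •
      (D : Divisor (AlgebraicClosure ℚ) (modularFunctionFieldBar N)) = D :=
    semilinearAut_smul_divisor_eq_of_fix _ _ n hn f
      (fun v => by simpa using hf v) hgf
  show arithmeticGalois (modularFunctionFieldFull N) σ • Pic0.mk D = Pic0.mk D
  rw [SemilinearAut.pic0_smul_mk]
  exact congrArg Pic0.mk (Subtype.ext hD)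

end Fermat.Agent.GalRep
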