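import Mathlib
import Fermat.Agent.GalRep.JacInput
import Fermat.Agent.GalRep.SpecLocal
import Fermat.Agent.GalRep.TorsionStab

/-!
# Item 72: construction of `JacInput` from the statements of items 68 (S37), 74 (HECKE-BAR),
69 (AJ, "Form L") and ES-H (multiplicity)
-/

set_option autoImplicit false

open scoped TensorProduct
open ModularCurve

namespace Fermat.Agent.GalRep

section

variable {N : ℕ} [NeZero N]

/-- the Galois action commutes with the whole Hecke algebra -/
theorem jacInput_heckeEvalBar_comm (hHC : HeckeOperatorsCommuteBar N)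
    (hgal : ∀ (σ : GQ) (ℓ : Nat.Primes) (x : JZero N),
      σ • heckeOperatorBar N ℓ x = heckeOperatorBar N ℓ (σ • x))
    (σ : GQ) (t : HeckeAlg) (x : JZero N) :
    σ • heckeEvalBar hHC t x = heckeEvalBar hHC t (σ • x) := by
  induction t using MvPolynomial.induction_on generalizing x with
  | C a =>
    rw [heckeEvalBar_C, Module.End.intCast_apply, Module.End.intCast_apply]
    have := map_zsmul (DistribSMul.toAddMonoidHom (JZero N) σ) a x
    rw [DistribSMul.toAddMonoidHom_apply, DistribSMul.toAddMonoidHom_apply] at this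
    exact this
  | add a b iha ihb =>
    rw [map_add, LinearMap.add_apply, LinearMap.add_apply, smul_add, iha, ihb]
  | mul_X a ℓ iha =>
    have e : heckeEvalBar hHC (a * MvPolynomial.X ℓ) =
        heckeEvalBar hHC a * heckeOperatorBar N ℓ := by
      rw [map_mul]
      congr 1
      exact heckeEvalBar_heckeGen hHC ℓ
    rw [e, Module.End.mul_apply, Module.End.mul_apply, iha, hgal]

/-- the `SMulCommClass` needed by S37 -/
theorem jacInput_smulCommClass (hHC : HeckeOperatorsCommuteBar N)
    (hgal : ∀ (σ : GQ) (ℓ : Nat.Primes) (x : JZero N),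
      σ • heckeOperatorBar N ℓ x = heckeOperatorBar N ℓ (σ • x)) :
    letI := heckeModuleBar N
    SMulCommClass GQ HeckeAlg (JZero N) := by
  let _ := heckeModuleBar N
  refine ⟨fun σ t x => ?_⟩
  rw [heckeModuleBar_smul_def hHC, heckeModuleBar_smul_def hHC]
  exact jacInput_heckeEvalBar_comm hHC hgal σ t x

end

/-- The arithmetic input of item 72 from the statements of the items 68, 69, 74 and ES-H. -/
noncomputable def JacInput.ofStatements (N p : ℕ) [NeZero N] (hp : 0 < p)
    (hS37 : S37Statement) (hHC : HCStatement) (hGal : GalCommStatement)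
    (Λ : Type) [AddCommGroup Λ] [Module.Free ℤ Λ] [Module.Finite ℤ Λ]
    (T : Nat.Primes → (Λ →ₗ[ℤ] Λ)) (e : ℕ → Λ →+ JZero N)
    (e_range : ∀ (n : ℕ) (x : JZero N), p ^ n • x = 0 → ∃ l, e n l = x)
    (e_ker : ∀ (n : ℕ) (l : Λ), e n l = 0 ↔ ∃ m : Λ, l = p ^ n • m)
    (e_succ : ∀ (n : ℕ) (l : Λ), p • e (n + 1) l = e n l)
    (e_hecke : ∀ (n : ℕ) (ℓ : Nat.Primes) (l : Λ), e n (T ℓ l) = heckeOperatorBar N ℓ (e n l))
    (mult : ∀ (K : Type) [Field K] [CharZero K]
      (χ : CuspForm.heckeAlgebra N 2 (∅ : Set ℕ) →+* K),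
      Module.finrank K (eigenSub K T
        (fun ℓ => χ (CuspForm.heckeEvalForms N 2 (ModularCurve.heckeGen ℓ)))) = 2) :
    JacInput N p :=
  letI := heckeModuleBar N
  haveI : SMulCommClass GQ HeckeAlg (JZero N) := jacInput_smulCommClass (hHC N) (hGal N)
  have hsp : SpecializationExists (K := ℚ) (L := AlgebraicClosure ℚ) N p (JZero N) :=
    hS37 N p (hHC N) inferInstance
  { unram := unramifiedOutside_of_specializationExists N p (JZero N) hsp
    frob := fun ℓ hℓ hℓN A hA σ hσ x hx => by
      have := frobeniusQuadratic_of_specializationExists N p (JZero N) hsp ℓ hℓ hℓN A hA σ hσ x hx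
      rw [heckeModuleBar_heckeGen_smul (hHC N)] at this
      exact this
    galComm := hGal N
    stab := fun x hx => by
      obtain ⟨n, hn⟩ := hx
      exact exists_field_fixing_torsion N (p ^ n) (pow_pos hp n) x hn
    Λ := Λ
    T := T
    e := e
    e_range := e_range
    e_ker := e_ker
    e_succ := e_succ
    e_hecke := e_hecke
    mult := mult }

end Fermat.Agent.GalRep
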