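/-
Item 72, piece A2b: residue fields embed.
If `ψ : R → k''` (`k''` a finite field) and `φ ∘ χ : R → ℤ̄ → k` have the same kernel, then there
is a ring hom `r : k'' → k` with `r ∘ ψ = φ ∘ χ`.
Key facts: `ker φ` is a maximal ideal of `ℤ̄` and `ℤ̄ ⧸ ker φ` is algebraically closed.  (helper28)
-/
import Mathlib

set_option autoImplicit false

open Polynomial

namespace Fermat.Agent.GalRep

/-- `ℤ̄ = integralClosure ℤ ℂ` is "algebraically closed as a ring": every monic polynomial of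
positive degree over it has a root in it. -/
lemma rl_exists_root (Q : (integralClosure ℤ ℂ)[X]) (hQ : Q.Monic) (hdeg : Q.natDegree ≠ 0) :
    ∃ z : integralClosure ℤ ℂ, Q.eval z = 0 := by
  set Qc : ℂ[X] := Q.map (algebraMap (integralClosure ℤ ℂ) ℂ) with hQc
  have hQcm : Qc.Monic := hQ.map _
  have hQcdeg : Qc.degree ≠ 0 := by
    rw [hQc, Polynomial.degree_map_eq_of_injective
      (FaithfulSMul.algebraMap_injective (integralClosure ℤ ℂ) ℂ)]
    intro h
    exact hdeg (Polynomial.natDegree_eq_zero_iff_degree_le_zero.2 (le_of_eq h))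
  obtain ⟨z, hz⟩ := IsAlgClosed.exists_root Qc hQcdeg
  have hz' : IsIntegral (integralClosure ℤ ℂ) z := ⟨Q, hQ, by
    rw [← Polynomial.eval_map]; exact hz⟩
  have hz'' : IsIntegral ℤ z := isIntegral_trans z hz'
  refine ⟨⟨z, hz''⟩, ?_⟩
  apply FaithfulSMul.algebraMap_injective (integralClosure ℤ ℂ) ℂ
  rw [map_zero, ← Polynomial.eval₂_hom, ← Polynomial.eval_map]
  exact hz


/-- A prime ideal of `ℤ̄` containing a prime number is maximal. -/
lemma rl_isMaximal (P : Ideal (integralClosure ℤ ℂ)) [hP : P.IsPrime] {p : ℕ} (hp : p.Prime)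
    (hpP : (p : integralClosure ℤ ℂ) ∈ P) : P.IsMaximal := by
  apply Ideal.isMaximal_of_isIntegral_of_isMaximal_comap (R := ℤ) P
  have hprime : (P.comap (algebraMap ℤ (integralClosure ℤ ℂ))).IsPrime := Ideal.comap_isPrime _ P
  have hne : P.comap (algebraMap ℤ (integralClosure ℤ ℂ)) ≠ ⊥ := by
    intro h
    have hmem : (p : ℤ) ∈ P.comap (algebraMap ℤ (integralClosure ℤ ℂ)) := by
      rw [Ideal.mem_comap]
      simpa using hpP
    rw [h, Ideal.mem_bot] at hmem
    exact hp.ne_zero (by exact_mod_cast hmem)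
  exact hprime.isMaximal hne

/-- The quotient of `ℤ̄` by a maximal ideal is algebraically closed. -/
lemma rl_isAlgClosed (P : Ideal (integralClosure ℤ ℂ)) [hP : P.IsMaximal] :
    letI : Field (integralClosure ℤ ℂ ⧸ P) := Ideal.Quotient.field P
    IsAlgClosed (integralClosure ℤ ℂ ⧸ P) := by
  letI : Field (integralClosure ℤ ℂ ⧸ P) := Ideal.Quotient.field P
  apply IsAlgClosed.of_exists_root
  intro q hq hirr
  obtain ⟨Q, hQmap, hQdeg, hQm⟩ := Polynomial.lifts_and_natDegree_eq_and_monic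
    (Polynomial.map_surjective (Ideal.Quotient.mk P) Ideal.Quotient.mk_surjective q
      |>.elim fun Q hQ => (Polynomial.mem_lifts q).2 ⟨Q, hQ⟩) hq
  have hdeg : Q.natDegree ≠ 0 := by
    rw [hQdeg]
    exact (Polynomial.natDegree_pos_iff_degree_pos.2 (Polynomial.degree_pos_of_irreducible hirr)).ne'
  obtain ⟨z, hz⟩ := rl_exists_root Q hQm hdeg
  refine ⟨Ideal.Quotient.mk P z, ?_⟩
  rw [← hQmap, Polynomial.eval_map, Polynomial.eval₂_hom, hz, map_zero]

/-- **A2b**: residue fields embed. -/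
theorem exists_residue_lift {R : Type} [CommRing R] (k'' : Type) [Field k''] [Finite k'']
    (ψ : R →+* k'') {k : Type} [Field k] (φ : integralClosure ℤ ℂ →+* k)
    (χ : R →+* integralClosure ℤ ℂ)
    (hker : ∀ t : R, ψ t = 0 ↔ φ (χ t) = 0) : ∃ r : k'' →+* k, ∀ t : R, r (ψ t) = φ (χ t) := by
  -- the characteristic
  obtain ⟨p, hchar⟩ := CharP.exists k''
  have hp : p.Prime := CharP.char_is_prime k'' p
  -- `ker φ` is maximal
  set P : Ideal (integralClosure ℤ ℂ) := RingHom.ker φ with hPdef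
  haveI hPprime : P.IsPrime := RingHom.ker_isPrime φ
  have hpP : (p : integralClosure ℤ ℂ) ∈ P := by
    rw [hPdef, RingHom.mem_ker]
    have h1 : ψ (p : R) = 0 := by rw [map_natCast]; exact CharP.cast_eq_zero k'' p
    have h2 := (hker (p : R)).1 h1
    rwa [map_natCast] at h2
  haveI hPmax : P.IsMaximal := rl_isMaximal P hp hpP
  letI instF : Field (integralClosure ℤ ℂ ⧸ P) := Ideal.Quotient.field P
  haveI hac : IsAlgClosed (integralClosure ℤ ℂ ⧸ P) := rl_isAlgClosed P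
  -- the base ring `R₀ = R ⧸ ker ψ`
  haveI hQprime : (RingHom.ker ψ).IsPrime := RingHom.ker_isPrime ψ
  set f₁ : R ⧸ RingHom.ker ψ →+* k'' := RingHom.kerLift ψ with hf₁
  have hf₁inj : Function.Injective f₁ := RingHom.kerLift_injective ψ
  have hle : ∀ a ∈ RingHom.ker ψ, ((Ideal.Quotient.mk P).comp χ) a = 0 := by
    intro a ha
    rw [RingHom.comp_apply, Ideal.Quotient.eq_zero_iff_mem, hPdef, RingHom.mem_ker]
    exact (hker a).1 (RingHom.mem_ker.1 ha)
  set f₂ : R ⧸ RingHom.ker ψ →+* (integralClosure ℤ ℂ ⧸ P) :=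
    Ideal.Quotient.lift (RingHom.ker ψ) ((Ideal.Quotient.mk P).comp χ) hle with hf₂
  have hf₂inj : Function.Injective f₂ := by
    rw [injective_iff_map_eq_zero]
    intro x hx
    obtain ⟨a, rfl⟩ := Ideal.Quotient.mk_surjective x
    rw [hf₂, Ideal.Quotient.lift_mk, RingHom.comp_apply, Ideal.Quotient.eq_zero_iff_mem, hPdef,
      RingHom.mem_ker] at hx
    rw [Ideal.Quotient.eq_zero_iff_mem, RingHom.mem_ker]
    exact (hker a).2 hx
  letI alg₁ : Algebra (R ⧸ RingHom.ker ψ) k'' := f₁.toAlgebra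
  letI alg₂ : Algebra (R ⧸ RingHom.ker ψ) (integralClosure ℤ ℂ ⧸ P) := f₂.toAlgebra
  haveI tf₁ : Module.IsTorsionFree (R ⧸ RingHom.ker ψ) k'' :=
    Module.isTorsionFree_iff_algebraMap_injective.2 hf₁inj
  haveI tf₂ : Module.IsTorsionFree (R ⧸ RingHom.ker ψ) (integralClosure ℤ ℂ ⧸ P) :=
    Module.isTorsionFree_iff_algebraMap_injective.2 hf₂inj
  haveI : Module.Finite (R ⧸ RingHom.ker ψ) k'' := Module.Finite.of_finite
  haveI : Algebra.IsAlgebraic (R ⧸ RingHom.ker ψ) k'' := Algebra.IsAlgebraic.of_finite _ _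
  let lft : k'' →ₐ[R ⧸ RingHom.ker ψ] (integralClosure ℤ ℂ ⧸ P) := IsAlgClosed.lift
  refine ⟨(RingHom.kerLift φ).comp lft.toRingHom, fun t => ?_⟩
  have h1 : ψ t = algebraMap (R ⧸ RingHom.ker ψ) k'' (Ideal.Quotient.mk _ t) := rfl
  rw [RingHom.comp_apply, h1]
  have h2 : lft.toRingHom (algebraMap (R ⧸ RingHom.ker ψ) k'' (Ideal.Quotient.mk _ t))
      = algebraMap (R ⧸ RingHom.ker ψ) (integralClosure ℤ ℂ ⧸ P) (Ideal.Quotient.mk _ t) :=
    lft.commutes _
  rw [h2]
  rfl

end Fermat.Agent.GalRep
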