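/-
Item 72, piece W2: S29 from S30 (wiring).
`s29_of_s30_aux` proves `S30Statement → S29Statement` from A1 (`exists_heckeChar_of_eigenform`)
and the statements A2, A2b taken as hypotheses (`A2Statement`, `A2bStatement`).  (helper28)
-/
import Mathlib
import Fermat.Agent.GalRep.Goals
import Fermat.Agent.GalRep.EigenChar

set_option autoImplicit false

open Polynomial
open scoped TensorProduct

namespace Fermat.Agent.GalRep

/-- A2 as a `Prop` (exact blueprint signature). -/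
def A2Statement : Prop :=
  ∀ {R : Type} [CommRing R] [Module.Finite ℤ R]
    (χ : R →+* integralClosure ℤ ℂ) {p : ℕ} (_ : p.Prime) {k : Type} [Field k] [CharP k p]
    (φ : integralClosure ℤ ℂ →+* k),
    ∃ (𝒪' : Type) (_ : CommRing 𝒪') (_ : IsDomain 𝒪') (_ : IsDiscreteValuationRing 𝒪')
      (_ : IsAdicComplete (IsLocalRing.maximalIdeal 𝒪') 𝒪')
      (_ : Finite (IsLocalRing.ResidueField 𝒪'))
      (_ : CharZero 𝒪') (χ' : R →+* 𝒪'), (p : 𝒪') ∈ IsLocalRing.maximalIdeal 𝒪' ∧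
      ∀ t : R, IsLocalRing.residue 𝒪' (χ' t) = 0 ↔ φ (χ t) = 0

/-- A2b as a `Prop` (exact blueprint signature). -/
def A2bStatement : Prop :=
  ∀ {R : Type} [CommRing R] (k'' : Type) [Field k''] [Finite k'']
    (ψ : R →+* k'') {k : Type} [Field k] (φ : integralClosure ℤ ℂ →+* k)
    (χ : R →+* integralClosure ℤ ℂ)
    (_ : ∀ t : R, ψ t = 0 ↔ φ (χ t) = 0), ∃ r : k'' →+* k, ∀ t : R, r (ψ t) = φ (χ t)

/-- the trivial two-dimensional residual representation -/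
noncomputable def s29TrivialRep (k : Type) [Field k] : ResidualGaloisRep k :=
  { V := Fin 2 → k
    finrank_eq := by simp
    ρ := 1
    factorsThroughFiniteLevel := ⟨⊥, inferInstance, fun _ _ => rfl⟩ }

/-- the residual representation of `ρ`, pushed forward along `r : k'' → k` -/
noncomputable def s29Reduce {𝒪 : Type} [CommRing 𝒪] [IsLocalRing 𝒪] (ρ : GaloisRepAdic 𝒪)
    {k : Type} [Field k] (r : IsLocalRing.ResidueField 𝒪 →+* k) : ResidualGaloisRep k :=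
  ρ.residual.baseChangeAlong r

lemma s29Reduce_one {𝒪 : Type} [CommRing 𝒪] [IsLocalRing 𝒪] (ρ : GaloisRepAdic 𝒪)
    {k : Type} [Field k] (r : IsLocalRing.ResidueField 𝒪 →+* k)
    (σ : AlgebraicClosure ℚ ≃ₐ[ℚ] AlgebraicClosure ℚ) (h : ρ.ρ σ = 1) :
    (s29Reduce ρ r).ρ σ = 1 := by
  letI : Algebra (IsLocalRing.ResidueField 𝒪) k := r.toAlgebra
  show ((ρ.ρ σ).baseChange (IsLocalRing.ResidueField 𝒪)).baseChange k = 1
  rw [h, LinearMap.baseChange_one, LinearMap.baseChange_one]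

lemma s29Reduce_charpoly {𝒪 : Type} [CommRing 𝒪] [IsLocalRing 𝒪] (ρ : GaloisRepAdic 𝒪)
    {k : Type} [Field k] (r : IsLocalRing.ResidueField 𝒪 →+* k)
    (σ : AlgebraicClosure ℚ ≃ₐ[ℚ] AlgebraicClosure ℚ) :
    LinearMap.charpoly ((s29Reduce ρ r).ρ σ)
      = ((LinearMap.charpoly (ρ.ρ σ)).map (IsLocalRing.residue 𝒪)).map r := by
  letI : Algebra (IsLocalRing.ResidueField 𝒪) k := r.toAlgebra
  show LinearMap.charpoly (((ρ.ρ σ).baseChange (IsLocalRing.ResidueField 𝒪)).baseChange k) = _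
  rw [LinearMap.charpoly_baseChange, LinearMap.charpoly_baseChange]
  rfl


/-- **W2**, from A2 and A2b. -/
theorem s29_of_s30_aux (hA2 : A2Statement) (hA2b : A2bStatement) (h : S30Statement) :
    S29Statement := by
  intro N g hg p hp k _ _ φ
  rcases Nat.eq_zero_or_pos N with rfl | hN
  · refine ⟨s29TrivialRep k, ?_, ?_⟩
    · intro ℓ _ hℓN
      exact absurd (dvd_zero ℓ) hℓN
    · intro ℓ _ hℓN
      exact absurd (by simp) hℓN
  haveI : NeZero N := ⟨hN.ne'⟩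
  haveI : Fact p.Prime := ⟨hp⟩
  -- the set of primes
  obtain ⟨S, hS⟩ : ∃ S : Finset ℕ, S = insert p N.primeFactors := ⟨_, rfl⟩
  have hpS : p ∈ S := by rw [hS]; exact Finset.mem_insert_self _ _
  have hNS : ∀ q : ℕ, q.Prime → q ∣ N → q ∈ S := by
    intro q hq hqN
    rw [hS]
    exact Finset.mem_insert_of_mem (Nat.mem_primeFactors.2 ⟨hq, hqN, hN.ne'⟩)
  have hnotS : ∀ ℓ : ℕ, ℓ ≠ p → ¬ ℓ ∣ N → ℓ ∉ (↑S : Set ℕ) := by
    intro ℓ hℓp hℓN hmem
    rw [hS] at hmem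
    rcases Finset.mem_insert.1 hmem with h1 | h1
    · exact hℓp h1
    · exact hℓN (Nat.mem_primeFactors.1 h1).2.1
  -- A1
  obtain ⟨χg, hχg⟩ := exists_heckeChar_of_eigenform hg (↑S : Set ℕ)
  haveI : Module.Finite ℤ (CuspForm.heckeAlgebra N 2 (↑S : Set ℕ)) :=
    Fermat.Agent.S22.result N 2 (↑S : Set ℕ)
  -- A2
  obtain ⟨𝒪', _, _, _, _, _, _, χ', hp𝒪', hker⟩ := hA2 χg hp φ
  -- S30
  obtain ⟨𝒪'', _, _, _, _, _, _, _, _, hloc, hinj, ρ, hρ, hur⟩ :=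
    h p N S hpS hNS 𝒪' hp𝒪' χ'
  -- A2b
  set ψ : CuspForm.heckeAlgebra N 2 (↑S : Set ℕ) →+* IsLocalRing.ResidueField 𝒪'' :=
    (IsLocalRing.residue 𝒪'').comp ((algebraMap 𝒪' 𝒪'').comp χ') with hψ
  have hkerψ : ∀ t, ψ t = 0 ↔ φ (χg t) = 0 := by
    intro t
    rw [← hker t, hψ]
    simp only [RingHom.comp_apply]
    rw [IsLocalRing.residue_eq_zero_iff, IsLocalRing.residue_eq_zero_iff,
      IsLocalRing.mem_maximalIdeal, IsLocalRing.mem_maximalIdeal, mem_nonunits_iff,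
      mem_nonunits_iff, isUnit_map_iff]
  obtain ⟨r, hr⟩ := hA2b (IsLocalRing.ResidueField 𝒪'') ψ φ χg hkerψ
  refine ⟨s29Reduce ρ r, ?_, ?_⟩
  · intro ℓ hℓ hℓN hℓk A hA σ hσ
    have hℓp : ℓ ≠ p := by
      rintro rfl
      exact hℓk (CharP.cast_eq_zero k ℓ)
    have hℓS := hnotS ℓ hℓp hℓN
    refine ⟨χg (CuspForm.heckeAlgebra.T hℓ hℓN hℓS), hχg ℓ hℓ hℓN hℓS, ?_⟩
    rw [s29Reduce_charpoly, hρ ℓ hℓ hℓN hℓS A hA σ hσ]
    simp only [Polynomial.map_add, Polynomial.map_sub, Polynomial.map_mul, Polynomial.map_pow,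
      Polynomial.map_X, Polynomial.map_C, map_natCast, Polynomial.map_natCast]
    have e : r (IsLocalRing.residue 𝒪'' (algebraMap 𝒪' 𝒪''
        (χ' (CuspForm.heckeAlgebra.T hℓ hℓN hℓS)))) =
        φ (χg (CuspForm.heckeAlgebra.T hℓ hℓN hℓS)) := hr _
    rw [e]
  · intro ℓ hℓ hℓNp A hA σ hσ
    have hℓN : ¬ ℓ ∣ N := fun h' => hℓNp (Dvd.dvd.mul_right h' p)
    have hℓp : ℓ ≠ p := by
      rintro rfl
      exact hℓNp (Dvd.intro_left N rfl)
    exact s29Reduce_one ρ r σ (hur ℓ hℓ hℓN hℓp A hA σ hσ)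

end Fermat.Agent.GalRep
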