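/-
Item 72, piece W2 (final): `s29_of_s30 : S30Statement → S29Statement`, from
`s29_of_s30_aux` (S29Wiring), A2 (`exists_completeDVR_of_residue`, CompleteDVR) and
A2b (`exists_residue_lift`, ResidueLift).  (helper28)
-/
import Mathlib
import Fermat.Agent.GalRep.S29Wiring
import Fermat.Agent.GalRep.CompleteDVR
import Fermat.Agent.GalRep.ResidueLift

set_option autoImplicit false

namespace Fermat.Agent.GalRep

theorem a2Statement : A2Statement := fun χ _ hp _ _ _ φ =>
  exists_completeDVR_of_residue χ hp φ

theorem a2bStatement : A2bStatement := fun k'' _ _ ψ _ _ φ χ hker =>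
  exists_residue_lift k'' ψ φ χ hker

/-- **W2**: S29 follows from S30. -/
theorem s29_of_s30 (h : S30Statement) : S29Statement :=
  s29_of_s30_aux a2Statement a2bStatement h

end Fermat.Agent.GalRep
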