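/-
Item 72, piece W3 (helper8): `S42 ⇐ S29`.

Given the residual representation attached to an eigenform (S29), the data of
`FreyPackage.EigenformResidualAttachmentAt` are: `K = ℤ̄ ⧸ 𝔪`, `ψ` the quotient map, `ρ` from
S29, and `F` the normal closure of the compositum of the finite level of `ρ` and the
`p`-torsion field of the Frey curve.
-/
import Mathlib
import Fermat.Agent.GalRep.Goals
import Fermat.Agent.GalRep.LinAlg2
import Fermat.Agent.FrobProfinite
import Fermat.Agent.S13lib.Dichotomy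
import Fermat.Agent.S13lib.DivPolyLadder

set_option autoImplicit false

open Polynomial

namespace Fermat.Agent.GalRep

open Fermat.Agent.S13lib WeierstrassCurve WeierstrassCurve.Affine WeierstrassCurve.Affine.Point

/-! ### the number field `F` -/

theorem s42_algebra_eq (N : IntermediateField ℚ (AlgebraicClosure ℚ)) :
    (N.algebra' : Algebra ℚ ↥N) = DivisionRing.toRatAlgebra :=
  Subsingleton.elim _ _

/-- packaging a finite normal intermediate field as the number field data of S42 -/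
theorem s42_exists_field_aux (N : IntermediateField ℚ (AlgebraicClosure ℚ))
    (hfin : @FiniteDimensional ℚ ↥N _ _ N.algebra'.toModule)
    (hnor : @Normal ℚ ↥N _ _ N.algebra') :
    ∃ (F : Type) (_ : Field F) (_ : NumberField F) (_ : IsGalois ℚ F)
      (_ : Algebra F (AlgebraicClosure ℚ)) (_ : IsScalarTower ℚ F (AlgebraicClosure ℚ)),
      ∀ σ : GQ, σ ∈ (AlgEquiv.restrictNormalHom (F := ℚ) (K₁ := AlgebraicClosure ℚ) F).ker →
        ∀ x ∈ N, σ x = x := by
  rw [s42_algebra_eq N] at hfin hnor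
  have hgal : IsGalois ℚ ↥N := by
    have := hnor
    exact IsGalois.mk
  have hnf : NumberField ↥N := ⟨⟩
  have hst : IsScalarTower ℚ ↥N (AlgebraicClosure ℚ) :=
    IsScalarTower.of_algebraMap_eq (fun q => by simp)
  refine ⟨↥N, inferInstance, hnf, hgal, inferInstance, hst, ?_⟩
  intro σ hσ x hx
  rw [MonoidHom.mem_ker] at hσ
  have h1 := AlgEquiv.restrictNormal_commutes σ ↥N ⟨x, hx⟩
  have h2 : σ.restrictNormal ↥N = 1 := hσ
  rw [h2] at h1
  exact h1.symm

/-- every finite-dimensional intermediate field is contained in a finite Galois number field -/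
theorem s42_exists_field (L : IntermediateField ℚ (AlgebraicClosure ℚ))
    (hfin : FiniteDimensional ℚ L) :
    ∃ (F : Type) (_ : Field F) (_ : NumberField F) (_ : IsGalois ℚ F)
      (_ : Algebra F (AlgebraicClosure ℚ)) (_ : IsScalarTower ℚ F (AlgebraicClosure ℚ)),
      ∀ σ : GQ, σ ∈ (AlgEquiv.restrictNormalHom (F := ℚ) (K₁ := AlgebraicClosure ℚ) F).ker →
        ∀ x ∈ L, σ x = x := by
  have hfin' : @FiniteDimensional ℚ ↥L _ _ L.algebra'.toModule := by
    rw [s42_algebra_eq L]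
    exact hfin
  have hgQ : IsGalois ℚ (AlgebraicClosure ℚ) := Fermat.Agent.FrobLib.isGalois_QBar
  have hnQ : Normal ℚ (AlgebraicClosure ℚ) := hgQ.to_normal
  have hle : L ≤ IntermediateField.normalClosure ℚ ↥L (AlgebraicClosure ℚ) :=
    IntermediateField.le_normalClosure L
  have hN1 : @FiniteDimensional ℚ
      ↥(IntermediateField.normalClosure ℚ ↥L (AlgebraicClosure ℚ)) _ _
      (IntermediateField.normalClosure ℚ ↥L (AlgebraicClosure ℚ)).algebra'.toModule :=
    normalClosure.is_finiteDimensional ℚ ↥L (AlgebraicClosure ℚ)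
  have hN2 : @Normal ℚ ↥(IntermediateField.normalClosure ℚ ↥L (AlgebraicClosure ℚ)) _ _
      (IntermediateField.normalClosure ℚ ↥L (AlgebraicClosure ℚ)).algebra' :=
    normalClosure.normal ℚ ↥L (AlgebraicClosure ℚ)
  obtain ⟨F, i1, i2, i3, i4, i5, hF⟩ := s42_exists_field_aux _ hN1 hN2
  exact ⟨F, i1, i2, i3, i4, i5, fun σ hσ x hx => hF σ hσ x (hle hx)⟩

/-! ### the `p`-torsion field of the Frey curve -/

theorem s42_finite_FT (P : FreyPackage) : Finite (FT P) := by
  obtain ⟨Ψ, hdeg, -, hΨ⟩ := exists_divPoly P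
  have h0 : Ψ ≠ 0 := by
    rintro rfl
    rw [natDegree_zero] at hdeg
    have h5 := P.hp5
    have : 25 ≤ P.p ^ 2 := by nlinarith
    omega
  exact (card_FT_le P Ψ hdeg h0 hΨ).1

/-- the coordinates of a point -/
def s42_coords (P : FreyPackage) : FPt P → Set Qb
  | .zero => ∅
  | .some x y _ => {x, y}

theorem s42_finite_coords (P : FreyPackage) (t : FPt P) : (s42_coords P t).Finite := by
  rcases t with _ | ⟨x, y, h⟩
  · exact Set.finite_empty
  · show ({x, y} : Set Qb).Finite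
    exact Set.toFinite _

theorem s42_smul_eq_of_fix (P : FreyPackage) (σ : GQ) (t : FPt P)
    (h : ∀ c ∈ s42_coords P t, σ c = c) : σ • t = t := by
  rcases t with _ | ⟨x, y, hxy⟩
  · rfl
  · have hx : σ x = x := h x (by simp [s42_coords])
    have hy : σ y = y := h y (by simp [s42_coords])
    rw [algEquiv_smul_def]
    simp only [Point.map_some]
    congr 1

theorem s42_frey_finite_level (P : FreyPackage) :
    ∃ L : IntermediateField ℚ Qb, FiniteDimensional ℚ L ∧
      ∀ σ : GQ, (∀ x ∈ L, σ x = x) →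
        galoisRepModuleEnd (S := ℚ) (K := Qb) P.freyCurve P.p σ = 1 := by
  have hfin := s42_finite_FT P
  set C : Set Qb := ⋃ t : FT P, s42_coords P (t : FPt P) with hC
  have hCfin : C.Finite := Set.finite_iUnion fun t => s42_finite_coords P _
  have hCF : Finite C := hCfin
  have hint : ∀ x ∈ C, IsIntegral ℚ x := fun x _ =>
    (Fermat.Agent.FrobLib.isAlgebraic_QBar.isAlgebraic x).isIntegral
  refine ⟨IntermediateField.adjoin ℚ C, IntermediateField.finiteDimensional_adjoin hint,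
    fun σ hσ => ?_⟩
  apply LinearMap.ext
  intro t
  rw [galoisRepModuleEnd_apply]
  apply Subtype.ext
  show σ • (t : FPt P) = (t : FPt P)
  apply s42_smul_eq_of_fix
  intro c hc
  exact hσ c (IntermediateField.subset_adjoin ℚ C (Set.mem_iUnion.mpr ⟨t, hc⟩))

/-! ### trace and determinant from the characteristic polynomial -/

theorem s42_trace_det_of_charpoly {K : Type} [Field K] {V : Type} [AddCommGroup V] [Module K V]
    [Module.Finite K V] (hV : Module.finrank K V = 2) (f : Module.End K V) (a b : K)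
    (h : LinearMap.charpoly f = X ^ 2 - C a * X + C b) :
    LinearMap.trace K V f = a ∧ LinearMap.det f = b := by
  have h1 := linAlg2_charpoly_eq hV f
  rw [h] at h1
  have c0 := congrArg (fun q : K[X] => q.coeff 0) h1
  have c1 := congrArg (fun q : K[X] => q.coeff 1) h1
  simp only [coeff_add, coeff_sub, coeff_X_pow, coeff_C_mul, coeff_X_zero,
    mul_zero, coeff_C, coeff_X_one, mul_one] at c0 c1
  norm_num at c0 c1
  exact ⟨c1.symm, c0.symm⟩

/-- W3 -/
theorem s42_of_s29 (h : S29Statement) : S42Statement := by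
  intro P M hM g hg 𝔪 h𝔪 hp𝔪
  have hpp : P.p.Prime := P.pp
  let _ : Field (integralClosure ℤ ℂ ⧸ 𝔪) := Ideal.Quotient.field 𝔪
  have hp0 : ((P.p : ℕ) : integralClosure ℤ ℂ ⧸ 𝔪) = 0 := by
    rw [← map_natCast (Ideal.Quotient.mk 𝔪)]
    exact Ideal.Quotient.eq_zero_iff_mem.mpr hp𝔪
  have : CharP (integralClosure ℤ ℂ ⧸ 𝔪) P.p := (CharP.charP_iff_prime_eq_zero hpp).mpr hp0
  let _ : Algebra (ZMod P.p) (integralClosure ℤ ℂ ⧸ 𝔪) := ZMod.algebra _ P.p
  obtain ⟨ρ, hatt, -⟩ := h (N := M) (g := g) hg (p := P.p) hpp (Ideal.Quotient.mk 𝔪)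
  obtain ⟨L₁, hL₁fin, hL₁⟩ := ρ.factorsThroughFiniteLevel
  obtain ⟨L₂, hL₂fin, hL₂⟩ := s42_frey_finite_level P
  have hfin : FiniteDimensional ℚ ↥(L₁ ⊔ L₂) := by
    have := hL₁fin
    have := hL₂fin
    exact IntermediateField.finiteDimensional_sup L₁ L₂
  obtain ⟨F, i1, i2, i3, i4, i5, hF⟩ := s42_exists_field (L₁ ⊔ L₂) hfin
  have hℓ0 : ∀ ℓ : ℕ, ℓ.Prime → ℓ ≠ P.p → ((ℓ : ℕ) : integralClosure ℤ ℂ ⧸ 𝔪) ≠ 0 := by
    intro ℓ hℓ hℓp h0
    have := (CharP.cast_eq_zero_iff (integralClosure ℤ ℂ ⧸ 𝔪) P.p ℓ).mp h0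
    exact hℓp ((Nat.prime_dvd_prime_iff_eq hpp hℓ).mp this).symm
  refine ⟨integralClosure ℤ ℂ ⧸ 𝔪, inferInstance, inferInstance, ρ.V, inferInstance,
    inferInstance, ρ.ρ, Ideal.Quotient.mk 𝔪, F, i1, i2, i3, i4, i5, ?_, ρ.finrank_eq, ?_, ?_, ?_⟩
  · intro x hx
    rw [RingHom.mem_ker]
    exact Ideal.Quotient.eq_zero_iff_mem.mpr hx
  · intro σ hσ
    have hfix := hF σ hσ
    exact Subgroup.mem_inf.mpr
      ⟨MonoidHom.mem_ker.mpr (hL₂ σ (fun x hx => hfix x ((le_sup_right : L₂ ≤ L₁ ⊔ L₂) hx))),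
        MonoidHom.mem_ker.mpr (hL₁ σ (fun x hx => hfix x ((le_sup_left : L₁ ≤ L₁ ⊔ L₂) hx)))⟩
  · intro ℓ hℓ hℓM hℓp A hA τ hτ
    obtain ⟨a, ha, hchar⟩ := hatt ℓ hℓ hℓM (hℓ0 ℓ hℓ hℓp) A hA τ hτ
    exact ⟨a, ha, (s42_trace_det_of_charpoly ρ.finrank_eq _ _ _ hchar).1⟩
  · intro ℓ hℓ hℓM hℓp A hA τ hτ
    obtain ⟨a, ha, hchar⟩ := hatt ℓ hℓ hℓM (hℓ0 ℓ hℓ hℓp) A hA τ hτ
    exact (s42_trace_det_of_charpoly ρ.finrank_eq _ _ _ hchar).2

end Fermat.Agent.GalRep
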