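import Mathlib
import Fermat.Agent.GalRep.Assemble
import Fermat.Agent.GalRep.JacInputOf
import Fermat.Agent.GalRep.S29Final
import Fermat.Agent.GalRep.S42Wiring

/-!
# Item 72: S30, S29, S42 from the statements of items 68 (S37), 74 (HECKE-BAR), 69 (AJ) + ES-H
-/

set_option autoImplicit false

open scoped TensorProduct
open ModularCurve

namespace Fermat.Agent.GalRep

/-- statement of item 69 ("Form L" with Hecke equivariance) together with ES-H (multiplicity):
a Hecke lattice with `p`-adic level structures on `J₀(N)`. -/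
def LatStatement : Prop :=
  ∀ (N p : ℕ) [NeZero N] [Fact p.Prime],
    ∃ (Λ : Type) (_ : AddCommGroup Λ) (_ : Module.Free ℤ Λ) (_ : Module.Finite ℤ Λ)
      (T : Nat.Primes → (Λ →ₗ[ℤ] Λ)) (e : ℕ → Λ →+ JZero N),
      (∀ (n : ℕ) (x : JZero N), p ^ n • x = 0 → ∃ l, e n l = x) ∧
      (∀ (n : ℕ) (l : Λ), e n l = 0 ↔ ∃ m : Λ, l = p ^ n • m) ∧
      (∀ (n : ℕ) (l : Λ), p • e (n + 1) l = e n l) ∧
      (∀ (n : ℕ) (ℓ : Nat.Primes) (l : Λ), e n (T ℓ l) = heckeOperatorBar N ℓ (e n l)) ∧
      (∀ (K : Type) [Field K] [CharZero K]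
        (χ : CuspForm.heckeAlgebra N 2 (∅ : Set ℕ) →+* K),
        Module.finrank K (eigenSub K T
          (fun ℓ => χ (CuspForm.heckeEvalForms N 2 (ModularCurve.heckeGen ℓ)))) = 2)

theorem nonempty_jacInput_of_statements (hS37 : S37Statement) (hHC : HCStatement)
    (hGal : GalCommStatement) (hLat : LatStatement) (N p : ℕ) [NeZero N] [Fact p.Prime] :
    Nonempty (JacInput N p) := by
  obtain ⟨Λ, i1, i2, i3, T, e, h1, h2, h3, h4, h5⟩ := hLat N p
  exact ⟨JacInput.ofStatements N p (Nat.Prime.pos Fact.out) hS37 hHC hGal Λ T e h1 h2 h3 h4 h5⟩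

theorem s30_of_statements (hS37 : S37Statement) (hHC : HCStatement)
    (hGal : GalCommStatement) (hLat : LatStatement) : S30Statement :=
  s30_of_jacInput fun N p _ _ => nonempty_jacInput_of_statements hS37 hHC hGal hLat N p

theorem s29_of_statements (hS37 : S37Statement) (hHC : HCStatement)
    (hGal : GalCommStatement) (hLat : LatStatement) : S29Statement :=
  s29_of_s30 (s30_of_statements hS37 hHC hGal hLat)

theorem s42_of_statements (hS37 : S37Statement) (hHC : HCStatement)
    (hGal : GalCommStatement) (hLat : LatStatement) : S42Statement :=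
  s42_of_s29 (s29_of_statements hS37 hHC hGal hLat)

end Fermat.Agent.GalRep
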