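import Mathlib
import Fermat.Agent.GalRep.S30Of
import Fermat.Agent.HeckeBar.Final
import Fermat.Agent.HeckeBar.GaloisHecke

/-!
# Item 72: S30, S29, S42 from S37 (item 68) and the Hecke lattice (`LatStatement`, Layer E)

Item 74 (HECKE-BAR) is discharged here.
-/

set_option autoImplicit false

open ModularCurve

namespace Fermat.Agent.GalRep

theorem hcStatement : HCStatement :=
  fun N _ => Fermat.Agent.HeckeBar.heckeOperatorsCommuteBar N

theorem galCommStatement : GalCommStatement :=
  fun N _ σ ℓ x => (Fermat.Agent.HeckeBar.gal_heckeOperatorBar_smul N ℓ σ x).symm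

theorem s30_of_s37_lat (hS37 : S37Statement) (hLat : LatStatement) : S30Statement :=
  s30_of_statements hS37 hcStatement galCommStatement hLat

theorem s29_of_s37_lat (hS37 : S37Statement) (hLat : LatStatement) : S29Statement :=
  s29_of_statements hS37 hcStatement galCommStatement hLat

theorem s42_of_s37_lat (hS37 : S37Statement) (hLat : LatStatement) : S42Statement :=
  s42_of_statements hS37 hcStatement galCommStatement hLat

/-- the arithmetic input `JacInput` from S37 and the Hecke lattice -/
theorem nonempty_jacInput_of_s37_lat (hS37 : S37Statement) (hLat : LatStatement)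
    (N p : ℕ) [NeZero N] [Fact p.Prime] : Nonempty (JacInput N p) :=
  nonempty_jacInput_of_statements hS37 hcStatement galCommStatement hLat N p

end Fermat.Agent.GalRep
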