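import Fermat.Agent.GalRep.S30Of2
import Fermat.Agent.LatE.LatStatement
import Fermat.Agent.S37

/-!
# Item 72: the two inputs of the Galois representations, unconditionally

* `s37Statement : S37Statement` — the Eichler–Shimura congruence (statement S37, item 68);
* `LatE.latStatement : LatStatement` — the Hecke-equivariant lattice (Layer E);

hence `s30Statement`, `s29Statement`, `s42Statement` (the frozen statements S30, S29, S42) and the
Jacobian input `nonempty_jacInput` used by S31.
-/

set_option autoImplicit false

namespace Fermat.Agent.GalRep

/-- the Eichler–Shimura congruence relation (S37) in the form used by item 72 -/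
theorem s37Statement : S37Statement :=
  fun N p _ hcomm => Fermat.Agent.S37.result N p hcomm

/-- the frozen statement S30 -/
theorem s30Statement : S30Statement :=
  s30_of_s37_lat s37Statement Fermat.Agent.LatE.latStatement

/-- the frozen statement S29 -/
theorem s29Statement : S29Statement :=
  s29_of_s37_lat s37Statement Fermat.Agent.LatE.latStatement

/-- the frozen statement S42 -/
theorem s42Statement : S42Statement :=
  s42_of_s37_lat s37Statement Fermat.Agent.LatE.latStatement

end Fermat.Agent.GalRep
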